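import Fermat.Agent.LT.End.HeckeFun
import Fermat.Agent.LT.Ray

/-!
# Weight one forms for dihedral images: definitions and statements of the pieces (CL11)
-/

set_option autoImplicit false

open IsDedekindDomain NumberField CongruenceSubgroup UpperHalfPlane
open scoped MatrixGroups ModularForm Manifold
local notation "Γℚ" => (AlgebraicClosure ℚ ≃ₐ[ℚ] AlgebraicClosure ℚ)

namespace Fermat.Agent.Classic.Dih

open Fermat.Agent.LT (IsRay)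

/-- `exp (2 π i x)` -/
noncomputable def eC (x : UnitAddCircle) : ℂ := (AddCircle.toCircle x : Circle)

theorem norm_eC (x : UnitAddCircle) : ‖eC x‖ = 1 := Circle.norm_coe _

theorem eC_add (x y : UnitAddCircle) : eC (x + y) = eC x * eC y := by
  unfold eC
  rw [AddCircle.toCircle_add, Circle.coe_mul]

theorem eC_zero : eC 0 = 1 := by
  unfold eC
  rw [AddCircle.toCircle_zero, Circle.coe_one]

theorem eC_half : eC ((1 / 2 : ℝ) : UnitAddCircle) = -1 := by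
  unfold eC
  rw [AddCircle.toCircle_apply_mk, Circle.coe_exp]
  rw [show ((2 * Real.pi / 1 * (1 / 2) : ℝ) : ℂ) = Real.pi by push_cast; ring]
  exact Complex.exp_pi_mul_I

/-- A `q`-series as a function on the upper half plane. -/
noncomputable def qser (a : ℕ → ℂ) (τ : ℍ) : ℂ :=
  ∑' n : ℕ, a n * Complex.exp (2 * Real.pi * Complex.I * n * (τ : ℂ))

section Field

variable {E : Type} [Field E] [NumberField E]

/-- `exp (2 π i ψ(I))`, `ψ(I) = ∑_v ord_v(I) ψ(v)`. -/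
noncomputable def eI (ψ : HeightOneSpectrum (𝓞 E) → UnitAddCircle) (I : Ideal (𝓞 E)) : ℂ :=
  eC (∑ᶠ v : HeightOneSpectrum (𝓞 E), (Associates.mk v.asIdeal).count (Associates.mk I).factors • ψ v)

/-- the coefficients of the theta series of `ψ`: `∑ ψ(I)` over the ideals of norm `n`, for `n`
prime to `N`. -/
noncomputable def lam (N : ℕ) (ψ : HeightOneSpectrum (𝓞 E) → UnitAddCircle) (n : ℕ) : ℂ :=
  if n.Coprime N then ∑ᶠ I ∈ {I : Ideal (𝓞 E) | Ideal.absNorm I = n}, eI ψ I else 0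

/-- `p` splits in `E` as `P Q`. -/
structure IsPair (p : ℕ) (P Q : HeightOneSpectrum (𝓞 E)) : Prop where
  ne : P ≠ Q
  norm_P : Ideal.absNorm P.asIdeal = p
  norm_Q : Ideal.absNorm Q.asIdeal = p
  mul_eq : P.asIdeal * Q.asIdeal = Ideal.span {(p : 𝓞 E)}
  above : ∀ R : HeightOneSpectrum (𝓞 E), (p : 𝓞 E) ∈ R.asIdeal → R = P ∨ R = Q

end Field

/-! ### The input -/

/-- `ρ` and the ray character `ψ` of the imaginary quadratic field `E` agree at the primes with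
`ρ(Frob) = ±1`. -/
def PsiInput (ρ : Γℚ →* GL (Fin 2) (ZMod 3)) : Prop :=
  ∃ (E : Type) (_ : Field E) (_ : NumberField E) (_ : IsTotallyComplex E),
    Module.finrank ℚ E = 2 ∧
    ∃ (S : Finset (HeightOneSpectrum (𝓞 E))) (n : ℕ) (ψ : HeightOneSpectrum (𝓞 E) → UnitAddCircle),
      IsRay S n ψ ∧ ∃ B : Finset ℕ,
      ∀ p : ℕ, p.Prime → p ∉ B → ∀ A : ValuationSubring (AlgebraicClosure ℚ), A.LiesOverPrime p →
        ∀ σ : Γℚ, A.IsFrobeniusAt σ p →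
          ∀ P : HeightOneSpectrum (𝓞 E), (p : 𝓞 E) ∈ P.asIdeal →
            (ρ σ = 1 → Ideal.absNorm P.asIdeal = p ∧ ψ P = 0) ∧
            (ρ σ = -1 → Ideal.absNorm P.asIdeal = p ∧ ψ P = ((1 / 2 : ℝ) : UnitAddCircle))

/-- There are primes `p ≡ 1` modulo any `M` with `ρ(Frob_p) = -1`. -/
def NegInput (ρ : Γℚ →* GL (Fin 2) (ZMod 3)) : Prop :=
  ∀ (M : ℕ), M ≠ 0 → ∀ B : Finset ℕ, ∃ p : ℕ, p.Prime ∧ p ∉ B ∧ (p : ZMod M) = 1 ∧
    ∃ A : ValuationSubring (AlgebraicClosure ℚ), A.LiesOverPrime p ∧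
      ∃ σ : Γℚ, A.IsFrobeniusAt σ p ∧ ρ σ = -1

/-! ### The pieces -/

/-- **DI1** (helper93, helper95): invariance of the theta series. -/
def InvStmt : Prop :=
  ∀ (E : Type) [Field E] [NumberField E] [IsTotallyComplex E], Module.finrank ℚ E = 2 →
    ∀ (S : Finset (HeightOneSpectrum (𝓞 E))) (n : ℕ)
      (ψ : HeightOneSpectrum (𝓞 E) → UnitAddCircle), IsRay S n ψ →
    ∃ N₀ : ℕ, N₀ ≠ 0 ∧ ∀ N : ℕ, N ≠ 0 → N₀ ∣ N → ∃ m : ℕ, m ≠ 0 ∧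
      (∀ γ ∈ Gamma1 (N ^ m), qser (lam N ψ) ∣[(1 : ℤ)] γ = qser (lam N ψ)) ∧
      ∀ (p : ℕ) (P Q : HeightOneSpectrum (𝓞 E)), p.Prime → ¬ p ∣ N → IsPair p P Q →
        ψ P + ψ Q = 0 → ∀ γ ∈ Gamma0 (N ^ m), γ 1 1 = (p : ℤ) →
          qser (lam N ψ) ∣[(1 : ℤ)] γ = qser (lam N ψ)

/-- **DI2** (helper4): the coefficients. -/
def CoefStmt : Prop :=
  ∀ (E : Type) [Field E] [NumberField E], Module.finrank ℚ E = 2 → ∀ N : ℕ, 2 ≤ N →
    ∀ ψ : HeightOneSpectrum (𝓞 E) → UnitAddCircle,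
      lam N ψ 0 = 0 ∧ lam N ψ 1 = 1 ∧ (∃ (C : ℝ) (A : ℕ), ∀ n, ‖lam N ψ n‖ ≤ C * (n : ℝ) ^ A) ∧
      ∀ (p : ℕ) (P Q : HeightOneSpectrum (𝓞 E)), p.Prime → ¬ p ∣ N → IsPair p P Q →
        ψ P + ψ Q = 0 → ∀ n : ℕ,
          lam N ψ (p * n) + (if p ∣ n then lam N ψ (n / p) else 0) =
            (eC (ψ P) + eC (ψ Q)) * lam N ψ n

/-- **DI3** (helper66): `q`-series with coefficients of polynomial growth. -/
def AnaStmt : Prop :=
  ∀ (a : ℕ → ℂ) (C : ℝ) (A : ℕ), (∀ n, ‖a n‖ ≤ C * (n : ℝ) ^ A) → a 0 = 0 →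
    MDiff (qser a) ∧ (∃ (C' : ℝ) (B : ℕ), ∀ τ : ℍ, ‖qser a τ‖ ≤ C' * (1 + τ.im⁻¹) ^ B) ∧
    (a 1 ≠ 0 → qser a ≠ 0) ∧
    ∀ (p : ℕ) (x : ℂ), p.Prime → (∀ n, a (p * n) + (if p ∣ n then a (n / p) else 0) = x * a n) →
      ∀ z : ℍ, (p : ℂ)⁻¹ * ∑ j ∈ Finset.range p, qser a (ModularForm.heckeMatrix p j • z) +
        qser a (ModularForm.heckeDiagMatrix p • z) = x * qser a z

/-- **DI4** (helper10): cuspidality from one Hecke eigenvalue `≠ 2` at a prime `≡ 1` modulo the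
level. -/
def CuspStmt : Prop :=
  ∀ (M : ℕ) [NeZero M] (f : ℍ → ℂ), MDiff f → (∀ γ ∈ Gamma1 M, f ∣[(1 : ℤ)] γ = f) →
    (∃ (C : ℝ) (B : ℕ), ∀ τ : ℍ, ‖f τ‖ ≤ C * (1 + τ.im⁻¹) ^ B) →
    ∀ (ℓ : ℕ) (x : ℂ), ℓ.Prime → (ℓ : ZMod M) = 1 → x ≠ 2 →
      (∀ z : ℍ, (ℓ : ℂ)⁻¹ * ∑ j ∈ Finset.range ℓ, f (ModularForm.heckeMatrix ℓ j • z) +
        f (ModularForm.heckeDiagMatrix ℓ • z) = x * f z) →
      ∃ F : CuspForm (Gamma1 M) 1, ⇑F = f

end Fermat.Agent.Classic.Dih
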