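import Mathlib
import Fermat.Agent.Classic.Dihedral.Defs

/-!
# Series `∑ a(n) q ^ n` with coefficients of polynomial growth

Holomorphy, growth at the boundary, non-vanishing and Hecke operators of weight one
(`DI3` of the dihedral case).
-/

set_option autoImplicit false

noncomputable section

open UpperHalfPlane hiding I
open Complex ModularForm Filter Topology
open scoped MatrixGroups ModularForm Manifold Real

namespace Fermat.Agent.Classic.Dih

variable {a : ℕ → ℂ} {C : ℝ} {A : ℕ}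

theorem norm_exp_term (n : ℕ) (z : ℂ) :
    ‖cexp (2 * π * I * n * z)‖ = Real.exp (-(2 * π * n * z.im)) := by
  rw [Complex.norm_exp]
  congr 1
  simp [Complex.mul_re, Complex.mul_im]

theorem exp_neg_le (m : ℕ) {x : ℝ} (hx : 0 < x) : Real.exp (-x) ≤ m.factorial / x ^ m := by
  have h1 := Real.pow_div_factorial_le_exp x hx.le m
  rw [Real.exp_neg, ← inv_div]
  exact inv_anti₀ (by positivity) h1

theorem const_nonneg (ha : ∀ n, ‖a n‖ ≤ C * (n : ℝ) ^ A) : 0 ≤ C := by
  have h1 := (norm_nonneg _).trans (ha 1)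
  simpa using h1

/-- The termwise bound, uniformly on `c ≤ Im z`. -/
theorem norm_term_le (h0 : a 0 = 0) (ha : ∀ n, ‖a n‖ ≤ C * (n : ℝ) ^ A) {c : ℝ} (hc : 0 < c)
    (n : ℕ) {z : ℂ} (hz : c ≤ z.im) :
    ‖a n * cexp (2 * π * I * n * z)‖ ≤
      C * (A + 2).factorial / (2 * π * c) ^ (A + 2) * (1 / (n : ℝ) ^ 2) := by
  have hC := const_nonneg ha
  rcases Nat.eq_zero_or_pos n with rfl | hn
  · simp [h0]
  have hn' : (0 : ℝ) < n := by exact_mod_cast hn
  have hx : 0 < 2 * π * n * c := by positivity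
  rw [norm_mul, norm_exp_term]
  have h1 : Real.exp (-(2 * π * n * z.im)) ≤ Real.exp (-(2 * π * n * c)) := by
    apply Real.exp_le_exp.mpr
    have : 2 * π * n * c ≤ 2 * π * n * z.im := mul_le_mul_of_nonneg_left hz (by positivity)
    linarith
  have h2 := exp_neg_le (A + 2) hx
  calc ‖a n‖ * Real.exp (-(2 * π * n * z.im))
      ≤ (C * (n : ℝ) ^ A) * ((A + 2).factorial / (2 * π * n * c) ^ (A + 2)) :=
        mul_le_mul (ha n) (h1.trans h2) (Real.exp_nonneg _) (by positivity)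
    _ = C * (A + 2).factorial / (2 * π * c) ^ (A + 2) * (1 / (n : ℝ) ^ 2) := by
        have h3 : (2 * π * n * c) ^ (A + 2) = (2 * π * c) ^ (A + 2) * ((n : ℝ) ^ A * (n : ℝ) ^ 2) := by
          rw [← pow_add, ← mul_pow]
          congr 1
          ring
        rw [h3]
        have h4 : (2 * π * c) ^ (A + 2) ≠ 0 := by positivity
        have h5 : (n : ℝ) ^ A ≠ 0 := by positivity
        have h6 : (n : ℝ) ^ 2 ≠ 0 := by positivity
        field_simp

theorem summable_bound (K : ℝ) : Summable fun n : ℕ => K * (1 / (n : ℝ) ^ 2) :=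
  (Real.summable_one_div_nat_pow.mpr one_lt_two).mul_left K

theorem summable_norm_term (h0 : a 0 = 0) (ha : ∀ n, ‖a n‖ ≤ C * (n : ℝ) ^ A) {z : ℂ}
    (hz : 0 < z.im) : Summable fun n : ℕ => ‖a n * cexp (2 * π * I * n * z)‖ :=
  Summable.of_nonneg_of_le (fun _ => norm_nonneg _)
    (fun n => norm_term_le h0 ha hz n le_rfl) (summable_bound _)

theorem summable_term (h0 : a 0 = 0) (ha : ∀ n, ‖a n‖ ≤ C * (n : ℝ) ^ A) {z : ℂ}
    (hz : 0 < z.im) : Summable fun n : ℕ => a n * cexp (2 * π * I * n * z) :=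
  (summable_norm_term h0 ha hz).of_norm

theorem hasSum_qser (h0 : a 0 = 0) (ha : ∀ n, ‖a n‖ ≤ C * (n : ℝ) ^ A) (τ : ℍ) :
    HasSum (fun n : ℕ => a n * cexp (2 * π * I * n * τ)) (qser a τ) :=
  (summable_term h0 ha τ.im_pos).hasSum

/-- **Growth.** -/
theorem norm_qser_le (h0 : a 0 = 0) (ha : ∀ n, ‖a n‖ ≤ C * (n : ℝ) ^ A) :
    ∃ K : ℝ, 0 ≤ K ∧ ∀ τ : ℍ, ‖qser a τ‖ ≤ K * (1 / τ.im) ^ (A + 2) := by
  have hC := const_nonneg ha
  refine ⟨C * (A + 2).factorial / (2 * π) ^ (A + 2) * ∑' n : ℕ, 1 / (n : ℝ) ^ 2, ?_, fun τ => ?_⟩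
  · have : 0 ≤ ∑' n : ℕ, 1 / (n : ℝ) ^ 2 := tsum_nonneg fun n => by positivity
    positivity
  · have h1 := (summable_bound (C * (A + 2).factorial / (2 * π * τ.im) ^ (A + 2))).hasSum
    have h2 := tsum_of_norm_bounded h1 fun n => norm_term_le h0 ha τ.im_pos n (z := (τ : ℂ)) le_rfl
    refine h2.trans (le_of_eq ?_)
    rw [tsum_mul_left, mul_pow]
    have h3 : τ.im ^ (A + 2) ≠ 0 := pow_ne_zero _ τ.im_pos.ne'
    have h4 : (2 * π) ^ (A + 2) ≠ 0 := by positivity
    rw [one_div, inv_pow]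
    field_simp

/-- **Growth**, in the form for the boundedness at the cusps. -/
theorem norm_qser_le' (h0 : a 0 = 0) (ha : ∀ n, ‖a n‖ ≤ C * (n : ℝ) ^ A) :
    ∃ (K : ℝ) (B : ℕ), ∀ τ : ℍ, ‖qser a τ‖ ≤ K * (1 + τ.im⁻¹) ^ B := by
  obtain ⟨K, hK, h⟩ := norm_qser_le h0 ha
  refine ⟨K, A + 2, fun τ => (h τ).trans (mul_le_mul_of_nonneg_left ?_ hK)⟩
  have h1 : 0 < τ.im⁻¹ := inv_pos.mpr τ.im_pos
  rw [one_div]
  exact pow_le_pow_left₀ h1.le (by linarith) _

/-- **Holomorphy.** -/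
theorem mdiff_qser (h0 : a 0 = 0) (ha : ∀ n, ‖a n‖ ≤ C * (n : ℝ) ^ A) : MDiff (qser a) := by
  rw [UpperHalfPlane.mdifferentiable_iff]
  have h1 : DifferentiableOn ℂ (fun z : ℂ => ∑' n : ℕ, a n * cexp (2 * π * I * n * z))
      {z : ℂ | 0 < z.im} := by
    intro z hz
    have hz' : 0 < z.im / 2 := half_pos hz
    have hopen : IsOpen {w : ℂ | z.im / 2 < w.im} := isOpen_lt continuous_const Complex.continuous_im
    have h2 : DifferentiableOn ℂ (fun w : ℂ => ∑' n : ℕ, a n * cexp (2 * π * I * n * w))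
        {w : ℂ | z.im / 2 < w.im} := by
      refine differentiableOn_tsum_of_summable_norm
        (summable_bound (C * (A + 2).factorial / (2 * π * (z.im / 2)) ^ (A + 2)))
        (fun n => ?_) hopen (fun n w hw => norm_term_le h0 ha hz' n (le_of_lt hw))
      exact (((differentiable_const _).mul
        ((differentiable_id.const_mul _).cexp))).differentiableOn
    have h3 : z ∈ {w : ℂ | z.im / 2 < w.im} := by
      show z.im / 2 < z.im
      exact half_lt_self hz
    exact ((h2 z h3).differentiableAt (hopen.mem_nhds h3)).differentiableWithinAt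
  refine h1.congr fun z hz => ?_
  show qser a (ofComplex z) = _
  rw [qser, ofComplex_apply_of_im_pos hz]

/-- **Non-vanishing.** -/
theorem tendsto_qser_mul (h0 : a 0 = 0) (ha : ∀ n, ‖a n‖ ≤ C * (n : ℝ) ^ A) :
    Tendsto (fun τ : ℍ => qser a τ * cexp (-(2 * π * I * τ))) atImInfty (𝓝 (a 1)) := by
  have h1 : ∀ τ : ℍ, qser a τ * cexp (-(2 * π * I * τ)) =
      ∑' n : ℕ, a n * cexp (2 * π * I * n * τ) * cexp (-(2 * π * I * τ)) := fun τ => by
    rw [qser, tsum_mul_right]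
  have h2 : ∀ (n : ℕ) (τ : ℍ), ‖a n * cexp (2 * π * I * n * τ) * cexp (-(2 * π * I * τ))‖ =
      ‖a n‖ * Real.exp (-(2 * π * (n - 1) * τ.im)) := fun n τ => by
    rw [norm_mul, norm_mul, norm_exp_term, Complex.norm_exp, mul_assoc, ← Real.exp_add]
    congr 2
    simp [Complex.mul_re, Complex.mul_im]
    ring
  have h3 : (a 1 : ℂ) = ∑' n : ℕ, (if n = 1 then a 1 else 0) := by
    rw [tsum_ite_eq]
  rw [h3]
  simp_rw [h1]
  refine tendsto_tsum_of_dominated_convergence
    (bound := fun n => Real.exp (2 * π) * ‖a n * cexp (2 * π * I * n * (I : ℂ))‖)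
    ((summable_norm_term h0 ha (z := I) (by simp)).mul_left _) (fun n => ?_) ?_
  · rcases Nat.lt_trichotomy n 1 with hn | rfl | hn
    · have hn0 : n = 0 := by omega
      subst hn0
      simp [h0]
    · simp only [if_true]
      refine tendsto_const_nhds.congr fun τ => ?_
      rw [mul_assoc, ← Complex.exp_add]
      simp
    · rw [if_neg (by omega), tendsto_zero_iff_norm_tendsto_zero]
      simp_rw [h2]
      have h4 : Tendsto (fun τ : ℍ => 2 * π * ((n : ℝ) - 1) * τ.im) atImInfty atTop := by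
        refine Tendsto.const_mul_atTop ?_ tendsto_comap
        have : (1 : ℝ) < n := by exact_mod_cast hn
        have : 0 < (n : ℝ) - 1 := by linarith
        positivity
      have h5 := (Real.tendsto_exp_neg_atTop_nhds_zero.comp h4).const_mul ‖a n‖
      rw [mul_zero] at h5
      exact h5
  · have h6 : ∀ᶠ τ : ℍ in atImInfty, 1 ≤ τ.im :=
      (tendsto_comap (f := UpperHalfPlane.im)).eventually_ge_atTop 1
    filter_upwards [h6] with τ hτ n
    rw [h2]
    rcases Nat.eq_zero_or_pos n with rfl | hn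
    · simp [h0]
    have hn' : (1 : ℝ) ≤ n := by exact_mod_cast hn
    rw [norm_mul, norm_exp_term, mul_left_comm, ← Real.exp_add]
    refine mul_le_mul_of_nonneg_left (Real.exp_le_exp.mpr ?_) (norm_nonneg _)
    have h7 : 0 ≤ 2 * π * ((n : ℝ) - 1) := by
      have : 0 ≤ (n : ℝ) - 1 := by linarith
      positivity
    have h8 : 2 * π * ((n : ℝ) - 1) * 1 ≤ 2 * π * ((n : ℝ) - 1) * τ.im :=
      mul_le_mul_of_nonneg_left hτ h7
    rw [Complex.I_im]
    linarith

theorem qser_ne_zero (h0 : a 0 = 0) (ha : ∀ n, ‖a n‖ ≤ C * (n : ℝ) ^ A) (h1 : a 1 ≠ 0) :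
    qser a ≠ 0 := by
  intro h
  have h2 := tendsto_qser_mul h0 ha
  rw [h] at h2
  simp only [Pi.zero_apply, zero_mul] at h2
  exact h1 (tendsto_nhds_unique tendsto_const_nhds h2).symm

/-! ### Hecke operators -/

theorem sum_exp_eq {p : ℕ} (hp : p ≠ 0) (n : ℕ) :
    ∑ j ∈ Finset.range p, cexp (2 * π * I * n * (j / p)) = if p ∣ n then (p : ℂ) else 0 := by
  have hp' : (p : ℂ) ≠ 0 := by exact_mod_cast hp
  have h1 := Complex.isPrimitiveRoot_exp p hp
  set ζ := cexp (2 * π * I / p) with hζ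
  have h2 : ∀ j ∈ Finset.range p, cexp (2 * π * I * n * (j / p)) = (ζ ^ n) ^ j := fun j _ => by
    rw [hζ, ← pow_mul, ← Complex.exp_nat_mul]
    congr 1
    push_cast
    field_simp
  rw [Finset.sum_congr rfl h2]
  split_ifs with hpn
  · rw [(h1.pow_eq_one_iff_dvd n).mpr hpn]
    simp
  · have h3 : ζ ^ n ≠ 1 := fun h => hpn ((h1.pow_eq_one_iff_dvd n).mp h)
    rw [geom_sum_eq h3, ← pow_mul, mul_comm, pow_mul, h1.pow_eq_one, one_pow, sub_self, zero_div]

theorem norm_mul_coeff_le (ha : ∀ n, ‖a n‖ ≤ C * (n : ℝ) ^ A) (p n : ℕ) :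
    ‖a (p * n)‖ ≤ C * (p : ℝ) ^ A * (n : ℝ) ^ A := by
  have h1 := ha (p * n)
  rw [Nat.cast_mul, mul_pow, ← mul_assoc] at h1
  exact h1

theorem norm_div_coeff_le (ha : ∀ n, ‖a n‖ ≤ C * (n : ℝ) ^ A) (p n : ℕ) :
    ‖(if p ∣ n then a (n / p) else 0 : ℂ)‖ ≤ C * (n : ℝ) ^ A := by
  have hC := const_nonneg ha
  split_ifs with h
  · refine (ha _).trans (mul_le_mul_of_nonneg_left ?_ hC)
    exact pow_le_pow_left₀ (by positivity) (by exact_mod_cast Nat.div_le_self n p) _
  · rw [norm_zero]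
    positivity

/-- `∑_j f((τ + j) / p) = p ∑ a(pn) q ^ n` -/
theorem sum_qser_heckeMatrix (h0 : a 0 = 0) (ha : ∀ n, ‖a n‖ ≤ C * (n : ℝ) ^ A) {p : ℕ}
    (hp : p ≠ 0) (τ : ℍ) :
    ∑ j ∈ Finset.range p, qser a (heckeMatrix p j • τ) = p * qser (fun n => a (p * n)) τ := by
  have hp' : (p : ℂ) ≠ 0 := by exact_mod_cast hp
  have h1 : ∀ j ∈ Finset.range p, qser a (heckeMatrix p j • τ) =
      ∑' n : ℕ, a n * cexp (2 * π * I * n * (τ / p)) * cexp (2 * π * I * n * (j / p)) := by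
    intro j _
    refine tsum_congr fun n => ?_
    rw [coe_heckeMatrix_smul hp, mul_assoc (a n), ← Complex.exp_add]
    congr 2
    ring
  have h2 : ∀ j ∈ Finset.range p, Summable fun n : ℕ =>
      a n * cexp (2 * π * I * n * (τ / p)) * cexp (2 * π * I * n * (j / p)) := by
    intro j _
    have h3 := (hasSum_qser h0 ha (heckeMatrix p j • τ)).summable
    refine h3.congr fun n => ?_
    rw [coe_heckeMatrix_smul hp, mul_assoc (a n), ← Complex.exp_add]
    congr 2
    ring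
  rw [Finset.sum_congr rfl h1, ← Summable.tsum_finsetSum h2]
  simp_rw [← Finset.mul_sum, sum_exp_eq hp]
  rw [qser, ← tsum_mul_left]
  have hinj : Function.Injective fun m : ℕ => p * m := fun m m' h =>
    Nat.eq_of_mul_eq_mul_left (Nat.pos_of_ne_zero hp) h
  rw [← hinj.tsum_eq]
  · refine tsum_congr fun m => ?_
    rw [if_pos (dvd_mul_right p m)]
    have h4 : cexp (2 * π * I * ((p * m : ℕ) : ℂ) * (τ / p)) = cexp (2 * π * I * m * τ) := by
      congr 1
      push_cast
      field_simp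
    rw [h4]
    ring
  · intro n hn
    rw [Function.mem_support] at hn
    by_cases h : p ∣ n
    · obtain ⟨m, rfl⟩ := h
      exact ⟨m, rfl⟩
    · rw [if_neg h, mul_zero] at hn
      exact absurd rfl hn

/-- `f(pτ) = ∑ a(n/p) q ^ n` -/
theorem qser_heckeDiagMatrix {p : ℕ} (hp : p ≠ 0) (τ : ℍ) :
    qser a (heckeDiagMatrix p • τ) = qser (fun n => if p ∣ n then a (n / p) else 0) τ := by
  have hinj : Function.Injective fun m : ℕ => p * m := fun m m' h =>
    Nat.eq_of_mul_eq_mul_left (Nat.pos_of_ne_zero hp) h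
  rw [qser, qser]
  refine Eq.trans ?_ (hinj.tsum_eq ?_)
  · refine tsum_congr fun m => ?_
    rw [if_pos (dvd_mul_right p m), Nat.mul_div_cancel_left m (Nat.pos_of_ne_zero hp),
      coe_heckeDiagMatrix_smul hp]
    congr 2
    push_cast
    ring
  · intro n hn
    rw [Function.mem_support] at hn
    by_cases h : p ∣ n
    · obtain ⟨m, rfl⟩ := h
      exact ⟨m, rfl⟩
    · simp only [if_neg h, zero_mul] at hn
      exact absurd rfl hn

/-- **The Hecke operator `T_p` of weight one on `∑ a(n) q ^ n`.** -/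
theorem qser_hecke (h0 : a 0 = 0) (ha : ∀ n, ‖a n‖ ≤ C * (n : ℝ) ^ A) {p : ℕ} (hp : p ≠ 0) {x : ℂ}
    (H : ∀ n, a (p * n) + (if p ∣ n then a (n / p) else 0) = x * a n) (τ : ℍ) :
    (p : ℂ)⁻¹ * ∑ j ∈ Finset.range p, qser a (heckeMatrix p j • τ) +
      qser a (heckeDiagMatrix p • τ) = x * qser a τ := by
  have hp' : (p : ℂ) ≠ 0 := by exact_mod_cast hp
  rw [sum_qser_heckeMatrix h0 ha hp, qser_heckeDiagMatrix hp, inv_mul_cancel_left₀ hp']
  have h1 := hasSum_qser (a := fun n => a (p * n)) (by simp [h0]) (norm_mul_coeff_le ha p) τ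
  have h2 := hasSum_qser (a := fun n => if p ∣ n then a (n / p) else 0) (by simp [h0])
    (norm_div_coeff_le ha p) τ
  have h3 := (hasSum_qser h0 ha τ).mul_left x
  refine (h1.add h2).unique ?_
  have h4 : (fun n : ℕ => x * (a n * cexp (2 * π * I * n * τ))) = fun n : ℕ =>
      a (p * n) * cexp (2 * π * I * n * τ) +
        (if p ∣ n then a (n / p) else 0) * cexp (2 * π * I * n * τ) := by
    funext n
    rw [← add_mul, H n]
    ring
  rw [← h4]
  exact h3

/-- **DI3.** -/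
theorem anaStmt : AnaStmt := fun _ _ _ ha h0 =>
  ⟨mdiff_qser h0 ha, norm_qser_le' h0 ha, qser_ne_zero h0 ha,
    fun _ _ hp H z => qser_hecke h0 ha hp.ne_zero H z⟩

/-! ### Periodicity -/

/-- Every `q`-series is periodic with period `1` (termwise, no convergence is needed). -/
theorem qser_slash_T_zpow (a : ℕ → ℂ) (j : ℤ) :
    qser a ∣[(1 : ℤ)] (ModularGroup.T ^ j) = qser a := by
  funext τ
  rw [SL_slash_apply, UpperHalfPlane.modular_T_zpow_smul]
  have h1 : denom (ModularGroup.T ^ j : SL(2, ℤ)) τ = 1 := by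
    rw [ModularGroup.denom_apply, ModularGroup.coe_T_zpow]
    simp
  rw [h1, one_zpow, mul_one]
  refine tsum_congr fun n => ?_
  congr 1
  rw [UpperHalfPlane.coe_vadd]
  have h2 : (2 * π * I * n * (((j : ℝ) : ℂ) + τ) : ℂ) =
      2 * π * I * n * τ + ((n * j : ℤ) : ℂ) * (2 * π * I) := by
    push_cast
    ring
  rw [h2, Complex.exp_add, Complex.exp_int_mul_two_pi_mul_I, mul_one]

end Fermat.Agent.Classic.Dih

end
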