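import Fermat.Agent.Classic.Dihedral.Pair

/-!
# The weight one form attached to a dihedral image, from the pieces
-/

set_option autoImplicit false

open IsDedekindDomain NumberField CongruenceSubgroup UpperHalfPlane
open scoped MatrixGroups ModularForm Manifold
local notation "Γℚ" => (AlgebraicClosure ℚ ≃ₐ[ℚ] AlgebraicClosure ℚ)

namespace Fermat.Agent.Classic.Dih

open Fermat.Agent.LT.End Fermat.Agent.X1

/-- There is an element of `Γ₀(M)` with lower right entry `p` (as an integer). -/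
theorem exists_gamma0_eq {M p : ℕ} (hpM : p.Coprime M) :
    ∃ g ∈ Gamma0 M, (g : SL(2, ℤ)) 1 1 = (p : ℤ) := by
  obtain ⟨u, v, huv⟩ : IsCoprime (p : ℤ) (M : ℤ) := Nat.isCoprime_iff_coprime.2 hpM
  refine ⟨⟨!![u, -v; (M : ℤ), (p : ℤ)], ?_⟩, ?_, rfl⟩
  · rw [Matrix.det_fin_two_of]
    linarith
  · rw [Gamma0_mem]
    change (((M : ℤ) : ℤ) : ZMod M) = 0
    simp

/-- **DI10a**: the input of the end game. -/
theorem wtOneInput_of (hInv : InvStmt) (hCoef : CoefStmt) (hAna : AnaStmt) (hCusp : CuspStmt)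
    (ρ : Γℚ →* GL (Fin 2) (ZMod 3)) (hP : PsiInput ρ) (hN : NegInput ρ) : WtOneInput ρ := by
  classical
  obtain ⟨E, i1, i2, i3, h2, S, n, ψ, hψ, B, hB⟩ := hP
  obtain ⟨N₀, hN₀, hN₀'⟩ := hInv E h2 S n ψ hψ
  set N : ℕ := 2 * N₀ with hNdef
  have hN0 : N ≠ 0 := mul_ne_zero two_ne_zero hN₀
  have hN2 : 2 ≤ N := by omega
  obtain ⟨m, hm, hinv1, hinv0⟩ := hN₀' N hN0 (Dvd.intro_left 2 rfl)
  obtain ⟨hl0, hl1, ⟨C, A, hCA⟩, hhecke⟩ := hCoef E h2 N hN2 ψ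
  obtain ⟨hhol, hgrow, hne, hTp⟩ := hAna (lam N ψ) C A hCA hl0
  set M : ℕ := N ^ m with hM
  have hM0 : M ≠ 0 := pow_ne_zero _ hN0
  have : NeZero M := ⟨hM0⟩
  have hNM : ∀ p : ℕ, p.Prime → ¬ p ∣ M → ¬ p ∣ N := fun p hp h1 h3 => h1 (h3.trans (dvd_pow_self N hm))
  -- the bad primes
  let B' : Finset ℕ := B ∪ (NumberField.discr E).natAbs.primeFactors
  have hdisc : ∀ p : ℕ, p.Prime → p ∉ B' → ¬ (p : ℤ) ∣ NumberField.discr E := by
    intro p hp hpB h3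
    refine hpB (Finset.mem_union_right _ (Nat.mem_primeFactors.mpr ⟨hp, ?_, ?_⟩))
    · exact Int.natCast_dvd.mp h3
    · rw [Ne, Int.natAbs_eq_zero]
      exact NumberField.discr_ne_zero E
  -- the pair and the values above a prime with `ρ(Frob) = ±1`
  have hpair : ∀ p : ℕ, p.Prime → p ∉ B' → ∀ A : ValuationSubring (AlgebraicClosure ℚ),
      A.LiesOverPrime p → ∀ σ : Γℚ, A.IsFrobeniusAt σ p → ∀ x : ℂ,
        ((ρ σ = 1 ∧ x = 2) ∨ (ρ σ = -1 ∧ x = -2)) →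
        ∃ P Q : HeightOneSpectrum (𝓞 E), IsPair p P Q ∧ ψ P + ψ Q = 0 ∧
          eC (ψ P) + eC (ψ Q) = x := by
    intro p hp hpB A hA σ hσ x hx
    have hpB1 : p ∉ B := fun h => hpB (Finset.mem_union_left _ h)
    have hval := hB p hp hpB1 A hA σ hσ
    rcases hx with ⟨hs, rfl⟩ | ⟨hs, rfl⟩
    · obtain ⟨P, Q, hPQ⟩ := exists_isPair h2 hp (hdisc p hp hpB) fun P hP => ((hval P hP).1 hs).1
      have hmP : (p : 𝓞 E) ∈ P.asIdeal := by
        rw [← hPQ.norm_P]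
        exact Ideal.absNorm_mem _
      have hmQ : (p : 𝓞 E) ∈ Q.asIdeal := by
        rw [← hPQ.norm_Q]
        exact Ideal.absNorm_mem _
      have e1 := ((hval P hmP).1 hs).2
      have e2 := ((hval Q hmQ).1 hs).2
      refine ⟨P, Q, hPQ, by rw [e1, e2, add_zero], ?_⟩
      rw [e1, e2, eC_zero]
      norm_num
    · obtain ⟨P, Q, hPQ⟩ := exists_isPair h2 hp (hdisc p hp hpB) fun P hP => ((hval P hP).2 hs).1
      have hmP : (p : 𝓞 E) ∈ P.asIdeal := by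
        rw [← hPQ.norm_P]
        exact Ideal.absNorm_mem _
      have hmQ : (p : 𝓞 E) ∈ Q.asIdeal := by
        rw [← hPQ.norm_Q]
        exact Ideal.absNorm_mem _
      have e1 := ((hval P hmP).2 hs).2
      have e2 := ((hval Q hmQ).2 hs).2
      refine ⟨P, Q, hPQ, ?_, ?_⟩
      · rw [e1, e2, ← AddCircle.coe_add]
        norm_num
      · rw [e1, e2, eC_half]
        norm_num
  -- the Hecke identity
  have hT : ∀ (p : ℕ) (P Q : HeightOneSpectrum (𝓞 E)), p.Prime → ¬ p ∣ N → IsPair p P Q →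
      ψ P + ψ Q = 0 → ∀ z : ℍ, (p : ℂ)⁻¹ * ∑ j ∈ Finset.range p,
          qser (lam N ψ) (ModularForm.heckeMatrix p j • z) +
        qser (lam N ψ) (ModularForm.heckeDiagMatrix p • z) =
        (eC (ψ P) + eC (ψ Q)) * qser (lam N ψ) z :=
    fun p P Q hp hpN hPQ h0 => hTp p _ hp (hhecke p P Q hp hpN hPQ h0)
  -- the cusp form
  obtain ⟨ℓ, hℓ, hℓB, hℓM, A₀, hA₀, σ₀, hσ₀, hs₀⟩ := hN M hM0 B'
  have hℓN : ¬ ℓ ∣ N := by
    intro h3
    have h4 : (1 : ZMod M) = (ℓ : ZMod M) := hℓM.symm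
    have h5 : ℓ ∣ M := h3.trans (dvd_pow_self N hm)
    have h6 : ((1 : ℕ) : ZMod ℓ) = ((ℓ : ℕ) : ZMod ℓ) := by
      have h7 : (1 : ℕ) ≡ ℓ [MOD M] := (ZMod.natCast_eq_natCast_iff 1 ℓ M).mp (by
        rw [Nat.cast_one]; exact h4)
      exact (ZMod.natCast_eq_natCast_iff 1 ℓ ℓ).mpr (h7.of_dvd h5)
    rw [Nat.cast_one, ZMod.natCast_self] at h6
    have : Fact (1 < ℓ) := ⟨hℓ.one_lt⟩
    exact one_ne_zero h6
  obtain ⟨P₀, Q₀, hPQ₀, h00, hx₀⟩ := hpair ℓ hℓ hℓB A₀ hA₀ σ₀ hσ₀ (-2) (Or.inr ⟨hs₀, rfl⟩)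
  obtain ⟨F, hF⟩ := hCusp M (qser (lam N ψ)) hhol hinv1 hgrow ℓ (-2) hℓ hℓM (by norm_num) (by
    have h3 := hT ℓ P₀ Q₀ hℓ hℓN hPQ₀ h00
    rwa [hx₀] at h3)
  have hF0 : F ≠ 0 := by
    intro h3
    apply hne (by rw [hl1]; exact one_ne_zero)
    rw [← hF, h3]
    rfl
  refine Fermat.Agent.LT.End.wtOneInput_of ρ F hF0 B' fun p hp hpB hpM x hx => ?_
  obtain ⟨A, hA, σ, hσ, hx⟩ := hx
  obtain ⟨P, Q, hPQ, h0, hxe⟩ := hpair p hp hpB A hA σ hσ x hx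
  have hpN := hNM p hp hpM
  obtain ⟨g, hg, hgp⟩ := exists_gamma0_eq (M := M) (p := p) ((Nat.Prime.coprime_iff_not_dvd hp).mpr hpM)
  refine ⟨g, hg, by rw [hgp, Int.cast_natCast], fun z => ?_⟩
  have h3 : (⇑F : ℍ → ℂ) ∣[(1 : ℤ)] g = ⇑F := by
    rw [hF]
    exact hinv0 p P Q hp hpN hPQ h0 g hg hgp
  rw [h3, hF, ← hxe]
  exact hT p P Q hp hpN hPQ h0 z

end Fermat.Agent.Classic.Dih
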