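import Fermat.Agent.Classic.Dihedral.Defs

/-!
# CL11, DI2: the coefficients of the theta series of a character of ideals

`coefStmt : CoefStmt`. The number of ideals of norm `n` of a quadratic field is at most `n ^ 2`
(an ideal `I` of norm `n` is `(n) + (a)`, `a` modulo `n`); the recursion at a split prime `(p) = P Q`
is inclusion - exclusion for the ideals of norm `p n` divisible by `P` or by `Q`.
-/

set_option autoImplicit false

open IsDedekindDomain NumberField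

namespace Fermat.Agent.Classic.Dih

variable {E : Type} [Field E] [NumberField E] (ψ : HeightOneSpectrum (𝓞 E) → UnitAddCircle)

/-- the exponent of `v` in the ideal `I` -/
noncomputable def cnt (v : HeightOneSpectrum (𝓞 E)) (I : Ideal (𝓞 E)) : ℕ :=
  (Associates.mk v.asIdeal).count (Associates.mk I).factors

theorem eI_eq (I : Ideal (𝓞 E)) : eI ψ I = eC (∑ᶠ v : HeightOneSpectrum (𝓞 E), cnt v I • ψ v) :=
  rfl

theorem finite_cnt {I : Ideal (𝓞 E)} (hI : I ≠ 0) :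
    {v : HeightOneSpectrum (𝓞 E) | cnt v I ≠ 0}.Finite := by
  refine (Ideal.finite_factors hI).subset fun v hv => ?_
  exact (Associates.count_ne_zero_iff_dvd hI v.irreducible).mp hv

theorem finite_supp {I : Ideal (𝓞 E)} (hI : I ≠ 0) :
    (Function.support fun v : HeightOneSpectrum (𝓞 E) => cnt v I • ψ v).Finite := by
  refine (finite_cnt hI).subset fun v hv h => hv ?_
  show cnt v I • ψ v = 0
  rw [h, zero_smul]

theorem cnt_mul (v : HeightOneSpectrum (𝓞 E)) {I J : Ideal (𝓞 E)} (hI : I ≠ 0) (hJ : J ≠ 0) :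
    cnt v (I * J) = cnt v I + cnt v J := by
  unfold cnt
  rw [← Associates.mk_mul_mk, Associates.count_mul (Associates.mk_ne_zero.mpr hI)
    (Associates.mk_ne_zero.mpr hJ) (Associates.irreducible_mk.mpr v.irreducible)]

theorem eI_mul {I J : Ideal (𝓞 E)} (hI : I ≠ 0) (hJ : J ≠ 0) :
    eI ψ (I * J) = eI ψ I * eI ψ J := by
  rw [eI_eq, eI_eq, eI_eq, ← eC_add, ← finsum_add_distrib (finite_supp ψ hI) (finite_supp ψ hJ)]
  congr 1
  refine finsum_congr fun v => ?_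
  rw [cnt_mul v hI hJ, add_smul]

theorem cnt_top (v : HeightOneSpectrum (𝓞 E)) : cnt v ⊤ = 0 := by
  by_contra h
  have h0 : (⊤ : Ideal (𝓞 E)) ≠ 0 := top_ne_bot
  have h1 := (Associates.count_ne_zero_iff_dvd h0 v.irreducible).mp h
  rw [Ideal.dvd_iff_le, top_le_iff] at h1
  exact v.isPrime.ne_top h1

theorem eI_top : eI ψ (⊤ : Ideal (𝓞 E)) = 1 := by
  rw [eI_eq]
  simp only [cnt_top, zero_smul, finsum_zero, eC_zero]

theorem cnt_self (v : HeightOneSpectrum (𝓞 E)) : cnt v v.asIdeal = 1 :=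
  Associates.count_self (Associates.irreducible_mk.mpr v.irreducible)

theorem cnt_of_ne {v w : HeightOneSpectrum (𝓞 E)} (h : v ≠ w) : cnt v w.asIdeal = 0 := by
  by_contra hcon
  have h1 := (Associates.count_ne_zero_iff_dvd w.ne_bot v.irreducible).mp hcon
  rw [Ideal.dvd_iff_le] at h1
  exact h (HeightOneSpectrum.ext (w.isMaximal.eq_of_le v.isPrime.ne_top h1).symm)

theorem eI_asIdeal (w : HeightOneSpectrum (𝓞 E)) : eI ψ w.asIdeal = eC (ψ w) := by
  rw [eI_eq, finsum_eq_single _ w (fun v hv => by rw [cnt_of_ne hv, zero_smul]), cnt_self,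
    one_smul]

theorem norm_eI (I : Ideal (𝓞 E)) : ‖eI ψ I‖ = 1 := norm_eC _

/-! ### The ideals of norm `n` -/

variable (E) in
/-- the ideals of norm `n` -/
noncomputable def idn (n : ℕ) : Finset (Ideal (𝓞 E)) :=
  (Ideal.finite_setOfPred_absNorm_eq (S := 𝓞 E) n).toFinset

theorem mem_idn {n : ℕ} {I : Ideal (𝓞 E)} : I ∈ idn E n ↔ Ideal.absNorm I = n := by
  unfold idn
  rw [Set.Finite.mem_toFinset]
  rfl

theorem ne_zero_of_mem_idn {n : ℕ} (hn : n ≠ 0) {I : Ideal (𝓞 E)} (hI : I ∈ idn E n) : I ≠ 0 := by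
  rintro rfl
  rw [mem_idn] at hI
  apply hn
  rw [← hI]
  exact Ideal.absNorm_bot

theorem lam_eq_sum {N n : ℕ} (hn : n.Coprime N) : lam N ψ n = ∑ I ∈ idn E n, eI ψ I := by
  unfold lam idn
  rw [if_pos hn, finsum_mem_eq_finite_toFinset_sum]

theorem idn_one : idn E 1 = {⊤} := by
  ext I
  rw [mem_idn, Finset.mem_singleton, Ideal.absNorm_eq_one_iff]

theorem card_idn_le (hE : Module.finrank ℚ E = 2) {n : ℕ} (hn : n ≠ 0) :
    (idn E n).card ≤ n ^ 2 := by
  classical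
  have hn' : (n : 𝓞 E) ≠ 0 := Nat.cast_ne_zero.mpr hn
  have hne : (Ideal.span {(n : 𝓞 E)} : Ideal (𝓞 E)) ≠ ⊥ := by
    rw [Ne, Ideal.span_singleton_eq_bot]
    exact hn'
  have : Finite (𝓞 E ⧸ (Ideal.span {(n : 𝓞 E)} : Ideal (𝓞 E))) :=
    Ideal.finiteQuotientOfFreeOfNeBot _ hne
  have := Fintype.ofFinite (𝓞 E ⧸ (Ideal.span {(n : 𝓞 E)} : Ideal (𝓞 E)))
  have hcard : Fintype.card (𝓞 E ⧸ (Ideal.span {(n : 𝓞 E)} : Ideal (𝓞 E))) = n ^ 2 := by
    have h1 := Ideal.absNorm_span_natCast (S := 𝓞 E) n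
    rw [RingOfIntegers.rank, hE] at h1
    rw [← h1, Ideal.absNorm_apply, Submodule.cardQuot_apply, Nat.card_eq_fintype_card]
  rw [← hcard]
  have h2 : idn E n ⊆ (Finset.univ : Finset (𝓞 E ⧸ (Ideal.span {(n : 𝓞 E)} : Ideal (𝓞 E)))).image
      (fun x => Ideal.span {(n : 𝓞 E)} ⊔ Ideal.span {(Quotient.out x : 𝓞 E)}) := by
    intro I hI
    rw [mem_idn] at hI
    have h3 : Ideal.span {(n : 𝓞 E)} ≤ I := by
      rw [Ideal.span_singleton_le_iff_mem, ← hI]
      exact Ideal.absNorm_mem I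
    obtain ⟨a, ha⟩ := IsDedekindDomain.exists_sup_span_eq h3 hne
    rw [Finset.mem_image]
    refine ⟨Ideal.Quotient.mk _ a, Finset.mem_univ _, ?_⟩
    rw [← ha]
    have h4 : (Quotient.out (Ideal.Quotient.mk (Ideal.span {(n : 𝓞 E)}) a) : 𝓞 E) - a ∈
        Ideal.span {(n : 𝓞 E)} := by
      rw [← Ideal.Quotient.eq]
      exact Quotient.out_eq _
    set b : 𝓞 E := Quotient.out (Ideal.Quotient.mk (Ideal.span {(n : 𝓞 E)}) a) with hb
    apply le_antisymm
    · refine sup_le le_sup_left ?_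
      rw [Ideal.span_singleton_le_iff_mem]
      have h5 : b - a ∈ Ideal.span {(n : 𝓞 E)} ⊔ Ideal.span {a} := Ideal.mem_sup_left h4
      have h6 : a ∈ Ideal.span {(n : 𝓞 E)} ⊔ Ideal.span {a} :=
        Ideal.mem_sup_right (Ideal.mem_span_singleton_self a)
      have h7 := Ideal.add_mem _ h5 h6
      rwa [sub_add_cancel] at h7
    · refine sup_le le_sup_left ?_
      rw [Ideal.span_singleton_le_iff_mem]
      have h5 : b - a ∈ Ideal.span {(n : 𝓞 E)} ⊔ Ideal.span {b} := Ideal.mem_sup_left h4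
      have h6 : b ∈ Ideal.span {(n : 𝓞 E)} ⊔ Ideal.span {b} :=
        Ideal.mem_sup_right (Ideal.mem_span_singleton_self b)
      have h7 := Ideal.sub_mem _ h6 h5
      rwa [sub_sub_cancel] at h7
  exact (Finset.card_le_card h2).trans Finset.card_image_le

theorem norm_lam_le (hE : Module.finrank ℚ E = 2) (N n : ℕ) (hN : 2 ≤ N) :
    ‖lam N ψ n‖ ≤ 1 * (n : ℝ) ^ 2 := by
  rw [one_mul]
  by_cases h : n.Coprime N
  · have hn : n ≠ 0 := by
      rintro rfl
      rw [Nat.coprime_zero_left] at h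
      omega
    rw [lam_eq_sum ψ h]
    refine (norm_sum_le _ _).trans ?_
    simp only [norm_eI]
    rw [Finset.sum_const, nsmul_eq_mul, mul_one]
    exact_mod_cast card_idn_le hE hn
  · unfold lam
    rw [if_neg h, norm_zero]
    positivity

/-! ### The recursion at a split prime -/

theorem image_mul_idn {P : HeightOneSpectrum (𝓞 E)} {p n : ℕ} (hp : p ≠ 0)
    (hP : Ideal.absNorm P.asIdeal = p) {I : Ideal (𝓞 E)} :
    (I ∈ idn E (p * n) ∧ P.asIdeal ∣ I) ↔ ∃ J ∈ idn E n, P.asIdeal * J = I := by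
  constructor
  · rintro ⟨h1, J, rfl⟩
    rw [mem_idn, map_mul, hP] at h1
    exact ⟨J, mem_idn.mpr (Nat.eq_of_mul_eq_mul_left (Nat.pos_of_ne_zero hp) h1), rfl⟩
  · rintro ⟨J, hJ, rfl⟩
    rw [mem_idn] at hJ
    refine ⟨?_, dvd_mul_right _ _⟩
    rw [mem_idn, map_mul, hP, hJ]

theorem sum_dvd {P : HeightOneSpectrum (𝓞 E)} {p n : ℕ} (hp : p ≠ 0) (hn : n ≠ 0)
    (hP : Ideal.absNorm P.asIdeal = p) [DecidablePred fun I : Ideal (𝓞 E) => P.asIdeal ∣ I] :
    ∑ I ∈ (idn E (p * n)).filter (fun I => P.asIdeal ∣ I), eI ψ I =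
      eC (ψ P) * ∑ I ∈ idn E n, eI ψ I := by
  rw [Finset.mul_sum]
  symm
  refine Finset.sum_bij (fun J _ => P.asIdeal * J) ?_ ?_ ?_ ?_
  · intro J hJ
    rw [Finset.mem_filter]
    exact (image_mul_idn hp hP).mpr ⟨J, hJ, rfl⟩
  · intro J _ J' _ h
    exact mul_left_cancel₀ P.ne_bot h
  · intro I hI
    rw [Finset.mem_filter] at hI
    obtain ⟨J, hJ, h⟩ := (image_mul_idn hp hP).mp hI
    exact ⟨J, hJ, h⟩
  · intro J hJ
    rw [eI_mul ψ P.ne_bot (ne_zero_of_mem_idn hn hJ), eI_asIdeal]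

/-- an ideal whose norm is divisible by `p` is divisible by `P` or by `Q` -/
theorem IsPair.dvd_or {p : ℕ} (hp : p.Prime) {P Q : HeightOneSpectrum (𝓞 E)} (h : IsPair p P Q)
    {I : Ideal (𝓞 E)} (hI : p ∣ Ideal.absNorm I) : P.asIdeal ∣ I ∨ Q.asIdeal ∣ I := by
  obtain ⟨R, hR, hRp, hRI⟩ := Ideal.exists_isMaximal_dvd_of_dvd_absNorm' hp I hI
  have hpR : (p : 𝓞 E) ∈ R := by
    have h1 : ((p : ℤ)) ∈ R.under ℤ := by
      rw [hRp]
      exact Ideal.mem_span_singleton_self _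
    rw [Ideal.mem_comap] at h1
    simpa using h1
  have hR0 : R ≠ ⊥ := by
    rintro rfl
    rw [Ideal.mem_bot] at hpR
    exact hp.ne_zero (by exact_mod_cast hpR)
  rcases h.above ⟨R, hR.isPrime, hR0⟩ hpR with h1 | h1
  · left
    rw [← h1]
    exact hRI
  · right
    rw [← h1]
    exact hRI

theorem IsPair.mul_dvd_iff {p : ℕ} {P Q : HeightOneSpectrum (𝓞 E)} (h : IsPair p P Q)
    {I : Ideal (𝓞 E)} : P.asIdeal ∣ I ∧ Q.asIdeal ∣ I ↔ P.asIdeal * Q.asIdeal ∣ I := by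
  constructor
  · rintro ⟨h1, h2⟩
    refine IsCoprime.mul_dvd ?_ h1 h2
    rw [Ideal.isCoprime_iff_sup_eq]
    exact Ideal.IsMaximal.coprime_of_ne P.isMaximal Q.isMaximal
      (fun hcon => h.ne (HeightOneSpectrum.ext hcon))
  · intro h1
    exact ⟨(dvd_mul_right _ _).trans h1, (dvd_mul_left _ _).trans h1⟩

theorem sum_both {p n : ℕ} (hp : p.Prime) (hn : n ≠ 0) {P Q : HeightOneSpectrum (𝓞 E)}
    (h : IsPair p P Q) (hψ : ψ P + ψ Q = 0)
    [DecidablePred fun I : Ideal (𝓞 E) => P.asIdeal ∣ I ∧ Q.asIdeal ∣ I] :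
    ∑ I ∈ (idn E (p * n)).filter (fun I => P.asIdeal ∣ I ∧ Q.asIdeal ∣ I), eI ψ I =
      if p ∣ n then ∑ I ∈ idn E (n / p), eI ψ I else 0 := by
  have hPQ : eI ψ (P.asIdeal * Q.asIdeal) = 1 := by
    rw [eI_mul ψ P.ne_bot Q.ne_bot, eI_asIdeal, eI_asIdeal, ← eC_add, hψ, eC_zero]
  have hN : Ideal.absNorm (P.asIdeal * Q.asIdeal) = p * p := by
    rw [map_mul, h.norm_P, h.norm_Q]
  have hPQ0 : P.asIdeal * Q.asIdeal ≠ 0 := mul_ne_zero P.ne_bot Q.ne_bot
  split_ifs with hpn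
  · obtain ⟨k, rfl⟩ := hpn
    rw [Nat.mul_div_cancel_left k hp.pos]
    have hk : k ≠ 0 := by
      rintro rfl
      exact hn (mul_zero _)
    symm
    refine Finset.sum_bij (fun J _ => P.asIdeal * Q.asIdeal * J) ?_ ?_ ?_ ?_
    · intro J hJ
      rw [mem_idn] at hJ
      rw [Finset.mem_filter, mem_idn, h.mul_dvd_iff, map_mul, hN, hJ]
      exact ⟨by ring, dvd_mul_right _ _⟩
    · intro J _ J' _ h'
      exact mul_left_cancel₀ hPQ0 h'
    · intro I hI
      rw [Finset.mem_filter, mem_idn, h.mul_dvd_iff] at hI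
      obtain ⟨h1, J, rfl⟩ := hI
      refine ⟨J, ?_, rfl⟩
      rw [map_mul, hN, mul_assoc] at h1
      rw [mem_idn]
      exact Nat.eq_of_mul_eq_mul_left hp.pos (Nat.eq_of_mul_eq_mul_left hp.pos h1)
    · intro J hJ
      rw [eI_mul ψ hPQ0 (ne_zero_of_mem_idn hk hJ), hPQ, one_mul]
  · refine Finset.sum_eq_zero fun I hI => ?_
    exfalso
    rw [Finset.mem_filter, mem_idn, h.mul_dvd_iff] at hI
    obtain ⟨h1, J, rfl⟩ := hI
    rw [map_mul, hN, mul_assoc] at h1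
    exact hpn ⟨_, (Nat.eq_of_mul_eq_mul_left hp.pos h1).symm⟩

theorem sum_rec {p n : ℕ} (hp : p.Prime) (hn : n ≠ 0) {P Q : HeightOneSpectrum (𝓞 E)}
    (h : IsPair p P Q) (hψ : ψ P + ψ Q = 0) :
    (∑ I ∈ idn E (p * n), eI ψ I) + (if p ∣ n then ∑ I ∈ idn E (n / p), eI ψ I else 0) =
      (eC (ψ P) + eC (ψ Q)) * ∑ I ∈ idn E n, eI ψ I := by
  classical
  rw [add_mul, ← sum_dvd ψ hp.ne_zero hn h.norm_P, ← sum_dvd ψ hp.ne_zero hn h.norm_Q,
    ← Finset.sum_union_inter, ← Finset.filter_or, ← Finset.filter_and, sum_both ψ hp hn h hψ]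
  congr 2
  rw [Finset.filter_true_of_mem]
  intro I hI
  rw [mem_idn] at hI
  exact h.dvd_or hp (hI ▸ dvd_mul_right p n)

/-- **DI2**. -/
theorem coefStmt : CoefStmt := by
  intro E _ _ hE N hN ψ
  refine ⟨?_, ?_, ⟨1, 2, fun n => norm_lam_le ψ hE N n hN⟩, ?_⟩
  · unfold lam
    rw [if_neg]
    rw [Nat.coprime_zero_left]
    omega
  · rw [lam_eq_sum ψ (Nat.coprime_one_left N), idn_one, Finset.sum_singleton, eI_top]
  · intro p P Q hp hpN h hψ n
    have hpc : p.Coprime N := (Nat.Prime.coprime_iff_not_dvd hp).mpr hpN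
    by_cases hc : n.Coprime N
    · have hn : n ≠ 0 := by
        rintro rfl
        rw [Nat.coprime_zero_left] at hc
        omega
      rw [lam_eq_sum ψ hc, lam_eq_sum ψ (hpc.mul_left hc), ← sum_rec ψ hp hn h hψ]
      congr 1
      split_ifs with hpn
      · rw [lam_eq_sum ψ (Nat.Coprime.coprime_dvd_left (Nat.div_dvd_of_dvd hpn) hc)]
      · rfl
    · have h1 : lam N ψ n = 0 := by
        unfold lam
        rw [if_neg hc]
      have h2 : lam N ψ (p * n) = 0 := by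
        unfold lam
        rw [if_neg]
        intro hcon
        exact hc (Nat.Coprime.coprime_mul_left hcon)
      rw [h1, h2, mul_zero, zero_add]
      split_ifs with hpn
      · unfold lam
        rw [if_neg]
        intro hcon
        apply hc
        rw [← Nat.mul_div_cancel' hpn]
        exact hpc.mul_left hcon
      · rfl

end Fermat.Agent.Classic.Dih
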