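import Fermat.Agent.Classic.GroupB

/-!
# `-1` is a commutator (CL11)
-/

set_option autoImplicit false

namespace Fermat.Agent.Classic

open Matrix

local notation "G3" => GL (Fin 2) (ZMod 3)
local notation "M3" => Matrix (Fin 2) (Fin 2) (ZMod 3)

/-- **`-1` is a commutator** in every subgroup of `GL₂(𝔽₃)` without invariant line containing an
involution of determinant `-1`. -/
theorem exists_comm_neg {G : Subgroup G3} (h : NoInvLine G) {c : G3} (hcG : c ∈ G)
    (hc : c * c = 1) (hd : (c : M3).det = -1) :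
    ∃ g ∈ G, ∃ k ∈ G, g * k * g⁻¹ * k⁻¹ = -1 :=
  exists_commutator_of_noInvLine h hcG hc hd

/-- The same for the image of a homomorphism. -/
theorem exists_comm_neg_range {Γ : Type*} [Group Γ] (ρ : Γ →* G3) (h : NoInvLine ρ.range) {c : Γ}
    (hc : ρ c * ρ c = 1) (hd : (ρ c : M3).det = -1) :
    ∃ g k : Γ, ρ (g * k * g⁻¹ * k⁻¹) = -1 := by
  obtain ⟨_, ⟨g, rfl⟩, _, ⟨k, rfl⟩, h1⟩ := exists_comm_neg h ⟨c, rfl⟩ hc hd
  exact ⟨g, k, by rw [map_mul, map_mul, map_mul, map_inv, map_inv, h1]⟩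

end Fermat.Agent.Classic
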