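import Fermat.Agent.Classic.Dihedral.Defs
import Fermat.Agent.LT.RawCusp
import Fermat.Prelude.Def_ModularForm_HeckeOperator

/-!
# A form of moderate growth with a Hecke eigenvalue `x ≠ 2` at a prime `ℓ ≡ 1 mod M` is cuspidal (DI4)

`f` holomorphic on the upper half plane, invariant of weight one under `Γ₁(M)`, of moderate growth.
For `γ ∈ SL₂(ℤ)` the function `f ∣ γ` has a limit `c(γ)` at `i∞`. If `ℓ ≡ 1 mod M` then for each of
the `ℓ + 1` representatives `α` of the Hecke operator `α γ = γ' β` with `γ' ≡ T^j γ mod M`, so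
`f ∣ α ∣ γ = f ∣ γ ∣ β`, and exactly one of the `β` is `diag(ℓ, 1)`, the others have the lower right
entry `ℓ`. Hence `x c(γ) = (1 + ℓ / ℓ) c(γ) = 2 c(γ)`. (helper10, after helper93's plan)
-/

set_option autoImplicit false

noncomputable section

open UpperHalfPlane ModularForm CongruenceSubgroup Matrix.SpecialLinearGroup Filter Topology
open scoped MatrixGroups Manifold ModularForm

namespace Fermat.Agent.Classic.Dih.Cusp

/-! ### integral matrices of determinant a prime -/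

/-- If the first column is divisible by `ℓ` then `A = γ diag(ℓ, 1)`. -/
theorem exists_mul_diag {ℓ : ℕ} (hℓ : ℓ ≠ 0) {A : Matrix (Fin 2) (Fin 2) ℤ} (hA : A.det = ℓ)
    (h0 : (ℓ : ℤ) ∣ A 0 0) (h1 : (ℓ : ℤ) ∣ A 1 0) :
    ∃ γ : SL(2, ℤ), A = (γ : Matrix (Fin 2) (Fin 2) ℤ) * !![(ℓ : ℤ), 0; 0, 1] := by
  obtain ⟨a, ha⟩ := h0
  obtain ⟨c, hc⟩ := h1
  have hℓ' : (ℓ : ℤ) ≠ 0 := by exact_mod_cast hℓ
  refine ⟨⟨!![a, A 0 1; c, A 1 1], ?_⟩, ?_⟩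
  · rw [Matrix.det_fin_two_of]
    rw [Matrix.det_fin_two, ha, hc] at hA
    have : (ℓ : ℤ) * (a * A 1 1 - A 0 1 * c) = ℓ * 1 := by linear_combination hA
    exact mul_left_cancel₀ hℓ' this
  · ext i j
    fin_cases i <;> fin_cases j <;> simp [Matrix.mul_apply, Fin.sum_univ_two, ha, hc, mul_comm]

/-- If the first column is not divisible by the prime `ℓ` then `A = γ (1 b; 0 ℓ)` with `M ∣ b`. -/
theorem exists_mul_upper {ℓ M : ℕ} (hℓ : ℓ.Prime) (hM : (M : ℤ) ∣ ℓ - 1)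
    {A : Matrix (Fin 2) (Fin 2) ℤ} (hA : A.det = ℓ) (h : ¬ ((ℓ : ℤ) ∣ A 0 0 ∧ (ℓ : ℤ) ∣ A 1 0)) :
    ∃ (γ : SL(2, ℤ)) (b : ℤ), (M : ℤ) ∣ b ∧
      A = (γ : Matrix (Fin 2) (Fin 2) ℤ) * !![(1 : ℤ), b; 0, (ℓ : ℤ)] := by
  have hco : IsCoprime (A 0 0) (A 1 0) := by
    rw [Int.isCoprime_iff_gcd_eq_one]
    have hd : ((A 0 0).gcd (A 1 0) : ℤ) ∣ ℓ := by
      rw [← hA, Matrix.det_fin_two]
      exact dvd_sub (Dvd.dvd.mul_right (Int.gcd_dvd_left _ _) _)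
        (Dvd.dvd.mul_left (Int.gcd_dvd_right _ _) _)
    rcases (Nat.dvd_prime hℓ).mp (by exact_mod_cast hd) with h1 | h1
    · exact h1
    · exact absurd ⟨h1 ▸ Int.gcd_dvd_left _ _, h1 ▸ Int.gcd_dvd_right _ _⟩ h
  obtain ⟨u, v, huv⟩ := hco
  rw [Matrix.det_fin_two] at hA
  set b : ℤ := u * A 0 1 + v * A 1 1 with hb
  -- `A = γ₀ (1 b; 0 ℓ)` with `γ₀ = (A₀₀ -v; A₁₀ u)`, and `γ = γ₀ T^b`
  refine ⟨⟨!![A 0 0, A 0 0 * b - v; A 1 0, A 1 0 * b + u], ?_⟩, b - b * ℓ, ?_, ?_⟩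
  · rw [Matrix.det_fin_two_of]
    linear_combination huv
  · obtain ⟨t, ht⟩ := hM
    exact ⟨-b * t, by linear_combination (-b) * ht⟩
  · ext i j
    fin_cases i <;> fin_cases j
    · simp [Matrix.mul_apply, Fin.sum_univ_two]
    · simp only [Matrix.mul_apply, Fin.sum_univ_two, Matrix.of_apply, Matrix.cons_val', Fin.zero_eta,
        Fin.mk_one, Matrix.cons_val_zero, Matrix.cons_val_one, Matrix.cons_val_fin_one]
      linear_combination (-A 0 1) * huv + (-v) * hA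
    · simp [Matrix.mul_apply, Fin.sum_univ_two]
    · simp only [Matrix.mul_apply, Fin.sum_univ_two, Matrix.of_apply, Matrix.cons_val', Fin.mk_one, Matrix.cons_val_zero, Matrix.cons_val_one, Matrix.cons_val_fin_one]
      linear_combination (-A 1 1) * huv + u * hA

/-! ### the slash action -/

variable {M : ℕ} {f : ℍ → ℂ}

theorem mem_Gamma1_of_map {h : SL(2, ℤ)} {j : ZMod M}
    (hh : (h : Matrix (Fin 2) (Fin 2) ℤ).map (Int.castRingHom (ZMod M)) = !![1, j; 0, 1]) :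
    h ∈ Gamma1 M := by
  rw [Gamma1_mem]
  have h1 : ∀ i k, ((h i k : ℤ) : ZMod M) = !![1, j; 0, 1] i k := fun i k => by
    rw [← hh]; rfl
  exact ⟨by simpa using h1 0 0, by simpa using h1 1 1, by simpa using h1 1 0⟩

/-- `α γ = γ' β` with `α ≡ T^j`, `β ≡ 1 mod M` gives `f ∣ α ∣ γ = f ∣ γ ∣ β`. -/
theorem slash_decomp (hinv : ∀ γ ∈ Gamma1 M, f ∣[(1 : ℤ)] γ = f)
    {α β : Matrix (Fin 2) (Fin 2) ℤ} {αg βg : GL (Fin 2) ℝ}
    (hαg : (αg : Matrix (Fin 2) (Fin 2) ℝ) = α.map (Int.castRingHom ℝ))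
    (hβg : (βg : Matrix (Fin 2) (Fin 2) ℝ) = β.map (Int.castRingHom ℝ)) {j : ZMod M}
    (hα : α.map (Int.castRingHom (ZMod M)) = !![1, j; 0, 1])
    (hβ : β.map (Int.castRingHom (ZMod M)) = 1) {γ γ' : SL(2, ℤ)}
    (h : α * (γ : Matrix (Fin 2) (Fin 2) ℤ) = (γ' : Matrix (Fin 2) (Fin 2) ℤ) * β) :
    (f ∣[(1 : ℤ)] αg) ∣[(1 : ℤ)] γ = (f ∣[(1 : ℤ)] γ) ∣[(1 : ℤ)] βg := by
  have h1 : αg * (γ : GL (Fin 2) ℝ) = (γ' : GL (Fin 2) ℝ) * βg := by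
    apply Units.ext
    have h2 := congrArg (fun A => A.map (Int.castRingHom ℝ)) h
    simp only [Matrix.map_mul] at h2
    rw [Units.val_mul, Units.val_mul, hαg, hβg]
    exact h2
  have h3 : γ' * γ⁻¹ ∈ Gamma1 M := by
    have h4 := congrArg (fun A => A.map (Int.castRingHom (ZMod M))) h
    simp only [Matrix.map_mul, hβ, mul_one] at h4
    refine mem_Gamma1_of_map (j := j) ?_
    rw [Matrix.SpecialLinearGroup.coe_mul, Matrix.map_mul, ← h4, mul_assoc, ← Matrix.map_mul,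
      ← Matrix.SpecialLinearGroup.coe_mul, mul_inv_cancel, Matrix.SpecialLinearGroup.coe_one, hα]
    simp
  have h5 : f ∣[(1 : ℤ)] γ' = f ∣[(1 : ℤ)] γ := by
    have h6 := hinv _ h3
    calc f ∣[(1 : ℤ)] γ' = f ∣[(1 : ℤ)] (γ' * γ⁻¹ * γ) := by rw [inv_mul_cancel_right]
      _ = (f ∣[(1 : ℤ)] (γ' * γ⁻¹)) ∣[(1 : ℤ)] γ := SlashAction.slash_mul _ _ _ _
      _ = _ := by rw [h6]
  rw [ModularForm.SL_slash, ← SlashAction.slash_mul, h1, SlashAction.slash_mul,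
    ← ModularForm.SL_slash, h5]

/-- The limit at `i∞` of `g ∣ β`, `β` upper triangular. -/
theorem tendsto_slash {g : ℍ → ℂ} {c : ℂ} (hg : Tendsto g atImInfty (𝓝 c)) {β : GL (Fin 2) ℝ}
    (hdet : 0 < β.det.val) (h10 : β 1 0 = 0) :
    Tendsto (g ∣[(1 : ℤ)] β) atImInfty (𝓝 (c * ((β 1 1 : ℝ) : ℂ)⁻¹)) := by
  have h1 : ∀ τ, (g ∣[(1 : ℤ)] β) τ = g (β • τ) * ((β 1 1 : ℝ) : ℂ)⁻¹ := fun τ => by
    rw [ModularForm.slash_apply, UpperHalfPlane.σ, if_pos hdet, sub_self, zpow_zero, mul_one]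
    simp [UpperHalfPlane.denom, h10]
  refine Tendsto.congr (fun τ => (h1 τ).symm) ?_
  exact (hg.comp (tendsto_smul_atImInfty h10)).mul_const _

/-! ### periodicity and growth -/

theorem slash_T_zpow (g : ℍ → ℂ) (n : ℤ) (z : ℍ) :
    (g ∣[(1 : ℤ)] (ModularGroup.T ^ n)) z = g ((n : ℝ) +ᵥ z) := by
  have h : ((ModularGroup.T ^ n : SL(2, ℤ)) : Matrix (Fin 2) (Fin 2) ℤ) = !![1, n; 0, 1] :=
    ModularGroup.coe_T_zpow n
  rw [ModularForm.SL_slash_apply, UpperHalfPlane.modular_T_zpow_smul, ModularGroup.denom_apply, h]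
  simp

/-- `f ∣ γ` has the period `M`. -/
theorem slash_vadd (hinv : ∀ γ ∈ Gamma1 M, f ∣[(1 : ℤ)] γ = f) (γ : SL(2, ℤ)) (n : ℤ) (z : ℍ) :
    (f ∣[(1 : ℤ)] γ) (((M * n : ℤ) : ℝ) +ᵥ z) = (f ∣[(1 : ℤ)] γ) z := by
  have h1 : γ * ModularGroup.T ^ ((M : ℤ) * n) * γ⁻¹ ∈ Gamma1 M := by
    refine mem_Gamma1_of_map (j := 0) ?_
    have hT : ((ModularGroup.T ^ ((M : ℤ) * n) : SL(2, ℤ)) : Matrix (Fin 2) (Fin 2) ℤ).map
        (Int.castRingHom (ZMod M)) = 1 := by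
      rw [ModularGroup.coe_T_zpow]
      ext i k
      fin_cases i <;> fin_cases k <;> simp
    rw [Matrix.SpecialLinearGroup.coe_mul, Matrix.SpecialLinearGroup.coe_mul, Matrix.map_mul,
      Matrix.map_mul, hT, mul_one, ← Matrix.map_mul, ← Matrix.SpecialLinearGroup.coe_mul,
      mul_inv_cancel, Matrix.SpecialLinearGroup.coe_one]
    ext i k
    fin_cases i <;> fin_cases k <;> simp
  have h3 : (f ∣[(1 : ℤ)] γ) ∣[(1 : ℤ)] (ModularGroup.T ^ ((M : ℤ) * n)) = f ∣[(1 : ℤ)] γ := by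
    calc (f ∣[(1 : ℤ)] γ) ∣[(1 : ℤ)] (ModularGroup.T ^ ((M : ℤ) * n))
        = f ∣[(1 : ℤ)] (γ * ModularGroup.T ^ ((M : ℤ) * n)) :=
          (SlashAction.slash_mul _ _ _ _).symm
      _ = f ∣[(1 : ℤ)] (γ * ModularGroup.T ^ ((M : ℤ) * n) * γ⁻¹ * γ) := by
          rw [inv_mul_cancel_right]
      _ = (f ∣[(1 : ℤ)] (γ * ModularGroup.T ^ ((M : ℤ) * n) * γ⁻¹)) ∣[(1 : ℤ)] γ :=
          SlashAction.slash_mul _ _ _ _
      _ = _ := by rw [hinv _ h1]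
  rw [← slash_T_zpow (f ∣[(1 : ℤ)] γ) (M * n) z, h3]

theorem periodic_slash (hinv : ∀ γ ∈ Gamma1 M, f ∣[(1 : ℤ)] γ = f) (γ : SL(2, ℤ)) :
    Function.Periodic ((f ∣[(1 : ℤ)] γ) ∘ ofComplex) (((M : ℝ) : ℂ)) := by
  intro w
  by_cases hw : 0 < w.im
  · have h1 : 0 < (w + ((M : ℝ) : ℂ)).im := by simpa using hw
    simp only [Function.comp_apply, ofComplex_apply_of_im_pos h1, ofComplex_apply_of_im_pos hw]
    rw [← slash_vadd hinv γ 1 ⟨w, hw⟩]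
    refine congrArg _ (UpperHalfPlane.ext ?_)
    simp [add_comm]
  · have h0 : w.im ≤ 0 := not_lt.mp hw
    have h1 : (w + ((M : ℝ) : ℂ)).im ≤ 0 := by simpa using h0
    rw [Function.comp_apply, Function.comp_apply, ofComplex_apply_of_im_nonpos h1,
      ofComplex_apply_of_im_nonpos h0]

/-- Polynomial growth of `f ∣ γ` for `y ≥ 1`. -/
theorem exists_bound_slash (hM : 0 < M) (hinv : ∀ γ ∈ Gamma1 M, f ∣[(1 : ℤ)] γ = f) {C : ℝ}
    {B : ℕ} (hgr : ∀ τ : ℍ, ‖f τ‖ ≤ C * (1 + 1 / τ.im) ^ B) (γ : SL(2, ℤ)) :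
    ∃ K : ℝ, ∀ τ : ℍ, 1 ≤ τ.im → ‖(f ∣[(1 : ℤ)] γ) τ‖ ≤ K * τ.im ^ B := by
  have hM' : (0 : ℝ) < M := by exact_mod_cast hM
  have hC : 0 ≤ C := by
    have h1 := (norm_nonneg _).trans (hgr I)
    have h2 : (0 : ℝ) < (1 + 1 / (I : ℍ).im) ^ B := by
      have := (I : ℍ).im_pos
      positivity
    exact (mul_nonneg_iff_of_pos_right h2).mp h1
  set c : ℝ := ((γ 1 0 : ℤ) : ℝ) with hc
  set d : ℝ := ((γ 1 1 : ℤ) : ℝ) with hd
  set K₀ : ℝ := (|c| * M + |d|) ^ 2 + c ^ 2 with hK₀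
  have hK₀0 : 0 ≤ K₀ := by positivity
  refine ⟨C * (1 + K₀) ^ B, fun τ hτ => ?_⟩
  obtain ⟨n, hn0, hn1⟩ : ∃ n : ℤ, 0 ≤ τ.re + M * n ∧ τ.re + M * n ≤ M := by
    refine ⟨-⌊τ.re / M⌋, ?_, ?_⟩
    · have := Int.floor_le (τ.re / M)
      rw [le_div_iff₀ hM'] at this
      push_cast
      nlinarith
    · have := Int.lt_floor_add_one (τ.re / M)
      rw [div_lt_iff₀ hM'] at this
      push_cast
      nlinarith
  set τ' : ℍ := ((M * n : ℤ) : ℝ) +ᵥ τ with hτ'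
  have him : τ'.im = τ.im := by rw [hτ']; simp
  have hre : τ'.re = τ.re + M * n := by rw [hτ']; simp [add_comm]
  rw [← slash_vadd hinv γ n τ, ← hτ', ModularForm.SL_slash_apply, norm_mul]
  set D := UpperHalfPlane.denom (γ : GL (Fin 2) ℝ) τ' with hD
  have hDe : D = (c : ℂ) * τ' + d := by rw [hD, ModularGroup.denom_apply]; simp [hc, hd]
  have hDn : Complex.normSq D = (c * τ'.re + d) ^ 2 + (c * τ'.im) ^ 2 := by
    rw [hDe, Complex.normSq_apply]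
    simp
    ring
  have hy0 : 0 < τ.im := τ.im_pos
  have hdet : ((γ 0 0 : ℤ) : ℝ) * d - ((γ 0 1 : ℤ) : ℝ) * c = 1 := by
    have h1 := γ.det_coe
    rw [Matrix.det_fin_two] at h1
    rw [hc, hd]
    exact_mod_cast h1
  -- the denominator is at least one
  have hD1 : 1 ≤ Complex.normSq D := by
    rw [hDn, him]
    by_cases h0 : γ 1 0 = 0
    · have h1 := γ.det_coe
      rw [Matrix.det_fin_two, h0, mul_zero, sub_zero] at h1
      have h2 : (γ 1 1) ^ 2 = 1 := by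
        rcases Int.eq_one_or_neg_one_of_mul_eq_one' h1 with h | h <;> rw [h.2] <;> norm_num
      have h3 : d ^ 2 = 1 := by rw [hd]; exact_mod_cast h2
      have h4 : c = 0 := by rw [hc, h0]; simp
      rw [h4]
      nlinarith
    · have h1 : 1 ≤ c ^ 2 := by
        rw [hc]
        have h2 : (1 : ℤ) ≤ (γ 1 0) ^ 2 := by
          have := sq_nonneg (γ 1 0)
          have h3 : (γ 1 0) ^ 2 ≠ 0 := pow_ne_zero _ h0
          omega
        exact_mod_cast h2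
      have h2 : 1 ≤ τ.im ^ 2 := by nlinarith
      nlinarith [sq_nonneg (c * τ'.re + d), mul_self_nonneg c]
  have hD2 : Complex.normSq D ≤ K₀ * τ.im ^ 2 := by
    rw [hDn, him, hK₀]
    have h1 : |c * τ'.re + d| ≤ |c| * M + |d| := by
      refine (abs_add_le _ _).trans ?_
      rw [abs_mul, hre, abs_of_nonneg hn0]
      have := mul_le_mul_of_nonneg_left hn1 (abs_nonneg c)
      linarith
    have h2 : (c * τ'.re + d) ^ 2 ≤ (|c| * M + |d|) ^ 2 := by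
      rw [← sq_abs]
      exact pow_le_pow_left₀ (abs_nonneg _) h1 2
    have h3 : 1 ≤ τ.im ^ 2 := by nlinarith
    nlinarith [sq_nonneg (|c| * M + |d|)]
  have hDpos : 0 < ‖D‖ := by
    rw [norm_pos_iff]
    rintro h0
    rw [h0, map_zero] at hD1
    linarith
  have hD3 : ‖D ^ (-(1 : ℤ))‖ ≤ 1 := by
    rw [zpow_neg_one, norm_inv]
    refine inv_le_one_of_one_le₀ ?_
    rw [Complex.normSq_eq_norm_sq] at hD1
    nlinarith
  have himγ : (γ • τ').im = τ.im / Complex.normSq D := by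
    rw [ModularGroup.im_smul_eq_div_normSq, him]
  have h1 : ‖f (γ • τ')‖ ≤ C * ((1 + K₀) * τ.im) ^ B := by
    refine (hgr _).trans (mul_le_mul_of_nonneg_left (pow_le_pow_left₀ ?_ ?_ B) hC)
    · have := (γ • τ').im_pos
      positivity
    · rw [himγ, one_div_div]
      have h2 : Complex.normSq D / τ.im ≤ K₀ * τ.im := by
        rw [div_le_iff₀ hy0]
        nlinarith
      nlinarith
  calc ‖f (γ • τ')‖ * ‖D ^ (-(1 : ℤ))‖ ≤ (C * ((1 + K₀) * τ.im) ^ B) * 1 :=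
        mul_le_mul h1 hD3 (norm_nonneg _) (by positivity)
    _ = C * (1 + K₀) ^ B * τ.im ^ B := by rw [mul_pow]; ring

theorem exists_tendsto_slash (hM : 0 < M) (hol : MDiff f)
    (hinv : ∀ γ ∈ Gamma1 M, f ∣[(1 : ℤ)] γ = f) {C : ℝ}
    {B : ℕ} (hgr : ∀ τ : ℍ, ‖f τ‖ ≤ C * (1 + 1 / τ.im) ^ B) (γ : SL(2, ℤ)) :
    ∃ c : ℂ, Tendsto (f ∣[(1 : ℤ)] γ) atImInfty (𝓝 c) := by
  have hM' : (0 : ℝ) < M := by exact_mod_cast hM
  refine LT.exists_tendsto_of_growth (h := (M : ℝ)) hM' (periodic_slash hinv γ)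
    (hol.slash 1 (γ : GL (Fin 2) ℝ)) ?_
  obtain ⟨K, hK⟩ := exists_bound_slash hM hinv hgr γ
  have h1 : (f ∣[(1 : ℤ)] γ) =O[atImInfty] fun τ : ℍ => τ.im ^ B := by
    refine Asymptotics.IsBigO.of_bound |K| ?_
    have h2 : ∀ᶠ τ : ℍ in atImInfty, 1 ≤ τ.im :=
      (atImInfty_mem _).mpr ⟨1, fun τ hτ => hτ⟩
    filter_upwards [h2] with τ hτ
    refine (hK τ hτ).trans ?_
    rw [norm_pow, Real.norm_eq_abs, abs_of_pos τ.im_pos]
    exact mul_le_mul_of_nonneg_right (le_abs_self K) (pow_nonneg τ.im_pos.le _)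
  refine h1.trans_isLittleO ?_
  have h3 := isLittleO_pow_exp_pos_mul_atTop B (b := 2 * Real.pi / M) (by positivity)
  have h4 := h3.comp_tendsto (tendsto_comap : Tendsto UpperHalfPlane.im atImInfty atTop)
  refine h4.congr (fun _ => rfl) fun τ => ?_
  simp only [Function.comp_apply]
  congr 1
  ring

/-! ### the constant terms -/

section Const

variable {ℓ : ℕ}

theorem tendsto_of_decomp (hinv : ∀ γ ∈ Gamma1 M, f ∣[(1 : ℤ)] γ = f)
    {α : Matrix (Fin 2) (Fin 2) ℤ} {αg : GL (Fin 2) ℝ}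
    (hαg : (αg : Matrix (Fin 2) (Fin 2) ℝ) = α.map (Int.castRingHom ℝ))
    {j : ZMod M} (hα : α.map (Int.castRingHom (ZMod M)) = !![1, j; 0, 1]) {γ γ' : SL(2, ℤ)}
    {a b d : ℤ} (had : 0 < a * d) (ha : (a : ZMod M) = 1) (hb : (b : ZMod M) = 0)
    (hd : (d : ZMod M) = 1)
    (h : α * (γ : Matrix (Fin 2) (Fin 2) ℤ) = (γ' : Matrix (Fin 2) (Fin 2) ℤ) * !![a, b; 0, d])
    {c : ℂ} (hc : Tendsto (f ∣[(1 : ℤ)] γ) atImInfty (𝓝 c)) :
    Tendsto ((f ∣[(1 : ℤ)] αg) ∣[(1 : ℤ)] γ) atImInfty (𝓝 (c * (d : ℂ)⁻¹)) := by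
  have had' : (0 : ℝ) < a * d := by exact_mod_cast had
  set βg := ModularForm.upperTriangularGL a b d had'.ne' with hβg
  have h1 : (f ∣[(1 : ℤ)] αg) ∣[(1 : ℤ)] γ = (f ∣[(1 : ℤ)] γ) ∣[(1 : ℤ)] βg := by
    refine slash_decomp hinv hαg (β := !![a, b; 0, d]) (βg := βg) ?_ hα ?_ h
    · rw [hβg, ModularForm.val_upperTriangularGL]
      ext i k
      fin_cases i <;> fin_cases k <;> simp
    · ext i k
      fin_cases i <;> fin_cases k <;> simp [ha, hb, hd]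
  have hval : ∀ i k, (βg : Matrix (Fin 2) (Fin 2) ℝ) i k = !![(a : ℝ), b; 0, d] i k :=
    fun i k => rfl
  rw [h1]
  have h2 := tendsto_slash hc (β := βg) (by
    rw [Matrix.GeneralLinearGroup.val_det_apply, Matrix.det_fin_two]
    simp only [hval]
    simpa using had') (by rw [hval]; simp)
  rw [hval] at h2
  simpa using h2

theorem tendsto_slash_slash (hℓ : ℓ.Prime) (hℓM : (M : ℤ) ∣ ℓ - 1)
    (hinv : ∀ γ ∈ Gamma1 M, f ∣[(1 : ℤ)] γ = f) {α : Matrix (Fin 2) (Fin 2) ℤ} {αg : GL (Fin 2) ℝ}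
    (hαg : (αg : Matrix (Fin 2) (Fin 2) ℝ) = α.map (Int.castRingHom ℝ)) (hdet : α.det = ℓ)
    {j : ZMod M} (hα : α.map (Int.castRingHom (ZMod M)) = !![1, j; 0, 1]) {γ : SL(2, ℤ)} {c : ℂ}
    (hc : Tendsto (f ∣[(1 : ℤ)] γ) atImInfty (𝓝 c)) :
    Tendsto ((f ∣[(1 : ℤ)] αg) ∣[(1 : ℤ)] γ) atImInfty
      (𝓝 (c * if (ℓ : ℤ) ∣ (α * (γ : Matrix (Fin 2) (Fin 2) ℤ)) 0 0 ∧
        (ℓ : ℤ) ∣ (α * (γ : Matrix (Fin 2) (Fin 2) ℤ)) 1 0 then 1 else (ℓ : ℂ)⁻¹)) := by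
  have hℓpos : (0 : ℤ) < ℓ := by exact_mod_cast hℓ.pos
  have hA : (α * (γ : Matrix (Fin 2) (Fin 2) ℤ)).det = ℓ := by
    rw [Matrix.det_mul, hdet, γ.det_coe, mul_one]
  have hℓ1 : ((ℓ : ℤ) : ZMod M) = 1 := by
    have h1 := (ZMod.intCast_zmod_eq_zero_iff_dvd ((ℓ : ℤ) - 1) M).mpr hℓM
    rw [Int.cast_sub, Int.cast_one, sub_eq_zero] at h1
    exact h1
  split_ifs with h
  · obtain ⟨γ', hγ'⟩ := exists_mul_diag hℓ.ne_zero hA h.1 h.2
    have := tendsto_of_decomp hinv hαg hα (by simpa using hℓpos) hℓ1 (by simp) (by simp) hγ' hc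
    simpa using this
  · obtain ⟨γ', b, hb, hγ'⟩ := exists_mul_upper hℓ hℓM hA h
    have := tendsto_of_decomp hinv hαg hα (by simpa using hℓpos) (by simp)
      ((ZMod.intCast_zmod_eq_zero_iff_dvd b M).mpr hb) hℓ1 hγ' hc
    simpa using this

/-- Exactly one of the `ℓ + 1` representatives has `diag(ℓ, 1)` on the right. -/
theorem sum_reps (hℓ : ℓ.Prime) (a c : ℤ) (hac : IsCoprime a c) :
    (∑ j ∈ Finset.range ℓ, if (ℓ : ℤ) ∣ a + j * c then (1 : ℂ) else (ℓ : ℂ)⁻¹) +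
      (if (ℓ : ℤ) ∣ c then 1 else (ℓ : ℂ)⁻¹) = 2 := by
  have hℓ0 : (ℓ : ℂ) ≠ 0 := by exact_mod_cast hℓ.ne_zero
  have hℓp : Prime (ℓ : ℤ) := Nat.prime_iff_prime_int.mp hℓ
  split_ifs with h
  · have h1 : ∀ j ∈ Finset.range ℓ, (if (ℓ : ℤ) ∣ a + j * c then (1 : ℂ) else (ℓ : ℂ)⁻¹) =
        (ℓ : ℂ)⁻¹ := fun j _ => by
      rw [if_neg]
      intro h2
      have h3 : (ℓ : ℤ) ∣ a := (dvd_add_left (Dvd.dvd.mul_left h _)).mp h2
      exact hℓp.not_isUnit (hac.isUnit_of_dvd' h3 h)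
    rw [Finset.sum_congr rfl h1, Finset.sum_const, Finset.card_range, nsmul_eq_mul,
      mul_inv_cancel₀ hℓ0]
    norm_num
  · have : Fact ℓ.Prime := ⟨hℓ⟩
    have hc0 : (c : ZMod ℓ) ≠ 0 := fun h0 => h ((ZMod.intCast_zmod_eq_zero_iff_dvd c ℓ).mp h0)
    set j₀ : ℕ := (-(a : ZMod ℓ) * (c : ZMod ℓ)⁻¹).val with hj₀
    have hj₀' : j₀ ∈ Finset.range ℓ := Finset.mem_range.mpr (ZMod.val_lt _)
    have hiff : ∀ j ∈ Finset.range ℓ, ((ℓ : ℤ) ∣ a + j * c ↔ j = j₀) := fun j hj => by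
      rw [← ZMod.intCast_zmod_eq_zero_iff_dvd]
      constructor
      · intro h1
        push_cast at h1
        have h2 : (j : ZMod ℓ) = -(a : ZMod ℓ) * (c : ZMod ℓ)⁻¹ := by
          field_simp
          linear_combination h1
        rw [hj₀, ← h2, ZMod.val_natCast, Nat.mod_eq_of_lt (Finset.mem_range.mp hj)]
      · rintro rfl
        push_cast
        rw [hj₀, ZMod.natCast_zmod_val]
        field_simp
        ring
    rw [← Finset.add_sum_erase _ _ hj₀', if_pos ((hiff j₀ hj₀').mpr rfl)]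
    have h1 : ∀ j ∈ (Finset.range ℓ).erase j₀,
        (if (ℓ : ℤ) ∣ a + j * c then (1 : ℂ) else (ℓ : ℂ)⁻¹) = (ℓ : ℂ)⁻¹ := fun j hj => by
      rw [Finset.mem_erase] at hj
      rw [if_neg fun h2 => hj.1 ((hiff j hj.2).mp h2)]
    rw [Finset.sum_congr rfl h1, Finset.sum_const, Finset.card_erase_of_mem hj₀',
      Finset.card_range, nsmul_eq_mul, Nat.cast_sub hℓ.one_le]
    field_simp
    push_cast
    ring

/-- **Constant terms are multiplied by two**, so `(x - 2) c = 0`. -/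
theorem const_eq_zero (hℓ : ℓ.Prime) (hℓM : ℓ ≡ 1 [MOD M])
    (hinv : ∀ γ ∈ Gamma1 M, f ∣[(1 : ℤ)] γ = f) {x : ℂ} (hx : x ≠ 2)
    (hT : ∀ z : ℍ, (ℓ : ℂ)⁻¹ * ∑ j ∈ Finset.range ℓ, f (ModularForm.heckeMatrix ℓ j • z) +
      f (ModularForm.heckeDiagMatrix ℓ • z) = x * f z) {γ : SL(2, ℤ)} {c : ℂ}
    (hc : Tendsto (f ∣[(1 : ℤ)] γ) atImInfty (𝓝 c)) : c = 0 := by
  have hℓ0 : ℓ ≠ 0 := hℓ.ne_zero
  have hd : (M : ℤ) ∣ ℓ - 1 := by
    have h1 := (Nat.modEq_iff_dvd.mp hℓM.symm)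
    exact_mod_cast h1
  have hℓ1 : ((ℓ : ℤ) : ZMod M) = 1 := by
    have h1 := (ZMod.intCast_zmod_eq_zero_iff_dvd ((ℓ : ℤ) - 1) M).mpr hd
    rw [Int.cast_sub, Int.cast_one, sub_eq_zero] at h1
    exact h1
  have hℓ1' : (ℓ : ZMod M) = 1 := by rw [← hℓ1, Int.cast_natCast]
  have hfun : (∑ j ∈ Finset.range ℓ, f ∣[(1 : ℤ)] ModularForm.heckeMatrix ℓ j) +
      f ∣[(1 : ℤ)] ModularForm.heckeDiagMatrix ℓ = x • f := by
    funext z
    rw [Pi.add_apply, Finset.sum_apply, Pi.smul_apply, smul_eq_mul, ← hT z, Finset.mul_sum]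
    congr 1
    · exact Finset.sum_congr rfl fun j _ => ModularForm.slash_heckeMatrix_apply 1 hℓ0 j f z
    · rw [ModularForm.slash_heckeDiagMatrix_apply 1 hℓ0]
      simp
  have hfun2 := congrArg (fun g : ℍ → ℂ => g ∣[(1 : ℤ)] γ) hfun
  simp only [SlashAction.add_slash, SlashAction.sum_slash, ModularForm.SL_smul_slash] at hfun2
  have hco : IsCoprime (γ 0 0) (γ 1 0) := by
    have h1 := γ.det_coe
    rw [Matrix.det_fin_two] at h1
    exact ⟨γ 1 1, -γ 0 1, by linear_combination h1⟩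
  have hlim1 : ∀ j ∈ Finset.range ℓ, Tendsto ((f ∣[(1 : ℤ)] ModularForm.heckeMatrix ℓ j) ∣[(1 : ℤ)] γ)
      atImInfty (𝓝 (c * if (ℓ : ℤ) ∣ γ 0 0 + j * γ 1 0 then 1 else (ℓ : ℂ)⁻¹)) := fun j _ => by
    have h1 := tendsto_slash_slash hℓ hd hinv (α := !![1, (j : ℤ); 0, (ℓ : ℤ)])
      (αg := ModularForm.heckeMatrix ℓ j) (j := (j : ZMod M))
      (by
        rw [ModularForm.val_heckeMatrix hℓ0]
        ext i k
        fin_cases i <;> fin_cases k <;> simp)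
      (by rw [Matrix.det_fin_two_of]; ring)
      (by
        ext i k
        fin_cases i <;> fin_cases k <;> simp [hℓ1']) hc
    have h2 : ((ℓ : ℤ) ∣ (!![1, (j : ℤ); 0, (ℓ : ℤ)] * (γ : Matrix (Fin 2) (Fin 2) ℤ)) 0 0 ∧
        (ℓ : ℤ) ∣ (!![1, (j : ℤ); 0, (ℓ : ℤ)] * (γ : Matrix (Fin 2) (Fin 2) ℤ)) 1 0) ↔
        (ℓ : ℤ) ∣ γ 0 0 + j * γ 1 0 := by
      simp [Matrix.mul_apply, Fin.sum_univ_two]
    simpa only [h2] using h1
  have hlim2 : Tendsto ((f ∣[(1 : ℤ)] ModularForm.heckeDiagMatrix ℓ) ∣[(1 : ℤ)] γ)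
      atImInfty (𝓝 (c * if (ℓ : ℤ) ∣ γ 1 0 then 1 else (ℓ : ℂ)⁻¹)) := by
    have h1 := tendsto_slash_slash hℓ hd hinv (α := !![(ℓ : ℤ), 0; 0, 1])
      (αg := ModularForm.heckeDiagMatrix ℓ) (j := (0 : ZMod M))
      (by
        rw [ModularForm.val_heckeDiagMatrix hℓ0]
        ext i k
        fin_cases i <;> fin_cases k <;> simp)
      (by rw [Matrix.det_fin_two_of]; ring)
      (by
        ext i k
        fin_cases i <;> fin_cases k <;> simp [hℓ1']) hc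
    have h2 : ((ℓ : ℤ) ∣ (!![(ℓ : ℤ), 0; 0, 1] * (γ : Matrix (Fin 2) (Fin 2) ℤ)) 0 0 ∧
        (ℓ : ℤ) ∣ (!![(ℓ : ℤ), 0; 0, 1] * (γ : Matrix (Fin 2) (Fin 2) ℤ)) 1 0) ↔
        (ℓ : ℤ) ∣ γ 1 0 := by
      simp [Matrix.mul_apply, Fin.sum_univ_two]
    simpa only [h2] using h1
  have hlim3 := (tendsto_finsetSum _ hlim1).add hlim2
  rw [← Finset.mul_sum, ← mul_add, sum_reps hℓ _ _ hco] at hlim3
  have hlim4 : Tendsto (x • (f ∣[(1 : ℤ)] γ)) atImInfty (𝓝 (x * c)) := hc.const_smul x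
  have h5 : x * c = c * 2 := by
    refine tendsto_nhds_unique hlim4 (hlim3.congr fun z => ?_)
    have := congrFun hfun2 z
    simpa using this
  have h6 : (x - 2) * c = 0 := by linear_combination h5
  exact (mul_eq_zero.mp h6).resolve_left (sub_ne_zero.mpr hx)

end Const

/-- **DI4.** A holomorphic function on the upper half plane, invariant of weight one under `Γ₁(M)`,
of moderate growth, with `T_ℓ f = x f` for one prime `ℓ ≡ 1 mod M` and `x ≠ 2`, is a cusp form. -/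
theorem exists_cuspForm {M : ℕ} [NeZero M] {f : ℍ → ℂ} (hol : MDiff f)
    (hinv : ∀ γ ∈ Gamma1 M, f ∣[(1 : ℤ)] γ = f) {C : ℝ} {B : ℕ}
    (hgr : ∀ τ : ℍ, ‖f τ‖ ≤ C * (1 + 1 / τ.im) ^ B) {ℓ : ℕ} (hℓ : ℓ.Prime)
    (hℓM : ℓ ≡ 1 [MOD M]) {x : ℂ} (hx : x ≠ 2)
    (hT : ∀ z : ℍ, (ℓ : ℂ)⁻¹ * ∑ j ∈ Finset.range ℓ, f (ModularForm.heckeMatrix ℓ j • z) +
      f (ModularForm.heckeDiagMatrix ℓ • z) = x * f z) :
    ∃ F : CuspForm (Gamma1 M) 1, ⇑F = f := by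
  have hM : 0 < M := Nat.pos_of_ne_zero (NeZero.ne M)
  refine ⟨LT.mkCusp (Gamma1 M) f hinv hol fun γ => ?_, rfl⟩
  obtain ⟨c, hc⟩ := exists_tendsto_slash hM hol hinv hgr γ
  have h0 : c = 0 := const_eq_zero hℓ hℓM hinv hx hT hc
  rw [h0] at hc
  exact hc

end Fermat.Agent.Classic.Dih.Cusp

/-- **DI4** in the form of `Dihedral/Defs`. -/
theorem Fermat.Agent.Classic.Dih.cuspStmt : Fermat.Agent.Classic.Dih.CuspStmt := by
  rintro M _ f hol hinv ⟨C, B, hgr⟩ ℓ x hℓ hℓM hx hT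
  refine Fermat.Agent.Classic.Dih.Cusp.exists_cuspForm hol hinv (C := C) (B := B) ?_ hℓ ?_ hx hT
  · intro τ
    rw [one_div]
    exact hgr τ
  · rw [← ZMod.natCast_eq_natCast_iff, hℓM, Nat.cast_one]
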