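import Fermat.Agent.Classic.Dihedral.Kernel
import Fermat.Agent.LT.B11.Inst

/-!
# The data `Dat` for an imaginary quadratic field (CL11, DI1)
-/

set_option autoImplicit false
set_option linter.unusedSectionVars false

noncomputable section

open IsDedekindDomain NumberField WithZero

namespace Fermat.Agent.Classic.Dih

open Fermat.Agent.CFT.SUnits (ord ord_one ord_mul ord_inv ord_pow ord_div ord_eq_zero_iff
  valuation_eq_exp_neg_ord finite_ord_ne_zero div div_apply)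
open Fermat.Agent.CFT.Places
open Fermat.Agent.CFT.Global (mem_E above mem_above normU ClTrivial cong mem_cong)
open Fermat.Agent.LT Fermat.Agent.LT.B11 Fermat.Agent.LT.SAd
open Fermat.Agent.LT.Psi (galU coe_up coe_galU up_normU)

/-! ### The norm of an imaginary quadratic field is positive -/

section Pos

variable {E : Type} [Field E] [NumberField E] [IsTotallyComplex E] [IsGalois ℚ E]
  (h2 : Module.finrank ℚ E = 2) {c : E ≃ₐ[ℚ] E} (hc : c ≠ 1)

include h2 hc in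
theorem conj_emb (φ : E →+* ℂ) (x : E) : φ (c x) = (starRingEnd ℂ) (φ x) := by
  classical
  have hcard : Fintype.card (E →+* ℂ) = 2 := by rw [Embeddings.card, h2]
  set φ' : E →+* ℂ := φ.comp (c : E →+* E) with hφ'
  have h1 : φ' ≠ φ := by
    intro h
    apply hc
    ext y
    have := congrArg (fun f : E →+* ℂ => f y) h
    exact φ.injective this
  have h3 : ComplexEmbedding.conjugate φ ≠ φ := by
    intro h
    have h4 : ComplexEmbedding.IsReal φ := h
    exact InfinitePlace.not_isReal_iff_isComplex.mpr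
      (IsTotallyComplex.isComplex (InfinitePlace.mk φ)) ⟨φ, h4, rfl⟩
  have h5 : ComplexEmbedding.conjugate φ = φ' := by
    by_contra h
    have h6 : ({φ, φ', ComplexEmbedding.conjugate φ} : Finset (E →+* ℂ)).card = 3 :=
      Finset.card_eq_three.mpr ⟨φ, φ', ComplexEmbedding.conjugate φ, h1.symm, h3.symm,
        fun h' => h h'.symm, rfl⟩
    have h7 := Finset.card_le_univ ({φ, φ', ComplexEmbedding.conjugate φ} : Finset (E →+* ℂ))
    omega
  have := congrArg (fun f : E →+* ℂ => f x) h5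
  exact this.symm

include h2 hc in
theorem norm_eq_sq_emb (φ : E →+* ℂ) (x : E) :
    ((Algebra.norm ℚ x : ℚ) : ℝ) = Complex.normSq (φ x) := by
  have h1 : algebraMap ℚ E (Algebra.norm ℚ x) = x * c x := Fermat.Agent.CFT.Global2.Unr.norm_eq_mul h2 hc x
  have h3 := congrArg φ h1
  rw [map_mul, conj_emb h2 hc, Complex.mul_conj] at h3
  have h4 : φ (algebraMap ℚ E (Algebra.norm ℚ x)) = ((Algebra.norm ℚ x : ℚ) : ℂ) := by
    rw [eq_ratCast, map_ratCast]
  rw [h4] at h3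
  exact_mod_cast h3

include h2 in
theorem norm_pos' {x : E} (hx : x ≠ 0) : 0 < Algebra.norm ℚ x := by
  have hG : Nat.card Gal(E/ℚ) = 2 := by rw [IsGalois.card_aut_eq_finrank, h2]
  obtain ⟨c, hc⟩ : ∃ c : E ≃ₐ[ℚ] E, c ≠ 1 := by
    have : Nontrivial Gal(E/ℚ) := by
      apply Finite.one_lt_card_iff_nontrivial.mp
      rw [hG]
      norm_num
    exact exists_ne 1
  have φ : E →+* ℂ := Classical.arbitrary _
  have h1 := norm_eq_sq_emb h2 hc φ x
  have h3 : 0 < Complex.normSq (φ x) := Complex.normSq_pos.mpr ((map_ne_zero φ).mpr hx)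
  rw [← h1] at h3
  exact_mod_cast h3

end Pos

/-! ### Points -/

/-- `diag(b, 1)` -/
def Pt.dil (b : ℚˣ) (P : Pt) : Pt where
  τ := ((b : ℚ) : ℂ) * P.τ
  u := P.u
  hτ := by
    have h1 : (((b : ℚ) : ℂ) * P.τ).im = ((b : ℚ) : ℝ) * P.τ.im := by
      rw [show (((b : ℚ) : ℂ)) = (((b : ℚ) : ℝ) : ℂ) by norm_cast, Complex.im_ofReal_mul]
    rw [h1]
    exact mul_ne_zero (by exact_mod_cast b.ne_zero) P.hτ
  hu := P.hu

open Classical in
/-- the summand -/
def Wq (P : Pt) (ξ : ℚ) : ℂ :=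
  if 0 < (ξ : ℝ) * P.τ.im then P.u⁻¹ * Complex.exp (2 * Real.pi * Complex.I * P.τ * ξ) else 0

theorem Wq_eq_Kq (P : Pt) {ξ : ℚ} (h : 0 < ξ) : Wq P ξ = Kq P ξ := by
  unfold Wq Kq
  have h1 : 0 < (ξ : ℝ) * P.τ.im ↔ 0 < P.τ.im := by
    have : (0 : ℝ) < ξ := by exact_mod_cast h
    exact mul_pos_iff_of_pos_left this
  simp only [h1]

theorem dil_im (b : ℚˣ) (P : Pt) : (P.dil b).τ.im = ((b : ℚ) : ℝ) * P.τ.im := by
  change (((b : ℚ) : ℂ) * P.τ).im = ((b : ℚ) : ℝ) * P.τ.im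
  rw [show (((b : ℚ) : ℂ)) = (((b : ℚ) : ℝ) : ℂ) by norm_cast, Complex.im_ofReal_mul]

theorem Wq_dil (b : ℚˣ) (P : Pt) (ξ : ℚ) : Wq (P.dil b) ξ = Wq P ((b : ℚ) * ξ) := by
  unfold Wq
  rw [dil_im]
  have e1 : (ξ : ℝ) * (((b : ℚ) : ℝ) * P.τ.im) = ((((b : ℚ) * ξ : ℚ)) : ℝ) * P.τ.im := by
    push_cast; ring
  have e2 : (2 * Real.pi * Complex.I * (P.dil b).τ * ξ : ℂ) =
      2 * Real.pi * Complex.I * P.τ * (((b : ℚ) * ξ : ℚ) : ℂ) := by
    change (2 * Real.pi * Complex.I * (((b : ℚ) : ℂ) * P.τ) * ξ : ℂ) = _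
    push_cast; ring
  rw [e1, e2]
  rfl

/-! ### The data -/

section Data

variable {E : Type} [Field E] [NumberField E] [IsGalois ℚ E] (h2 : Module.finrank ℚ E = 2)
  {c : E ≃ₐ[ℚ] E} (hc : c ≠ 1) {N : ℕ} [NeZero N] {n : ℕ}
  {ψ : HeightOneSpectrum (𝓞 E) → UnitAddCircle} (hψ : IsRay (pl E N) n ψ) {k : ℕ} (hk : n + 1 ≤ k)

/-- **The data of the theta series of `ψ`.** -/
def datI : Dat Eˣ ℚˣ Pt where
  q := normU (K := ℚ) E
  ι := Psi.up E
  q_ι b := Psi.normU_up h2 b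
  Op := {x | (x : E) ∈ RS E N}
  EA := CFT.Global.E (above E (pl ℚ N))
  EB := CFT.Global.E (pl ℚ N)
  q_mem e he := by
    rw [above_pl, ← mem_RU_iff] at he
    rw [← mem_RU_iff]
    have key : ∀ x : Eˣ, (x : E) ∈ RS E N → (normU (K := ℚ) E x : ℚ) ∈ RS ℚ N := by
      intro x h3
      refine mem_RS_of_map (E := E) ?_
      rw [map_normU h2 hc]
      exact (RS E N).mul_mem h3 (conj_mem_RS c h3)
    refine ⟨key e he.1, ?_⟩
    rw [← map_inv]
    exact key e⁻¹ he.2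
  Op_mul e he x hx := by
    rw [above_pl, ← mem_RU_iff] at he
    rw [Set.mem_ofPred_eq, Units.val_mul]
    exact (RS E N).mul_mem hx he.1
  VA := VN E N k
  VB := VN ℚ N 0
  q_VA v hv := VN_mono (Nat.zero_le k) (normU_mem_VN h2 hc hv)
  ψ x := eC (rayVal (above E (pl ℚ N)) ψ x).toAdd
  ψ_mul x y := by rw [map_mul, toAdd_mul, eC_add]
  ψ_EA e he := by rw [rayVal_of_mem_E _ _ he, toAdd_one, eC_zero]
  ψ_VA v hv := by
    rw [above_pl, hψ v (fun P hP => mem_cong_of_mem_VN hk hv hP), toAdd_one, eC_zero]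
  η d := eC (-(rayVal (above E (pl ℚ N)) ψ (Psi.up E d)).toAdd)
  η_mul d := by rw [← eC_add, neg_add_cancel, eC_zero]
  s _ := 1
  s_pos _ := one_pos
  s_mul _ _ := (one_mul 1).symm
  nI _ := 1
  nI_pos _ := one_pos
  nI_mul _ _ := (one_mul 1).symm
  s_nI _ _ := one_mul 1
  s_VB _ _ := rfl
  act b P := P.dil b
  act_mul b d P := by
    ext
    · change (((b * d : ℚˣ) : ℚ) : ℂ) * P.τ = ((b : ℚ) : ℂ) * (((d : ℚ) : ℂ) * P.τ)
      push_cast; ring
    · rfl
  act_one P := by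
    ext
    · change (((1 : ℚˣ) : ℚ) : ℂ) * P.τ = P.τ
      push_cast; ring
    · rfl
  W P ξ := Wq P (ξ : ℚ)
  W_act b P ξ := by
    rw [Wq_dil, Units.val_mul]
    push_cast
    rw [one_mul]

end Data

end Fermat.Agent.Classic.Dih
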