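import Mathlib

/-!
# The lower right entry may be taken to be a large prime (Dirichlet)

`exists_prime_lower` : for `γ ∈ Γ₁(M)` with `γ 1 0 ≠ 0` some `γ T ^ j` has a large prime
`p ≡ 1` modulo `M` in the lower right corner;
`slash_eq_of_primes` : invariance under these elements and under `T` implies invariance under
`Γ₁(M)`.
-/

set_option autoImplicit false

open CongruenceSubgroup UpperHalfPlane
open scoped MatrixGroups ModularForm

namespace Fermat.Agent.Classic.Dih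

theorem mul_T_zpow_apply_one_zero (γ : SL(2, ℤ)) (j : ℤ) :
    (γ * ModularGroup.T ^ j) 1 0 = γ 1 0 := by
  rw [Matrix.SpecialLinearGroup.coe_mul, ModularGroup.coe_T_zpow, Matrix.mul_apply,
    Fin.sum_univ_two]
  simp

theorem mul_T_zpow_apply_one_one (γ : SL(2, ℤ)) (j : ℤ) :
    (γ * ModularGroup.T ^ j) 1 1 = γ 1 1 + γ 1 0 * j := by
  rw [Matrix.SpecialLinearGroup.coe_mul, ModularGroup.coe_T_zpow, Matrix.mul_apply,
    Fin.sum_univ_two]
  simp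
  ring

theorem T_zpow_mem_Gamma1 (M : ℕ) (j : ℤ) : ModularGroup.T ^ j ∈ Gamma1 M := by
  rw [Gamma1_mem, ModularGroup.coe_T_zpow]
  simp

/-- **Dirichlet.** -/
theorem exists_prime_lower {M : ℕ} (B : ℕ) {γ : SL(2, ℤ)} (hγ : γ ∈ Gamma1 M)
    (hc : γ 1 0 ≠ 0) :
    ∃ (j : ℤ) (p : ℕ), p.Prime ∧ B < p ∧ (p : ℤ) ≡ 1 [ZMOD M] ∧
      (p : ℤ) = γ 1 1 + γ 1 0 * j ∧ γ * ModularGroup.T ^ j ∈ Gamma1 M ∧
      (γ * ModularGroup.T ^ j) 1 1 = (p : ℤ) := by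
  have hq : NeZero (γ 1 0).natAbs := ⟨Int.natAbs_ne_zero.mpr hc⟩
  -- the lower right entry is a unit modulo the lower left entry
  have hu : IsUnit ((γ 1 1 : ℤ) : ZMod (γ 1 0).natAbs) := by
    have h1 : (γ 1 1 : ℤ) * γ 0 0 - γ 1 0 * γ 0 1 = 1 := by
      have := γ.det_coe
      rw [Matrix.det_fin_two] at this
      linarith
    refine IsUnit.of_mul_eq_one ((γ 0 0 : ℤ) : ZMod (γ 1 0).natAbs) ?_
    have h2 : ((γ 1 0 : ℤ) : ZMod (γ 1 0).natAbs) = 0 := by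
      rw [ZMod.intCast_zmod_eq_zero_iff_dvd]
      exact Int.natAbs_dvd.mpr dvd_rfl
    have h3 := congrArg (Int.cast : ℤ → ZMod (γ 1 0).natAbs) h1
    push_cast at h3
    rw [h2, zero_mul, sub_zero] at h3
    exact h3
  obtain ⟨p, hp, hpp, hpe⟩ := Nat.forall_exists_prime_gt_and_eq_mod hu B
  have h1 : ((p : ℤ) : ZMod (γ 1 0).natAbs) = ((γ 1 1 : ℤ) : ZMod (γ 1 0).natAbs) := by
    rw [Int.cast_natCast]
    exact hpe
  have h2 : γ 1 0 ∣ (p : ℤ) - γ 1 1 := by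
    rw [ZMod.intCast_eq_intCast_iff_dvd_sub, Int.natAbs_dvd] at h1
    rw [← dvd_neg, neg_sub]
    exact h1
  obtain ⟨j, hj⟩ := h2
  have h3 : (p : ℤ) = γ 1 1 + γ 1 0 * j := by linarith
  have h4 := (Gamma1_mem M γ).mp hγ
  have h5 : (M : ℤ) ∣ γ 1 0 := (ZMod.intCast_zmod_eq_zero_iff_dvd _ _).mp h4.2.2
  have h6 : (M : ℤ) ∣ γ 1 1 - 1 := by
    rw [← ZMod.intCast_zmod_eq_zero_iff_dvd]
    push_cast
    rw [h4.2.1, sub_self]
  refine ⟨j, p, hpp, hp, ?_, h3, (Gamma1 M).mul_mem hγ (T_zpow_mem_Gamma1 M j), ?_⟩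
  · refine (Int.modEq_iff_dvd.mpr ?_).symm
    rw [h3, add_sub_right_comm]
    exact dvd_add h6 (h5.mul_right j)
  · rw [mul_T_zpow_apply_one_one, h3]

/-- the lower triangular element -/
def lowT (M : ℕ) : SL(2, ℤ) := ⟨!![1, 0; (M : ℤ), 1], by simp [Matrix.det_fin_two_of]⟩

theorem lowT_mem (M : ℕ) : lowT M ∈ Gamma1 M := by
  rw [Gamma1_mem]
  simp [lowT]

/-- **Invariance under `Γ₁(M)` may be tested on the elements with a prime in the corner.** -/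
theorem slash_eq_of_primes' {f : ℍ → ℂ} {k : ℤ} {M : ℕ} (hM : M ≠ 0) (B : ℕ)
    (hT : ∀ j : ℤ, f ∣[k] (ModularGroup.T ^ j) = f)
    (hb : ∀ p : ℕ, p.Prime → B < p → (p : ℤ) ≡ 1 [ZMOD M] →
      ∀ γ ∈ Gamma1 M, γ 1 1 = (p : ℤ) → f ∣[k] γ = f) :
    ∀ γ ∈ Gamma1 M, f ∣[k] γ = f := by
  -- the case of a non-zero entry
  have key : ∀ γ ∈ Gamma1 M, γ 1 0 ≠ 0 → f ∣[k] γ = f := by
    intro γ hγ hc
    obtain ⟨j, p, hp, hB, hp1, -, hm, hpe⟩ := exists_prime_lower B hγ hc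
    have h1 := hb p hp hB hp1 _ hm hpe
    rw [SlashAction.slash_mul] at h1
    have h2 : (f ∣[k] γ) ∣[k] (ModularGroup.T ^ j) = f ∣[k] (ModularGroup.T ^ j) := by
      rw [h1, hT]
    have h3 := congrArg (fun g : ℍ → ℂ => g ∣[k] (ModularGroup.T ^ j)⁻¹) h2
    simp only [← SlashAction.slash_mul, mul_inv_cancel_right, mul_inv_cancel,
      SlashAction.slash_one] at h3
    exact h3
  intro γ hγ
  by_cases hc : γ 1 0 = 0
  · have h0 : (γ * lowT M) 1 0 = γ 1 1 * M := by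
      rw [Matrix.SpecialLinearGroup.coe_mul, Matrix.mul_apply, Fin.sum_univ_two, hc]
      simp [lowT]
    have h1 : γ 1 1 ≠ 0 := by
      intro h
      have := γ.det_coe
      rw [Matrix.det_fin_two, hc, h] at this
      simp at this
    have h2 := key _ ((Gamma1 M).mul_mem hγ (lowT_mem M))
      (by rw [h0]; exact mul_ne_zero h1 (Nat.cast_ne_zero.mpr hM))
    have h3 := key _ (lowT_mem M) (by simp [lowT, hM])
    rw [SlashAction.slash_mul] at h2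
    have h4 : (f ∣[k] γ) ∣[k] lowT M = f ∣[k] lowT M := by rw [h2, h3]
    have h5 := congrArg (fun g : ℍ → ℂ => g ∣[k] (lowT M)⁻¹) h4
    simp only [← SlashAction.slash_mul, mul_inv_cancel_right, mul_inv_cancel,
      SlashAction.slash_one] at h5
    exact h5
  · exact key γ hγ hc

/-- The same for `M = N ^ m` and the primes not dividing `N`. -/
theorem slash_eq_of_primes {f : ℍ → ℂ} {k : ℤ} {N m : ℕ} (hN : N ≠ 0)
    (hT : ∀ j : ℤ, f ∣[k] (ModularGroup.T ^ j) = f)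
    (hb : ∀ p : ℕ, p.Prime → ¬ p ∣ N → (p : ℤ) ≡ 1 [ZMOD ((N ^ m : ℕ) : ℤ)] →
      ∀ γ ∈ Gamma1 (N ^ m), γ 1 1 = (p : ℤ) → f ∣[k] γ = f) :
    ∀ γ ∈ Gamma1 (N ^ m), f ∣[k] γ = f :=
  slash_eq_of_primes' (pow_ne_zero m hN) N hT fun p hp hB h1 γ hγ hγ' =>
    hb p hp (fun h => absurd (Nat.le_of_dvd (Nat.pos_of_ne_zero hN) h) (not_le.mpr hB)) h1 γ hγ
      hγ'

end Fermat.Agent.Classic.Dih
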