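import Fermat.Agent.Classic.Dihedral.Pair

/-!
# Primes `p ≡ 1` modulo `4 |discr E|` split in a quadratic field `E`
-/

set_option autoImplicit false

open IsDedekindDomain NumberField
open scoped Matrix

namespace Fermat.Agent.Classic.Dih

/-- Cayley-Hamilton in rank two. -/
theorem sq_eq_trace_sub_norm {R A : Type*} [CommRing R] [Nontrivial R] [CommRing A] [Algebra R A]
    (b : Module.Basis (Fin 2) R A) (y : A) :
    y ^ 2 = algebraMap R A (Algebra.trace R A y) * y - algebraMap R A (Algebra.norm R y) := by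
  apply Algebra.leftMulMatrix_injective b
  have h := Matrix.aeval_self_charpoly (Algebra.leftMulMatrix b y)
  rw [Matrix.charpoly_fin_two, ← Algebra.trace_eq_matrix_trace b, ← Algebra.norm_eq_matrix_det b]
    at h
  simp only [map_add, map_sub, map_mul, map_pow, Polynomial.aeval_X, Polynomial.aeval_C] at h
  simp only [map_sub, map_mul, map_pow, AlgHom.commutes]
  rw [← sub_eq_zero, ← h]
  abel

variable {E : Type} [Field E] [NumberField E]

theorem finrank_int (h2 : Module.finrank ℚ E = 2) : Module.finrank ℤ (𝓞 E) = 2 := by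
  rw [RingOfIntegers.rank, h2]

/-- In a quadratic field, `(2 y - tr y)² = m² discr E` with an integer `m`. -/
theorem exists_sq_eq (h2 : Module.finrank ℚ E = 2) (y : 𝓞 E) :
    ∃ t m : ℤ, (2 * y - (t : 𝓞 E)) ^ 2 = ((m ^ 2 * NumberField.discr E : ℤ) : 𝓞 E) := by
  classical
  let b : Module.Basis (Fin 2) ℤ (𝓞 E) := Module.finBasisOfFinrankEq ℤ (𝓞 E) (finrank_int h2)
  have hb : Algebra.discr ℤ b = NumberField.discr E := NumberField.discr_eq_discr E b
  have hvec : (b : Fin 2 → 𝓞 E) ᵥ* (b.toMatrix ![1, y]).map (algebraMap ℤ (𝓞 E)) = ![1, y] := by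
    funext j
    have h := b.sum_toMatrix_smul_self ![1, y] j
    rw [← h, Matrix.vecMul, dotProduct]
    refine Finset.sum_congr rfl fun i _ => ?_
    rw [Matrix.map_apply, Algebra.smul_def, mul_comm]
  have h1 := Algebra.discr_of_matrix_vecMul (A := ℤ) (b : Fin 2 → 𝓞 E) (b.toMatrix ![1, y])
  rw [hvec, hb] at h1
  have hCH := sq_eq_trace_sub_norm b y
  have h3 : Algebra.discr ℤ ![1, y] =
      2 * Algebra.trace ℤ (𝓞 E) (y ^ 2) - (Algebra.trace ℤ (𝓞 E) y) ^ 2 := by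
    rw [Algebra.discr_def, Matrix.det_fin_two]
    simp only [Algebra.traceMatrix_apply, Algebra.traceForm_apply, Matrix.cons_val_zero,
      Matrix.cons_val_one, mul_one, one_mul]
    have h5 : Algebra.trace ℤ (𝓞 E) 1 = 2 := by
      have := Algebra.trace_algebraMap_of_basis b (1 : ℤ)
      simpa using this
    rw [h5, pow_two y]
    ring
  have h4 : Algebra.trace ℤ (𝓞 E) (y ^ 2) =
      (Algebra.trace ℤ (𝓞 E) y) ^ 2 - 2 * Algebra.norm ℤ y := by
    rw [hCH, map_sub, ← Algebra.smul_def, map_smul, smul_eq_mul, Algebra.trace_algebraMap_of_basis b]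
    simp
    ring
  refine ⟨Algebra.trace ℤ (𝓞 E) y, (b.toMatrix ![1, y]).det, ?_⟩
  rw [← h1, h3, h4]
  push_cast
  rw [eq_intCast, eq_intCast] at hCH
  linear_combination 4 * hCH

/-- Quadratic reciprocity: `discr E` is a square modulo every prime `p ≡ 1` modulo
`4 |discr E|`. -/
theorem isSquare_of_modEq {d : ℤ} {p : ℕ} [Fact p.Prime] (hp : (p : ℤ) ≡ 1 [ZMOD (4 * d)]) :
    IsSquare (d : ZMod p) := by
  rcases eq_or_ne (d : ZMod p) 0 with h0 | h0
  · rw [h0]
    exact IsSquare.zero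
  have hd0 : d ≠ 0 := by
    rintro rfl
    exact h0 (by simp)
  have h1 : p ≡ 1 [MOD (4 * d.natAbs)] := by
    have h2 : ((4 * d.natAbs : ℕ) : ℤ) ∣ (1 : ℤ) - (p : ℤ) := by
      have h3 : (4 * d) ∣ (1 : ℤ) - (p : ℤ) := hp.dvd
      rw [Int.natCast_dvd, Nat.dvd_iff_mod_eq_zero] at *
      have h4 := Int.natAbs_dvd_natAbs.mpr h3
      rw [Int.natAbs_mul] at h4
      exact Nat.mod_eq_zero_of_dvd h4
    exact (Nat.modEq_iff_dvd.mpr h2)
  have hpos : 0 < d.natAbs := Int.natAbs_pos.mpr hd0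
  have h4 : p % (4 * d.natAbs) = 1 := by
    have h5 : p % (4 * d.natAbs) = 1 % (4 * d.natAbs) := h1
    rw [h5]
    exact Nat.mod_eq_of_lt (by omega)
  have hodd : Odd p := by
    rw [Nat.odd_iff]
    have h6 : p ≡ 1 [MOD 2] := h1.of_dvd (by
      exact Dvd.dvd.mul_right (by norm_num) _)
    exact h6
  rw [← legendreSym.eq_one_iff p h0, jacobiSym.legendreSym.to_jacobiSym, jacobiSym.mod_right d hodd, h4,
    jacobiSym.one_right]

/-- The places above a prime `p ≡ 1` modulo `4 |discr E|` have norm `p`. -/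
theorem absNorm_eq_of_modEq (h2 : Module.finrank ℚ E = 2) {p : ℕ} (hp : p.Prime)
    (hmod : (p : ℤ) ≡ 1 [ZMOD (4 * NumberField.discr E)]) (P : HeightOneSpectrum (𝓞 E))
    (hP : (p : 𝓞 E) ∈ P.asIdeal) : Ideal.absNorm P.asIdeal = p := by
  have : Fact p.Prime := ⟨hp⟩
  obtain ⟨c, hc⟩ := isSquare_of_modEq hmod
  have : P.asIdeal.IsMaximal := P.isPrime.isMaximal P.ne_bot
  let _ : Field (𝓞 E ⧸ P.asIdeal) := Ideal.Quotient.field P.asIdeal
  have hp0 : ((p : ℕ) : 𝓞 E ⧸ P.asIdeal) = 0 := by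
    rw [← map_natCast (Ideal.Quotient.mk P.asIdeal), Ideal.Quotient.eq_zero_iff_mem]
    exact hP
  have hchar : CharP (𝓞 E ⧸ P.asIdeal) p :=
    (CharP.charP_iff_prime_eq_zero hp).mpr hp0
  let φ : ZMod p →+* (𝓞 E ⧸ P.asIdeal) := ZMod.castHom (dvd_refl p) _
  have hφ : ∀ z : ℤ, φ (z : ZMod p) = ((z : 𝓞 E) : 𝓞 E ⧸ P.asIdeal) := fun z => by
    rw [map_intCast]
    rfl
  have hodd : (2 : ZMod p) ≠ 0 := by
    intro h
    have h3 : (p : ℤ) ∣ 2 := by
      rw [← ZMod.intCast_zmod_eq_zero_iff_dvd]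
      exact_mod_cast h
    have h4 : (2 : ℤ) ∣ 1 - (p : ℤ) := dvd_trans ⟨2 * NumberField.discr E, by ring⟩ hmod.dvd
    have h5 : (p : ℤ) ≤ 2 := Int.le_of_dvd (by norm_num) h3
    have h6 := hp.two_le
    omega
  have hsurj : Function.Surjective φ := by
    intro x
    obtain ⟨y, rfl⟩ := Ideal.Quotient.mk_surjective x
    obtain ⟨t, m, htm⟩ := exists_sq_eq h2 y
    have h3 := congrArg (Ideal.Quotient.mk P.asIdeal) htm
    have h4 : ((2 * Ideal.Quotient.mk P.asIdeal y - φ (t : ZMod p)) ^ 2) =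
        φ ((m : ZMod p) * c) ^ 2 := by
      have h5 : φ ((m : ZMod p) * c) ^ 2 = φ ((m ^ 2 * NumberField.discr E : ℤ) : ZMod p) := by
        rw [← map_pow]
        congr 1
        push_cast
        rw [hc]
        ring
      rw [h5, hφ, hφ, ← map_ofNat (Ideal.Quotient.mk P.asIdeal) 2, ← map_mul]
      exact h3
    rcases sq_eq_sq_iff_eq_or_eq_neg.mp h4 with h5 | h5
    · refine ⟨((m : ZMod p) * c + (t : ZMod p)) * 2⁻¹, ?_⟩
      have h6 : (2 : 𝓞 E ⧸ P.asIdeal) = φ 2 := (map_ofNat φ 2).symm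
      rw [map_mul, map_add, ← h5, map_inv₀, ← h6]
      have h7 : (2 : 𝓞 E ⧸ P.asIdeal) ≠ 0 := by
        rw [h6, Ne, map_eq_zero]
        exact hodd
      field_simp
      ring
    · refine ⟨(-((m : ZMod p) * c) + (t : ZMod p)) * 2⁻¹, ?_⟩
      have h6 : (2 : 𝓞 E ⧸ P.asIdeal) = φ 2 := (map_ofNat φ 2).symm
      rw [map_mul, map_add, map_neg, ← h5, map_inv₀, ← h6]
      have h7 : (2 : 𝓞 E ⧸ P.asIdeal) ≠ 0 := by
        rw [h6, Ne, map_eq_zero]
        exact hodd
      field_simp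
      ring
  have hbij : Function.Bijective φ := ⟨φ.injective, hsurj⟩
  rw [Ideal.absNorm_apply, Submodule.cardQuot_apply, ← Nat.card_congr (Equiv.ofBijective φ hbij),
    Nat.card_zmod]

/-- A prime `p ≡ 1` modulo `4 |discr E|` splits in the quadratic field `E`. -/
theorem exists_isPair_of_modEq (h2 : Module.finrank ℚ E = 2) {p : ℕ} (hp : p.Prime)
    (hmod : (p : ℤ) ≡ 1 [ZMOD (4 * NumberField.discr E)]) :
    ∃ P Q : HeightOneSpectrum (𝓞 E), IsPair p P Q := by
  refine exists_isPair h2 hp ?_ (absNorm_eq_of_modEq h2 hp hmod)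
  intro h
  have h3 : (p : ℤ) ∣ 1 - (p : ℤ) := (h.mul_left 4).trans hmod.dvd
  have h4 : (p : ℤ) ∣ 1 := by
    have := dvd_add h3 (dvd_refl (p : ℤ))
    simpa using this
  have h5 := Int.le_of_dvd one_pos h4
  have h6 := hp.two_le
  omega

end Fermat.Agent.Classic.Dih
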