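import Fermat.Agent.Classic.Dihedral.Idx
import Fermat.Agent.Classic.Dihedral.Split
import Fermat.Agent.Classic.Dihedral.SplitOne
import Fermat.Agent.Classic.Dihedral.Ana

/-!
# Invariance of the theta series of a ray character of an imaginary quadratic field (CL11, DI1)
-/

set_option autoImplicit false
set_option linter.unusedSectionVars false

noncomputable section

open IsDedekindDomain NumberField WithZero CongruenceSubgroup UpperHalfPlane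
open scoped MatrixGroups ModularForm

namespace Fermat.Agent.Classic.Dih

open Fermat.Agent.CFT.Places
open Fermat.Agent.CFT.Global (mem_E above mem_above normU ClTrivial cong mem_cong)
open Fermat.Agent.LT Fermat.Agent.LT.B11 Fermat.Agent.LT.SAd

section Slash

variable {E : Type} [Field E] [NumberField E] [IsTotallyComplex E] [IsGalois ℚ E]
  (h2 : Module.finrank ℚ E = 2) {c : E ≃ₐ[ℚ] E} (hc : c ≠ 1) {N : ℕ} [NeZero N] {n : ℕ}
  {ψ : HeightOneSpectrum (𝓞 E) → UnitAddCircle} (hψ : IsRay (pl E N) n ψ) {k : ℕ} (hk : n + 1 ≤ k)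

include h2 hc hψ hk in
theorem slash_eq (hN2 : 2 ≤ N) (hN : 3 ≤ N ^ k) (hdisc : discr E ∣ (N : ℤ))
    (hCl : ClTrivial (pl E N))
    (he : ∀ w : HeightOneSpectrum (𝓞 E), w ∉ above E (pl ℚ N) →
      (w.under (𝓞 ℚ)).asIdeal.ramificationIdx' w.asIdeal = 1)
    {p : ℕ} {P Q : HeightOneSpectrum (𝓞 E)} (hp : p.Prime) (hpN : ¬ p ∣ N) (hPQ : IsPair p P Q)
    (hsum : ψ P + ψ Q = 0) {γ : SL(2, ℤ)} (hγ : γ ∈ Gamma0 (N ^ (2 * k + 2)))
    (hγp : γ 1 1 = (p : ℤ)) : qser (lam N ψ) ∣[(1 : ℤ)] γ = qser (lam N ψ) := by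
  funext τ
  have hdet : γ 0 0 * (p : ℤ) - γ 0 1 * γ 1 0 = 1 := by
    have := γ.det_coe
    rw [Matrix.det_fin_two, hγp] at this
    exact this
  have hdet' : ((γ 0 0 : ℤ) : ℚ) * (p : ℚ) - ((γ 0 1 : ℤ) : ℚ) * ((γ 1 0 : ℤ) : ℚ) = 1 := by
    exact_mod_cast hdet
  have hdvd : (N : ℤ) ^ (2 * k + 2) ∣ γ 1 0 := by
    have h1 := Gamma0_mem.mp hγ
    rw [ZMod.intCast_zmod_eq_zero_iff_dvd] at h1
    exact_mod_cast h1
  let P₀ : Pt := ⟨(τ : ℂ), 1, τ.im_pos.ne', one_ne_zero⟩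
  have hl := FF_mv h2 hc hψ hk hN hdisc (by rw [above_pl]; exact hCl) he hp hpN hPQ hsum hdet hdet'
    hdvd P₀
  rw [FF_eq_qser h2 hc hψ hk hN2 hCl he P₀ τ rfl,
    FF_eq_qser h2 hc hψ hk hN2 hCl he _ (γ • τ) (by
      rw [UpperHalfPlane.coe_specialLinearGroup_apply]
      change (((γ 0 0 : ℤ) : ℚ) * (τ : ℂ) + ((γ 0 1 : ℤ) : ℚ)) /
        (((γ 1 0 : ℤ) : ℚ) * (τ : ℂ) + ((p : ℚ) : ℂ)) = _
      rw [hγp]
      simp)] at hl
  rw [ModularForm.SL_slash_apply]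
  have hden : denom γ τ = ((γ 1 0 : ℤ) : ℂ) * (τ : ℂ) + (p : ℂ) := by
    rw [ModularGroup.denom_apply, hγp]
    push_cast
    rfl
  have hu : (Pt.mv ((γ 0 0 : ℤ) : ℚ) ((γ 0 1 : ℤ) : ℚ) ((γ 1 0 : ℤ) : ℚ) p hdet' P₀).u =
      ((γ 1 0 : ℤ) : ℂ) * (τ : ℂ) + (p : ℂ) := by
    change ((((γ 1 0 : ℤ) : ℚ) : ℂ) * (τ : ℂ) + ((p : ℚ) : ℂ)) * 1 = _
    push_cast
    ring
  rw [hu] at hl
  have hu0 : P₀.u = 1 := rfl
  rw [hu0, inv_one, one_mul] at hl
  rw [hden, zpow_neg, zpow_one, ← hl, mul_comm]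

end Slash

/-- **DI1.** -/
theorem invStmt : InvStmt := by
  intro E _ _ _ h2 S n ψ hψ
  have : Algebra.IsQuadraticExtension ℚ E := ⟨h2⟩
  have : IsGalois ℚ E := inferInstance
  have hG : Nat.card Gal(E/ℚ) = 2 := by rw [IsGalois.card_aut_eq_finrank, h2]
  obtain ⟨c, hc⟩ : ∃ c : E ≃ₐ[ℚ] E, c ≠ 1 := by
    have : Nontrivial Gal(E/ℚ) := by
      apply Finite.one_lt_card_iff_nontrivial.mp
      rw [hG]
      norm_num
    exact exists_ne 1
  obtain ⟨m₁, hm₁, hcl⟩ := Tower.exists_clTrivial_SN E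
  obtain ⟨m₂, hm₂, hunr⟩ := exists_unr h2 hc
  obtain ⟨m₃, hm₃, hS⟩ := Psi.exists_natCast_mem S
  have hd0 : (discr E).natAbs ≠ 0 := Int.natAbs_ne_zero.mpr (discr_ne_zero E)
  refine ⟨4 * (discr E).natAbs * m₁ * m₂ * m₃, by positivity, fun N hN0 hdvd => ?_⟩
  have : NeZero N := ⟨hN0⟩
  have hd4 : 4 * (discr E).natAbs ∣ N :=
    (Dvd.intro (m₁ * m₂ * m₃) (by ring)).trans hdvd
  have h1 : m₁ ∣ N := (Dvd.intro (4 * (discr E).natAbs * m₂ * m₃) (by ring)).trans hdvd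
  have h2' : m₂ ∣ N := (Dvd.intro (4 * (discr E).natAbs * m₁ * m₃) (by ring)).trans hdvd
  have h3 : m₃ ∣ N := (Dvd.intro (4 * (discr E).natAbs * m₁ * m₂) (by ring)).trans hdvd
  have h4 : 4 ∣ N := (Dvd.intro _ rfl).trans hd4
  have hN4 : 4 ≤ N := Nat.le_of_dvd (Nat.pos_of_ne_zero hN0) h4
  have hdN : (4 * discr E : ℤ) ∣ (N : ℤ) := by
    have : ((4 * (discr E).natAbs : ℕ) : ℤ) ∣ (N : ℤ) := by exact_mod_cast hd4
    push_cast at this
    refine dvd_trans ?_ this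
    exact mul_dvd_mul_left 4 ((dvd_abs _ _).mpr dvd_rfl)
  have hdisc : discr E ∣ (N : ℤ) := (dvd_mul_left _ _).trans hdN
  have hψN : IsRay (pl E N) n ψ := hψ.mono_set fun v hv => by
    rw [mem_pl]
    obtain ⟨j, hj⟩ := h3
    rw [hj]
    push_cast
    exact v.asIdeal.mul_mem_right _ (hS v hv)
  have hpl : Tower.SN E N = pl E N := by
    ext v
    rw [Tower.mem_SN hN0, mem_pl]
  have hCl : ClTrivial (pl E N) := by
    rw [← hpl]
    exact hcl N hN0 h1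
  have he := hunr N h2'
  set k := n + 1 with hk
  have hNk : 3 ≤ N ^ k := by
    calc 3 ≤ N := by omega
      _ = N ^ 1 := (pow_one N).symm
      _ ≤ N ^ k := Nat.pow_le_pow_right (by omega) (by omega)
  have key : ∀ (p : ℕ) (P Q : HeightOneSpectrum (𝓞 E)), p.Prime → ¬ p ∣ N → IsPair p P Q →
      ψ P + ψ Q = 0 → ∀ γ ∈ Gamma0 (N ^ (2 * k + 2)), γ 1 1 = (p : ℤ) →
        qser (lam N ψ) ∣[(1 : ℤ)] γ = qser (lam N ψ) := by
    intro p P Q hp hpN hPQ hsum γ hγ hγp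
    exact slash_eq h2 hc hψN (le_refl k) (by omega) hNk hdisc hCl he hp hpN hPQ hsum hγ hγp
  refine ⟨2 * k + 2, by omega, ?_, key⟩
  refine slash_eq_of_primes hN0 (qser_slash_T_zpow _) fun p hp hpN hmod γ hγ hγp => ?_
  have hNm : (N : ℤ) ∣ ((N ^ (2 * k + 2) : ℕ) : ℤ) := by
    push_cast
    exact dvd_pow_self _ (by omega)
  obtain ⟨P, Q, hPQ⟩ := exists_isPair_of_modEq h2 hp (hmod.of_dvd (hdN.trans hNm))
  have hp0 : (p : E) ≠ 0 := by exact_mod_cast hp.ne_zero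
  set x : Eˣ := Units.mk0 (p : E) hp0 with hx
  have hxV : x ∈ VN E N k := by
    rw [mem_VN_iff (by omega)]
    obtain ⟨r, hr⟩ := hmod.symm.dvd
    have hN' : (N : E) ≠ 0 := Nat.cast_ne_zero.mpr hN0
    have e : ((N : E) ^ k)⁻¹ * ((x : E) - 1) = (N : E) ^ (k + 2) * (r : E) := by
      have h5 : ((p : ℤ) : E) - 1 = ((N : E) ^ (2 * k + 2)) * (r : E) := by
        have := congrArg (fun z : ℤ => (z : E)) hr
        push_cast at this ⊢
        exact this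
      rw [hx, Units.val_mk0]
      push_cast at h5
      have e2 : (N : E) ^ (2 * k + 2) = (N : E) ^ k * (N : E) ^ (k + 2) := by
        rw [← pow_add]
        congr 1
        omega
      rw [h5, e2, mul_assoc, inv_mul_cancel_left₀ (pow_ne_zero _ hN')]
    rw [e]
    exact (AS E N).mul_mem ((AS E N).pow_mem (natCast_mem _ _) _) (intCast_mem _ _)
  have hsum : ψ P + ψ Q = 0 := by
    rw [← hPQ.rayVal_eq hp hpN ψ (x := x) rfl,
      hψN x (fun v hv => mem_cong_of_mem_VN (le_refl k) hxV hv), toAdd_one]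
  exact key p P Q hp hpN hPQ hsum γ (Gamma1_in_Gamma0 _ hγ) hγp

end Fermat.Agent.Classic.Dih
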