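import Fermat.Agent.Classic.Dihedral.Defs
import Fermat.Agent.LT.End.Galois
import Fermat.Agent.Classic.Group

/-!
# Primes `p ≡ 1` modulo `M` with `ρ(Frob_p) = -1` (DI5)

If `-1` is the value of `ρ` at a commutator `σ = g h g⁻¹ h⁻¹`, then the Frobenius elements `φ` which agree with
`σ` on the field cut out by `ρ` and on the `M`-th roots of unity have `ρ φ = -1` and fix the roots of unity,
since the Galois group of the roots of unity is commutative.
-/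

set_option autoImplicit false

local notation "Γℚ" => (AlgebraicClosure ℚ ≃ₐ[ℚ] AlgebraicClosure ℚ)

namespace Fermat.Agent.Classic.Dih

/-- The automorphisms commute on the roots of unity. -/
theorem apply_comm_of_pow_eq_one {M : ℕ} (hM : M ≠ 0) {η : AlgebraicClosure ℚ} (hη : η ^ M = 1)
    (g h : Γℚ) : g (h η) = h (g η) := by
  have hMQ : NeZero (M : ℚ) := ⟨by exact_mod_cast hM⟩
  have hMN : NeZero M := ⟨hM⟩
  obtain ⟨ζ, hζ⟩ := HasEnoughRootsOfUnity.exists_primitiveRoot (AlgebraicClosure ℚ) M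
  obtain ⟨i, -, rfl⟩ := hζ.eq_pow_of_pow_eq_one hη
  obtain ⟨a, -, ha⟩ := hζ.eq_pow_of_pow_eq_one (ξ := g ζ) (by
    rw [← map_pow, hζ.pow_eq_one, map_one])
  obtain ⟨b, -, hb⟩ := hζ.eq_pow_of_pow_eq_one (ξ := h ζ) (by
    rw [← map_pow, hζ.pow_eq_one, map_one])
  rw [map_pow h, map_pow g, map_pow g, map_pow h, ← ha, ← hb, map_pow g, map_pow h, ← ha, ← hb,
    ← pow_mul, ← pow_mul, ← pow_mul, ← pow_mul]
  congr 1
  ring

/-- A commutator fixes the roots of unity. -/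
theorem commutator_apply {M : ℕ} (hM : M ≠ 0) {ζ : AlgebraicClosure ℚ} (hζ : ζ ^ M = 1)
    (g h : Γℚ) : (g * h * g⁻¹ * h⁻¹) ζ = ζ := by
  have h1 : (g⁻¹ (h⁻¹ ζ)) ^ M = 1 := by rw [← map_pow, ← map_pow, hζ, map_one, map_one]
  rw [AlgEquiv.mul_apply, AlgEquiv.mul_apply, AlgEquiv.mul_apply,
    apply_comm_of_pow_eq_one hM h1 g h, ← AlgEquiv.mul_apply g g⁻¹, mul_inv_cancel,
    AlgEquiv.one_apply, ← AlgEquiv.mul_apply, mul_inv_cancel, AlgEquiv.one_apply]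

/-- **DI5.** If `-1` is the value at a commutator, there are primes `p ≡ 1` modulo any `M` with
`ρ(Frob_p) = -1`. -/
theorem negInput {ρ : Γℚ →* GL (Fin 2) (ZMod 3)} (hρ : Continuous ρ) {g h : Γℚ}
    (hgh : ρ (g * h * g⁻¹ * h⁻¹) = -1) : NegInput ρ := by
  intro M hM B
  have hMQ : NeZero (M : ℚ) := ⟨by exact_mod_cast hM⟩
  obtain ⟨ζ, hζ⟩ := HasEnoughRootsOfUnity.exists_primitiveRoot (AlgebraicClosure ℚ) M
  obtain ⟨L₁, hL₁, h1⟩ := Fermat.Agent.LT.End.exists_level ρ hρ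
  have hL₂ : FiniteDimensional ℚ (IntermediateField.adjoin ℚ {ζ}) :=
    IntermediateField.adjoin.finiteDimensional (Algebra.IsIntegral.isIntegral ζ)
  obtain ⟨q, hq, hqB, A, hA, -, φ, hφ, h3⟩ :=
    LTF.Deep.exists_frob_eq_on (L₁ ⊔ IntermediateField.adjoin ℚ {ζ}) (g * h * g⁻¹ * h⁻¹)
      (B ∪ M.primeFactors)
  rw [Finset.mem_union, not_or] at hqB
  have hcop : q.Coprime M := hq.coprime_iff_not_dvd.mpr fun hd =>
    hqB.2 (Nat.mem_primeFactors.mpr ⟨hq, hd, hM⟩)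
  refine ⟨q, hq, hqB.1, ?_, A, hA, φ, hφ, ?_⟩
  · have h4 : φ ζ = ζ ^ q := GalRep.frobenius_rootOfUnity hA hcop hM hφ hζ.pow_eq_one
    have h5 : ζ ∈ L₁ ⊔ IntermediateField.adjoin ℚ {ζ} :=
      (le_sup_right : IntermediateField.adjoin ℚ {ζ} ≤ L₁ ⊔ IntermediateField.adjoin ℚ {ζ})
        (IntermediateField.mem_adjoin_simple_self ℚ ζ)
    rw [h3 ζ h5, commutator_apply hM hζ.pow_eq_one] at h4
    have h6 : ζ ^ (q - 1) = 1 := mul_right_cancel₀ (hζ.ne_zero hM) (by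
      rw [← pow_succ, Nat.sub_add_cancel hq.one_lt.le, ← h4, one_mul])
    have h7 : ((q - 1 : ℕ) : ZMod M) = 0 :=
      (ZMod.natCast_eq_zero_iff _ _).mpr ((hζ.pow_eq_one_iff_dvd _).mp h6)
    rwa [Nat.cast_sub hq.one_lt.le, Nat.cast_one, sub_eq_zero] at h7
  · have h4 : ρ ((g * h * g⁻¹ * h⁻¹)⁻¹ * φ) = 1 := by
      apply h1
      intro x hx
      rw [AlgEquiv.mul_apply, h3 x ((le_sup_left : L₁ ≤ L₁ ⊔ IntermediateField.adjoin ℚ {ζ}) hx),
        ← AlgEquiv.mul_apply, inv_mul_cancel, AlgEquiv.one_apply]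
    rw [map_mul, map_inv, inv_mul_eq_one] at h4
    rw [← h4, hgh]

/-- The version with two elements of the image. -/
theorem negInput_of_mem {ρ : Γℚ →* GL (Fin 2) (ZMod 3)} (hρ : Continuous ρ)
    {a b : GL (Fin 2) (ZMod 3)} (ha : a ∈ ρ.range) (hb : b ∈ ρ.range)
    (hab : a * b = -(b * a)) : NegInput ρ := by
  obtain ⟨g, rfl⟩ := ha
  obtain ⟨h, rfl⟩ := hb
  refine negInput hρ (g := g) (h := h) ?_
  rw [map_mul, map_mul, map_mul, map_inv, map_inv, hab, neg_mul, neg_mul, mul_assoc (ρ h),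
    mul_inv_cancel, mul_one, mul_inv_cancel]

/-- The images `D4` and `SD16`. -/
theorem negInput_std {ρ : Γℚ →* GL (Fin 2) (ZMod 3)} (hρ : Continuous ρ)
    (hG : ρ.range = D4 ∨ ρ.range = SD16) : NegInput ρ := by
  have hD : D4 ≤ ρ.range := by
    rcases hG with h | h
    · exact h.ge
    · exact D4_le.trans h.ge
  have h1 : c0 ∈ D4 := mem_D4_iff.mpr (by decide)
  have h2 : sw ∈ D4 := mem_D4_iff.mpr (by decide)
  refine negInput_of_mem hρ (hD h1) (hD h2) (Units.ext ?_)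
  rw [Units.val_neg, Units.val_mul, Units.val_mul]
  decide

end Fermat.Agent.Classic.Dih
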