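import Fermat.Agent.Classic.Dihedral.OctFields
import Fermat.Agent.Classic.Group
import Fermat.Agent.LT.Tower.Main

/-!
# Existence of the fields attached to a representation with image `SD16` (DI9a)
-/

set_option autoImplicit false

namespace Fermat.Agent.Classic.Dih

open NumberField IsDedekindDomain Fermat.Agent.Frob WeierstrassCurve
open Fermat.Agent.LT.Psi (QuatCond galU coe_galU)
open Fermat.Agent.LT.Tower
open Fermat.Agent.Classic (SD16 mem_SD16_iff isS a8 c0 of_c0 of_a8 of_a8_inv)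
open Fermat.Agent.Classic.Q3 (Q one mul of_injective of_mul of_one det_of det_of_ne_zero)
open scoped IntermediateField

local notation "Qbar" => AlgebraicClosure ℚ
local notation "G3" => Matrix.GeneralLinearGroup (Fin 2) (ZMod 3)

/-! ### The subgroups `𝔽₉ˣ ⊃ C₄ ⊃ {±1}` -/

namespace OctG

/-- in `𝔽₉ˣ` -/
def is9 (x : Q) : Bool :=
  (x.1 * x.2.2.2 - x.2.1 * x.2.2.1 ≠ 0) && (x.1 = x.2.2.2 && x.2.1 = -x.2.2.1)

/-- in `C₄` -/
def is4 (x : Q) : Bool :=
  (x.1 * x.2.2.2 - x.2.1 * x.2.2.1 ≠ 0) && ((x.1 = x.2.2.2 && x.2.1 = -x.2.2.1) &&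
    (x.1 = 0 || x.2.1 = 0))

/-- `± 1` -/
def is2 (x : Q) : Bool :=
  (x.1 ≠ 0) && (x.1 = x.2.2.2 && (x.2.1 = 0 && x.2.2.1 = 0))

/-- `𝔽₉ˣ` -/
def C9 : Subgroup G3 := Classic.mkSub is9 (by decide) (by decide)

/-- the subgroup of order four of `𝔽₉ˣ` -/
def C4 : Subgroup G3 := Classic.mkSub is4 (by decide) (by decide)

/-- `± 1` -/
def C2 : Subgroup G3 := Classic.mkSub is2 (by decide) (by decide)

theorem mem_C9 {g : G3} : g ∈ C9 ↔ is9 (Q3.of g) = true := Iff.rfl
theorem mem_C4 {g : G3} : g ∈ C4 ↔ is4 (Q3.of g) = true := Iff.rfl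
theorem mem_C2 {g : G3} : g ∈ C2 ↔ is2 (Q3.of g) = true := Iff.rfl

theorem of_c0_inv : Q3.of c0⁻¹ = (1, 0, 0, -1) := rfl

/-- the square of `a8` -/
def a4 : G3 := ⟨!![0, -1; 1, 0], !![0, 1; -1, 0], by decide, by decide⟩

theorem of_a4 : Q3.of a4 = (0, -1, 1, 0) := rfl
theorem of_a4_inv : Q3.of a4⁻¹ = (0, 1, -1, 0) := rfl

theorem a8_mul_a8 : a8 * a8 = a4 := by
  apply of_injective
  rw [of_mul, of_a8, of_a4]
  decide

theorem a4_mul_a4 : a4 * a4 = -1 := by
  apply of_injective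
  rw [of_mul, of_a4]
  decide

theorem C9_le : C9 ≤ SD16 := by
  intro g hg
  rw [mem_C9] at hg
  rw [mem_SD16_iff]
  have key : ∀ a b c d : ZMod 3, is9 (a, b, c, d) = true → isS (a, b, c, d) = true := by decide
  exact key _ _ _ _ hg

theorem C4_le : C4 ≤ C9 := by
  intro g hg
  rw [mem_C4] at hg
  rw [mem_C9]
  have key : ∀ a b c d : ZMod 3, is4 (a, b, c, d) = true → is9 (a, b, c, d) = true := by decide
  exact key _ _ _ _ hg

theorem C2_le : C2 ≤ C4 := by
  intro g hg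
  rw [mem_C2] at hg
  rw [mem_C4]
  have key : ∀ a b c d : ZMod 3, is2 (a, b, c, d) = true → is4 (a, b, c, d) = true := by decide
  exact key _ _ _ _ hg

theorem mem_C2_iff {g : G3} : g ∈ C2 ↔ (g = 1 ∨ g = -1) := by
  constructor
  · intro h
    rw [mem_C2] at h
    have key : ∀ a b c d : ZMod 3, is2 (a, b, c, d) = true →
        ((a, b, c, d) : Q) = (1, 0, 0, 1) ∨ ((a, b, c, d) : Q) = (-1, 0, 0, -1) := by decide
    rcases key _ _ _ _ h with h | h
    · exact Or.inl (of_injective h)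
    · exact Or.inr (of_injective h)
  · rintro (rfl | rfl)
    · exact one_mem _
    · rw [mem_C2]; decide

theorem c0_mem : c0 ∈ SD16 := by rw [mem_SD16_iff, of_c0]; decide
theorem c0_notMem : c0 ∉ C9 := by rw [mem_C9, of_c0]; decide
theorem c0_sq : c0 ^ 2 ∈ C9 := by
  rw [pow_two, mem_C9, of_mul, of_c0]; decide
theorem a8_mem : a8 ∈ C9 := by rw [mem_C9, of_a8]; decide
theorem a8_notMem : a8 ∉ C4 := by rw [mem_C4, of_a8]; decide
theorem a8_sq : a8 ^ 2 ∈ C4 := by rw [pow_two, mem_C4, of_mul, of_a8]; decide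
theorem a4_mem : a4 ∈ C4 := by rw [mem_C4, of_a4]; decide
theorem a4_notMem : a4 ∉ C2 := by rw [mem_C2, of_a4]; decide
theorem a4_sq : a4 ^ 2 ∈ C2 := by rw [pow_two, mem_C2, of_mul, of_a4]; decide

theorem conj9 {g : G3} (h : g ∈ C9) : c0⁻¹ * g * c0 ∈ C9 := by
  rw [mem_C9] at h
  rw [mem_C9, of_mul, of_mul, of_c0_inv, of_c0]
  have key : ∀ a b c d : ZMod 3, is9 (a, b, c, d) = true →
      is9 (mul (mul (1, 0, 0, -1) (a, b, c, d)) (1, 0, 0, -1)) = true := by decide
  exact key _ _ _ _ h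

theorem conj4 {g : G3} (h : g ∈ C4) : a8⁻¹ * g * a8 ∈ C4 := by
  rw [mem_C4] at h
  rw [mem_C4, of_mul, of_mul, of_a8_inv, of_a8]
  have key : ∀ a b c d : ZMod 3, is4 (a, b, c, d) = true →
      is4 (mul (mul (-1, 1, -1, -1) (a, b, c, d)) (1, 1, -1, 1)) = true := by decide
  exact key _ _ _ _ h

theorem conj2 (s : G3) {g : G3} (h : g ∈ C2) : s⁻¹ * g * s ∈ C2 := by
  rw [mem_C2_iff] at h ⊢
  rcases h with rfl | rfl
  · left; group
  · right
    rw [mul_neg, mul_one, neg_mul, inv_mul_cancel]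

theorem cover9 {g : G3} (h : g ∈ SD16) : g ∈ C9 ∨ c0⁻¹ * g ∈ C9 := by
  rw [mem_SD16_iff] at h
  rw [mem_C9, mem_C9, of_mul, of_c0_inv]
  have key : ∀ a b c d : ZMod 3, isS (a, b, c, d) = true →
      is9 (a, b, c, d) = true ∨ is9 (mul (1, 0, 0, -1) (a, b, c, d)) = true := by decide
  exact key _ _ _ _ h

theorem cover4 {g : G3} (h : g ∈ C9) : g ∈ C4 ∨ a8⁻¹ * g ∈ C4 := by
  rw [mem_C9] at h
  rw [mem_C4, mem_C4, of_mul, of_a8_inv]
  have key : ∀ a b c d : ZMod 3, is9 (a, b, c, d) = true →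
      is4 (a, b, c, d) = true ∨ is4 (mul (-1, 1, -1, -1) (a, b, c, d)) = true := by decide
  exact key _ _ _ _ h

theorem cover2 {g : G3} (h : g ∈ C4) : g ∈ C2 ∨ a4⁻¹ * g ∈ C2 := by
  rw [mem_C4] at h
  rw [mem_C2, mem_C2, of_mul, of_a4_inv]
  have key : ∀ a b c d : ZMod 3, is4 (a, b, c, d) = true →
      is2 (a, b, c, d) = true ∨ is2 (mul (0, 1, -1, 0) (a, b, c, d)) = true := by decide
  exact key _ _ _ _ h

theorem notMem_of_det {g : G3} (h1 : g * g = 1) (h2 : g.1.det = -1) : g ∉ C9 := by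
  intro h
  rw [mem_C9] at h
  have h3 : mul (Q3.of g) (Q3.of g) = one := by rw [← of_mul, h1, of_one]
  have h4 : Q3.det (Q3.of g) = -1 := by rw [det_of, h2]
  have key : ∀ a b c d : ZMod 3, is9 (a, b, c, d) = true →
      mul (a, b, c, d) (a, b, c, d) = one → a * d - b * c ≠ -1 := by decide
  exact key _ _ _ _ h h3 h4

end OctG

open OctG

/-- An imaginary quadratic field is totally complex. -/
theorem isTotallyComplex_of_sqrt {F : Type} [Field F] [NumberField F] {j : F →+* Qbar} {y : F}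
    {a : ℚ} (hy : y ^ 2 = (a : F)) (hc : complexConjugation (j y) ≠ j y) :
    IsTotallyComplex F := by
  refine ⟨fun v => ?_⟩
  rw [← InfinitePlace.not_isReal_iff_isComplex]
  intro hv
  have h1 := InfinitePlace.isReal_iff.mp hv
  have h2 : (h1.embedding y) ^ 2 = (a : ℝ) := by rw [← map_pow, hy, map_ratCast]
  have h3 : (0 : ℝ) ≤ a := by rw [← h2]; exact sq_nonneg _
  apply hc
  suffices h0 : complexEmbedding (complexConjugation (j y)) = complexEmbedding (j y) from
    complexEmbedding.toRingHom.injective h0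
  rw [complexEmbedding_complexConjugation]
  set z := complexEmbedding (j y) with hz
  have h4 : z ^ 2 = ((a : ℝ) : ℂ) := by
    rw [hz, ← map_pow, ← map_pow, hy, map_ratCast, map_ratCast]
    norm_cast
  have hre : z.re * z.re - z.im * z.im = a := by
    have := congrArg Complex.re h4
    simpa [pow_two] using this
  have him : z.re * z.im = 0 := by
    have := congrArg Complex.im h4
    simp [pow_two] at this
    linarith
  have hz0 : z.im = 0 := by
    rcases mul_eq_zero.mp him with h | h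
    · rw [h, mul_zero, zero_sub] at hre
      nlinarith [mul_self_nonneg z.im]
    · exact h
  exact Complex.ext (by simp) (by simp [hz0])

section

variable {ρ : GQ →* G3} (hρ : Continuous ρ)

include hρ in
theorem exists_gen_two (H : Subgroup G3) {s : GQ} (hs : ρ s ∉ H) (hsp : ρ s ^ 2 ∈ H)
    (hn : ∀ g ∈ H, (ρ s)⁻¹ * g * ρ s ∈ H) :
    ∃ x : Qbar, x ≠ 0 ∧ IsIntegral ℤ x ∧ s x = -1 * x ∧ ∀ g : GQ, ρ g ∈ H → g x = x :=
  exists_gen hρ H Nat.prime_two hs hsp hn (IsPrimitiveRoot.neg_one 0 (by norm_num))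
    (by rw [map_neg, map_one]) (fun g _ => by rw [map_neg, map_one])

end

/-- **DI9a.** The fields attached to a representation with image `SD16`. -/
theorem exists_octFields {ρ : GQ →* G3} (hρ : Continuous ρ) (hG : ρ.range = SD16)
    (hc : (ρ complexConjugation).1.det = -1) : Nonempty (OctFields ρ) := by
  have hall : ∀ g : GQ, ρ g ∈ SD16 := fun g => by rw [← hG]; exact ⟨g, rfl⟩
  have hex : ∀ x ∈ SD16, ∃ g : GQ, ρ g = x := fun x hx => by rw [← hG] at hx; exact hx
  obtain ⟨s0, hs0⟩ := hex c0 c0_mem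
  obtain ⟨s1, hs1⟩ := hex a8 (C9_le a8_mem)
  obtain ⟨s2, hs2⟩ : ∃ s2 : GQ, s2 = s1 * s1 := ⟨_, rfl⟩
  have hρ2 : ρ s2 = a4 := by rw [hs2, map_mul, hs1, a8_mul_a8]
  obtain ⟨s4, hs4⟩ : ∃ s4 : GQ, s4 = s2 * s2 := ⟨_, rfl⟩
  have hρ4 : ρ s4 = -1 := by rw [hs4, map_mul, hρ2, a4_mul_a4]
  -- generators
  obtain ⟨x, hx0, hxi, hsx, hfx⟩ := exists_gen_two hρ C9 (s := s0) (by rw [hs0]; exact c0_notMem)
    (by rw [hs0]; exact c0_sq) (fun g hg => by rw [hs0]; exact conj9 hg)
  obtain ⟨y, hy0, hyi, hsy, hfy⟩ := exists_gen_two hρ C4 (s := s1) (by rw [hs1]; exact a8_notMem)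
    (by rw [hs1]; exact a8_sq) (fun g hg => by rw [hs1]; exact conj4 hg)
  obtain ⟨z, hz0, hzi, hsz, hfz⟩ := exists_gen_two hρ C2 (s := s2) (by rw [hρ2]; exact a4_notMem)
    (by rw [hρ2]; exact a4_sq) (fun g hg => conj2 _ hg)
  obtain ⟨t, ht0, hti, hst, hft⟩ := exists_gen_two hρ (⊥ : Subgroup G3) (s := s4)
    (by rw [hρ4, Subgroup.mem_bot]; decide) (by rw [hρ4, Subgroup.mem_bot]; decide)
    (fun g hg => by rw [Subgroup.mem_bot] at hg ⊢; rw [hg]; group)
  have actx : ∀ g : GQ, (g x = x ↔ ρ g ∈ C9) ∧ (g x = x ∨ g x = -x) := fun g =>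
    quad_step hx0 hsx hfx (by rw [hs0]; exact cover9 (hall g))
  have acty : ∀ {g : GQ}, ρ g ∈ C9 → (g y = y ↔ ρ g ∈ C4) ∧ (g y = y ∨ g y = -y) := fun hg =>
    quad_step hy0 hsy hfy (by rw [hs1]; exact cover4 hg)
  have actz : ∀ {g : GQ}, ρ g ∈ C4 → (g z = z ↔ ρ g ∈ C2) ∧ (g z = z ∨ g z = -z) := fun hg =>
    quad_step hz0 hsz hfz (by rw [hρ2]; exact cover2 hg)
  have actt : ∀ {g : GQ}, (ρ g = 1 ∨ ρ g = -1) → (g t = t ↔ ρ g = 1) ∧ (g t = t ∨ g t = -t) := by
    intro g hg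
    have h := quad_step (g := g) ht0 hst hft (by
      rw [hρ4, Subgroup.mem_bot, Subgroup.mem_bot]
      rcases hg with h | h
      · exact Or.inl h
      · right
        rw [h]
        decide)
    rwa [Subgroup.mem_bot] at h
  have sq_of : ∀ {w : Qbar} {g : GQ}, (g w = w ∨ g w = -w) → (g w) ^ 2 = w ^ 2 := by
    rintro w g (h | h)
    · rw [h]
    · rw [h, neg_sq]
  -- `F`
  have hfixQ : ∀ g : GQ, (∀ q : ℚ, g (algebraMap ℚ Qbar q) = algebraMap ℚ Qbar q) ↔
      ρ g ∈ SD16 := fun g => ⟨fun _ => hall g, fun _ q => g.commutes q⟩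
  obtain ⟨a₀, F, iF, nF, aQF, jF, ξ, hjF, hξ, hξ2, -, -, -, hfrF, -, hfixF, ha₀x⟩ :=
    stage (ι := algebraMap ℚ Qbar) (P := fun g => g ∈ SD16) (Q := fun g => g ∈ C9) hfixQ
      Nat.prime_two (IsPrimitiveRoot.neg_one 0 (by norm_num)) hxi hx0
      (fun g _ => sq_of (actx g).2)
      (fun g => ⟨fun h => ⟨C9_le h, hfx g h⟩, fun h => (actx g).1.mp h.2⟩)
      ⟨s0, hall s0, fun h => by
        have h1 := (actx s0).1.mp h
        rw [hs0] at h1
        exact c0_notMem h1⟩
  obtain rfl : aQF = DivisionRing.toRatAlgebra := Subsingleton.elim _ _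
  -- `E`
  obtain ⟨a, E, iE, nE, aFE, jE, α, hjE, hα, hα2, hαtop, -, -, hfrE, hgalE, hfixE, hax⟩ :=
    stage (P := fun g => g ∈ C9) (Q := fun g => g ∈ C4) hfixF Nat.prime_two
      (IsPrimitiveRoot.neg_one 0 (by norm_num)) hyi hy0 (fun g hg => sq_of (acty hg).2)
      (fun g => ⟨fun h => ⟨C4_le h, hfy g h⟩, fun h => (acty h.1).1.mp h.2⟩)
      ⟨s1, by rw [hs1]; exact a8_mem, fun h => by
        have h1 := (acty (g := s1) (by rw [hs1]; exact a8_mem)).1.mp h
        rw [hs1] at h1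
        exact a8_notMem h1⟩
  -- `M`
  obtain ⟨b, M, iM, nM, aEM, jM, β, hjM, hβ, hβ2, hβtop, -, -, hfrM, hgalM, hfixM, hbx⟩ :=
    stage (P := fun g => g ∈ C4) (Q := fun g => g ∈ C2) hfixE Nat.prime_two
      (IsPrimitiveRoot.neg_one 0 (by norm_num)) hzi hz0 (fun g hg => sq_of (actz hg).2)
      (fun g => ⟨fun h => ⟨C2_le h, hfz g h⟩, fun h => (actz h.1).1.mp h.2⟩)
      ⟨s2, by rw [hρ2]; exact a4_mem, fun h => by
        have h1 := (actz (g := s2) (by rw [hρ2]; exact a4_mem)).1.mp h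
        rw [hρ2] at h1
        exact a4_notMem h1⟩
  have hfixM' : ∀ g : GQ, (∀ x : M, g (jM x) = jM x) ↔ (ρ g = 1 ∨ ρ g = -1) := fun g => by
    rw [hfixM, mem_C2_iff]
  -- `d`
  obtain ⟨d, -, -, -, -, -, -, -, -, -, -, hdi, -, -, -, -, hdx⟩ :=
    stage (P := fun g => g = 1 ∨ g = -1) (Q := fun g => g = 1) hfixM' Nat.prime_two
      (IsPrimitiveRoot.neg_one 0 (by norm_num)) hti ht0 (fun g hg => sq_of (actt hg).2)
      (fun g => ⟨fun h => ⟨Or.inl h, hft g (Subgroup.mem_bot.mpr h)⟩,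
        fun h => (actt h.1).1.mp h.2⟩)
      ⟨s4, Or.inr hρ4, fun h => by
        have h1 := (actt (Or.inr hρ4)).1.mp h
        rw [hρ4] at h1
        exact absurd h1 (by decide)⟩
  let aFM : Algebra F M := ((algebraMap E M).comp (algebraMap F E)).toAlgebra
  have tFEM : IsScalarTower F E M := IsScalarTower.of_algebraMap_eq' rfl
  have hjFM : ∀ x : F, jM (algebraMap F M x) = jF x := by
    intro x
    rw [IsScalarTower.algebraMap_apply F E M, hjM, hjE]
  -- stability
  have stabE : ∀ u : E, ∃ v : E, jE v = s1 (jE u) :=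
    stable_of_normal hfixE (fun h hh => by rw [hs1]; exact conj4 hh)
  have stabM : ∀ s : GQ, ∀ u : M, ∃ v : M, jM v = s (jM u) :=
    fun s => stable_of_normal hfixM (fun h hh => conj2 _ hh)
  -- the automorphisms
  have g1F : ∀ u : F, s1 (jF u) = jF u := (hfixF s1).mpr (by rw [hs1]; exact a8_mem)
  have g2E : ∀ u : E, s2 (jE u) = jE u := (hfixE s2).mpr (by rw [hρ2]; exact a4_mem)
  obtain ⟨c, hcc⟩ := exists_restrict (F := F) (j := jE) (g := s1)
    (fun u => by rw [hjE]; exact g1F u) stabE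
  obtain ⟨τ, hτ⟩ := exists_restrict (F := F) (j := jM) (g := s1)
    (fun u => by rw [hjFM]; exact g1F u) (stabM s1)
  obtain ⟨σ, hσ⟩ := exists_restrict (F := E) (j := jM) (g := s2)
    (fun u => by rw [hjM]; exact g2E u) (stabM s2)
  have hcα : c α = -α := by
    apply jE.injective
    rw [hcc, hα, hsy, map_neg, hα, neg_one_mul]
  have hσβ : σ β = -β := by
    apply jM.injective
    rw [hσ, hβ, hsz, map_neg, hβ, neg_one_mul]
  have hτα : ∀ u : E, τ (algebraMap E M u) = algebraMap E M (c u) := by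
    intro u
    apply jM.injective
    rw [hτ, hjM, hjM, hcc]
  have hττ : ∀ u : M, τ (τ u) = σ u := by
    intro u
    apply jM.injective
    rw [hτ, hτ, hσ, hs2]
    rfl
  have htc : IsTotallyComplex F := by
    refine isTotallyComplex_of_sqrt (j := jF) (y := ξ) (a := (a₀ : ℚ)) ?_ ?_
    · rw [hξ2, eq_ratCast]
    · rw [hξ]
      intro h
      refine notMem_of_det ?_ hc ((actx _).1.mp h)
      rw [← map_mul, complexConjugation_mul_self, map_one]
  -- products `t · h t`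
  have hprod : ∀ h : GQ, ∃ e : Mˣ, jM (e : M) = t * h t := by
    intro h
    obtain ⟨e, he⟩ := mem_range_of_fixed jM (x := t * h t) (by
      intro u hu
      have hu' := (hfixM' u).mp hu
      have hconj : ρ (h⁻¹ * u * h) = ρ u := by
        rw [map_mul, map_mul, map_inv]
        rcases hu' with h3 | h3
        · rw [h3]; group
        · rw [h3, mul_neg, mul_one, neg_mul, inv_mul_cancel]
      have h3 : u (h t) = h ((h⁻¹ * u * h) t) := by
        have : u * h = h * (h⁻¹ * u * h) := by group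
        exact congrArg (fun s : GQ => s t) this
      have h4 := actt hu'
      have h5 := actt (g := h⁻¹ * u * h) (by rwa [hconj])
      rw [map_mul, h3]
      rcases h4.2 with h6 | h6
      · rw [h5.1.mpr (by rw [hconj]; exact h4.1.mp h6), h6]
      · have h7 : (h⁻¹ * u * h) t = -t := by
          rcases h5.2 with h8 | h8
          · exfalso
            have h9 := h4.1.mpr (by rw [← hconj]; exact h5.1.mp h8)
            rw [h9] at h6
            exact ht0 (self_eq_neg.mp h6)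
          · exact h8
        rw [h7, h6, map_neg, neg_mul_neg])
    have he0 : e ≠ 0 := by
      rintro rfl
      rw [map_zero] at he
      exact mul_ne_zero ht0 ((map_ne_zero h).mpr ht0) he.symm
    exact ⟨Units.mk0 e he0, he⟩
  have hquat : QuatCond σ d := by
    obtain ⟨e, he⟩ := hprod s2
    have h2 : s2 (s2 t) = -t := by
      have h4 : s2 (s2 t) = s4 t := by rw [hs4]; rfl
      rw [h4, hst, neg_one_mul]
    refine ⟨e, ?_, ?_⟩
    · apply Units.ext
      apply jM.injective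
      rw [Units.val_mul, coe_galU, map_mul, Units.val_pow_eq_pow_val, map_pow, he,
        hσ, hdx, map_pow, mul_pow]
    · apply jM.injective
      rw [hσ, he, map_mul, h2, map_neg, he]
      ring
  have hsqτ : ∃ e : Mˣ, d * galU τ d = e ^ 2 := by
    obtain ⟨e, he⟩ := hprod s1
    refine ⟨e, ?_⟩
    apply Units.ext
    apply jM.injective
    rw [Units.val_mul, coe_galU, map_mul, Units.val_pow_eq_pow_val, map_pow, he,
      hτ, hdx, map_pow, mul_pow]
  exact ⟨{
    F := F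
    E := E
    M := M
    i := jM
    finrank_F := hfrF
    σ := σ
    τ := τ
    c := c
    a := a
    b := b
    α := α
    β := β
    d := d
    finrank_FE := hfrE
    finrank_EM := hfrM
    galois_FE := hgalE
    galois_EM := hgalM
    sq_α := hα2
    sq_β := hβ2
    c_α := hcα
    σ_β := hσβ
    τ_α := hτα
    τ_τ := hττ
    quat_σ := hquat
    sq_τ := hsqτ
    δ := t
    δ_sq := hdx.symm
    fix_M := hfixM'
    fix_δ := fun g hg => (actt hg).1 }⟩

end Fermat.Agent.Classic.Dih
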