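import Fermat.Agent.Classic.Dihedral.Defs
import Fermat.Agent.Classic.Group
import Fermat.Agent.LT.Tower.Exists
import Fermat.Agent.LT.Tower.Kum
import Fermat.Agent.LT.Psi.Kummer
import Fermat.Agent.CFT.Global.LocalIndex
import Fermat.Prelude.Def_GaloisRep_ComplexConjugation

/-!
# The character of an imaginary quadratic field attached to a `D4` image (DI7)

The image of `ρ` is the group of monomial matrices and complex conjugation is the exchange of the
coordinates. `E` is the fixed field of the diagonal matrices, and the first diagonal entry is the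
quadratic character of `E(√b)`; its value at a place is given by quadratic reciprocity.
-/

set_option autoImplicit false

namespace Fermat.Agent.Classic.Dih

open NumberField IsDedekindDomain Fermat.Agent.Frob Fermat.Agent.FrobDensity
open Fermat.Agent.LT (IsRay)
open Fermat.Agent.LT.Tower Fermat.Agent.LT.Tower.Fr
open Fermat.Agent.LT.Psi (kum kum_eq_zero_iff kum_eq_one_iff exists_isRay_kum)
open Fermat.Agent.CFT.SUnits (ord finite_ord_ne_zero)
open Fermat.Agent.CFT.Global (AboveP E mem_E)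
open scoped Pointwise IntermediateField

local notation "Qbar" => AlgebraicClosure ℚ
local notation "G3" => Matrix.GeneralLinearGroup (Fin 2) (ZMod 3)
local notation "M3" => Matrix (Fin 2) (Fin 2) (ZMod 3)

/-! ### Places, Frobenius elements -/

section Places

variable {F : Type*} [Field F] [NumberField F]

/-- Up to conjugation, a valuation subring above `p` lies above a given place `P ∣ p`. -/
theorem exists_frob_over (j : F →+* Qbar) {p : ℕ} (hp : p.Prime)
    {A : ValuationSubring Qbar} (hA : A.LiesOverPrime p) {σ : GQ} (hσ : A.IsFrobeniusAt σ p)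
    {P : HeightOneSpectrum (𝓞 F)} (hP : (p : 𝓞 F) ∈ P.asIdeal) :
    ∃ (A' : ValuationSubring Qbar) (g : GQ), A'.LiesOverPrime p ∧ Over j A' P ∧
      A'.IsFrobeniusAt (g * σ * g⁻¹) p := by
  obtain ⟨q, A', -, -, hA'P⟩ := exists_over j P
  have hA' : A'.LiesOverPrime p := hA'P.natCast_mem_iff.mp hP
  obtain ⟨g, hg⟩ := Frob.exists_smul_eq hp hA hA'
  refine ⟨A', g, hA', hA'P, ?_⟩
  rw [← hg]
  exact isFrobeniusAt_conj hσ

end Places

/-! ### The group of order two in the circle -/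

/-- `0, 1 ↦ 0, 1/2`. -/
noncomputable def half : ZMod 2 →+ UnitAddCircle :=
  ZMod.lift 2 ⟨zmultiplesHom UnitAddCircle ((1 / 2 : ℝ) : UnitAddCircle), by
    rw [zmultiplesHom_apply, ← AddCircle.coe_zsmul]
    have h1 : ((2 : ℕ) : ℤ) • (1 / 2 : ℝ) = 1 := by norm_num
    rw [h1]
    exact AddCircle.coe_period 1⟩

theorem half_one : half 1 = ((1 / 2 : ℝ) : UnitAddCircle) := by
  have h1 := ZMod.lift_coe (n := 2) ⟨zmultiplesHom UnitAddCircle ((1 / 2 : ℝ) : UnitAddCircle), by
    rw [zmultiplesHom_apply, ← AddCircle.coe_zsmul]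
    have h1 : ((2 : ℕ) : ℤ) • (1 / 2 : ℝ) = 1 := by norm_num
    rw [h1]
    exact AddCircle.coe_period 1⟩ (1 : ℤ)
  rw [Int.cast_one] at h1
  refine h1.trans ?_
  simp

/-! ### Imaginary quadratic fields -/

section Complex

/-- A field containing a square root of a rational number which is moved by the complex
conjugation is totally complex. -/
theorem isTotallyComplex_of_neg {F : Type} [Field F] [NumberField F] (j : F →+* Qbar) {α : F}
    {a : ℚ} (hα : α ^ 2 = algebraMap ℚ F a) (h0 : α ≠ 0)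
    (h : complexConjugation (j α) = -j α) : IsTotallyComplex F := by
  set z : ℂ := complexEmbedding (j α) with hz
  have h1 : (starRingEnd ℂ) z = -z := by
    rw [hz, ← complexEmbedding_complexConjugation, h, map_neg]
  have hre : z.re = 0 := by
    have := congrArg Complex.re h1
    rw [Complex.conj_re, Complex.neg_re] at this
    linarith
  have hz0 : z ≠ 0 := by
    rw [hz]
    exact (map_ne_zero complexEmbedding).mpr ((map_ne_zero j).mpr h0)
  have him : z.im ≠ 0 := by
    intro him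
    exact hz0 (Complex.ext hre him)
  have h2 : z ^ 2 = ((a : ℚ) : ℂ) := by
    rw [hz, ← map_pow, ← map_pow, hα]
    simp
  have h3 : ((a : ℚ) : ℝ) = -(z.im) ^ 2 := by
    have h4 := congrArg Complex.re h2
    rw [pow_two, Complex.mul_re, hre] at h4
    simp only [mul_zero, zero_sub] at h4
    have h5 : (((a : ℚ) : ℂ)).re = ((a : ℚ) : ℝ) := by simp
    rw [h5] at h4
    rw [← h4]
    ring
  have h4 : ((a : ℚ) : ℝ) < 0 := by
    rw [h3]
    have := sq_pos_of_ne_zero him
    linarith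
  refine ⟨fun v => ?_⟩
  rw [← InfinitePlace.not_isReal_iff_isComplex]
  intro hv
  have h5 := InfinitePlace.isReal_iff.mp hv
  have h6 : (h5.embedding α) ^ 2 = ((a : ℚ) : ℝ) := by
    rw [← map_pow, hα]
    simp
  have h7 := sq_nonneg (h5.embedding α)
  rw [h6] at h7
  linarith

end Complex

/-! ### The subgroups -/

/-- the diagonal matrices -/
def isDg (x : Q3.Q) : Bool :=
  (x.1 * x.2.2.2 - x.2.1 * x.2.2.1 ≠ 0) && (x.2.1 = 0 && x.2.2.1 = 0)

/-- the diagonal matrices with first entry `1` -/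
def isD1 (x : Q3.Q) : Bool :=
  (x.1 * x.2.2.2 - x.2.1 * x.2.2.1 ≠ 0) && (x.2.1 = 0 && x.2.2.1 = 0 && x.1 = 1)

/-- The diagonal matrices. -/
def Dg : Subgroup G3 := mkSub isDg (by decide) (by decide)

/-- The diagonal matrices with first entry `1`. -/
def D1 : Subgroup G3 := mkSub isD1 (by decide) (by decide)

theorem mem_Dg_iff {g : G3} : g ∈ Dg ↔ isDg (Q3.of g) = true := Iff.rfl

theorem mem_D1_iff {g : G3} : g ∈ D1 ↔ isD1 (Q3.of g) = true := Iff.rfl

theorem sw_inv : (sw : G3)⁻¹ = sw := rfl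

theorem of_neg_one : Q3.of (-1 : G3) = (-1, 0, 0, -1) := by decide

theorem neg_one_inv : (-1 : G3)⁻¹ = -1 := by decide

theorem sw_notMem : sw ∉ Dg := by
  rw [mem_Dg_iff, of_sw]
  decide

theorem sw_sq_mem : sw ^ 2 ∈ Dg := by
  rw [mem_Dg_iff, Q3.of_pow, of_sw]
  decide

theorem conj_sw_mem {g : G3} (hg : g ∈ Dg) : sw⁻¹ * g * sw ∈ Dg := by
  rw [sw_inv, mem_Dg_iff, Q3.of_mul, Q3.of_mul, of_sw]
  rw [mem_Dg_iff] at hg
  have key : ∀ a b c d : ZMod 3, isDg (a, b, c, d) = true →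
      isDg (Q3.mul (Q3.mul (0, 1, 1, 0) (a, b, c, d)) (0, 1, 1, 0)) = true := by decide
  exact key _ _ _ _ hg

theorem cover_sw {g : G3} (hg : g ∈ D4) : g ∈ Dg ∨ sw⁻¹ * g ∈ Dg := by
  rw [sw_inv, mem_Dg_iff, mem_Dg_iff, Q3.of_mul, of_sw]
  rw [mem_D4_iff] at hg
  have key : ∀ a b c d : ZMod 3, isD (a, b, c, d) = true →
      (isDg (a, b, c, d) = true ∨ isDg (Q3.mul (0, 1, 1, 0) (a, b, c, d)) = true) := by decide
  exact key _ _ _ _ hg

theorem neg_one_mem_Dg : (-1 : G3) ∈ Dg := by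
  rw [mem_Dg_iff, of_neg_one]
  decide

theorem neg_one_mem_D4 : (-1 : G3) ∈ D4 := by
  rw [mem_D4_iff, of_neg_one]
  decide

theorem neg_one_notMem : (-1 : G3) ∉ D1 := by
  rw [mem_D1_iff, of_neg_one]
  decide

theorem neg_one_sq_mem : (-1 : G3) ^ 2 ∈ D1 := by
  rw [neg_one_sq]
  exact one_mem _

theorem conj_neg_one_mem {g : G3} (hg : g ∈ D1) : (-1 : G3)⁻¹ * g * (-1 : G3) ∈ D1 := by
  rw [neg_one_inv, neg_one_mul, mul_neg_one, neg_neg]
  exact hg

theorem cover_neg {g : G3} (hg : g ∈ Dg) : g ∈ D1 ∨ (-1 : G3)⁻¹ * g ∈ D1 := by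
  rw [neg_one_inv, mem_D1_iff, mem_D1_iff, Q3.of_mul, of_neg_one]
  rw [mem_Dg_iff] at hg
  have key : ∀ a b c d : ZMod 3, isDg (a, b, c, d) = true →
      (isD1 (a, b, c, d) = true ∨ isD1 (Q3.mul (-1, 0, 0, -1) (a, b, c, d)) = true) := by decide
  exact key _ _ _ _ hg

/-! ### The main theorem -/

section Main

variable {ρ : GQ →* G3}

/-- **DI7**, normalised form: `ρ` has the image `D4` and complex conjugation is the exchange of the
coordinates. -/
theorem psiInput_of_eq_D4 (hρ : Continuous ρ) (hr : ∀ g, g ∈ ρ.range ↔ g ∈ D4)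
    (hc : ρ complexConjugation = sw) : PsiInput ρ := by
  classical
  have hmem : ∀ g : GQ, ρ g ∈ D4 := fun g => (hr _).mp ⟨g, rfl⟩
  have hneg : IsPrimitiveRoot (-1 : Qbar) 2 := IsPrimitiveRoot.neg_one 0 (by norm_num)
  obtain ⟨sm, hsm⟩ : (-1 : G3) ∈ ρ.range := (hr _).mpr neg_one_mem_D4
  obtain ⟨y, hy0, hyi, hy1, hy2⟩ := exists_gen hρ Dg Nat.prime_two (s := complexConjugation)
    (by rw [hc]; exact sw_notMem) (by rw [hc]; exact sw_sq_mem)
    (fun g hg => by rw [hc]; exact conj_sw_mem hg) hneg (by rw [map_neg, map_one])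
    (fun g _ => by rw [map_neg, map_one])
  obtain ⟨x, hx0, hxi, hx1, hx2⟩ := exists_gen hρ D1 Nat.prime_two (s := sm)
    (by rw [hsm]; exact neg_one_notMem) (by rw [hsm]; exact neg_one_sq_mem)
    (fun g hg => by rw [hsm]; exact conj_neg_one_mem hg) hneg (by rw [map_neg, map_one])
    (fun g _ => by rw [map_neg, map_one])
  have hy : ∀ g : GQ, (g y = y ↔ ρ g ∈ Dg) ∧ (g y = y ∨ g y = -y) := fun g =>
    quad_step (s := complexConjugation) hy0 hy1 hy2 (by rw [hc]; exact cover_sw (hmem g))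
  have hx : ∀ g : GQ, ρ g ∈ Dg → (g x = x ↔ ρ g ∈ D1) ∧ (g x = x ∨ g x = -x) := fun g hg =>
    quad_step (s := sm) hx0 hx1 hx2 (by rw [hsm]; exact cover_neg hg)
  -- the field `E`
  obtain ⟨a, E, iE, nE, aE, j, α, hj, hα, hαp, -, -, -, hfr, -, hfix, -⟩ :=
    stage (ρ := ρ) (F := ℚ) (ι := algebraMap ℚ Qbar) (P := fun _ => True) (Q := fun g => g ∈ Dg)
      (p := 2) (ζ := -1) (x := y) (fun g => ⟨fun _ => trivial, fun _ x => g.commutes x⟩)
      Nat.prime_two (IsPrimitiveRoot.neg_one 0 (by norm_num)) hyi hy0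
      (fun g _ => by
        rcases (hy g).2 with h | h
        · rw [h]
        · rw [h, neg_sq])
      (fun g => by rw [← (hy g).1]; exact ⟨fun h => ⟨trivial, h⟩, fun h => h.2⟩)
      ⟨complexConjugation, trivial, fun h => by
        have h1 := (hy complexConjugation).1.mp h
        rw [hc] at h1
        exact sw_notMem h1⟩
  obtain rfl : aE = DivisionRing.toRatAlgebra := Subsingleton.elim _ _
  have hα0 : α ≠ 0 := by
    rintro rfl
    rw [map_zero] at hα
    exact hy0 hα.symm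
  have hTC : IsTotallyComplex E := isTotallyComplex_of_neg j hαp hα0 (by
    rw [hα, hy1, neg_one_mul])
  -- the element `b`
  obtain ⟨b₀, hb₀⟩ := mem_range_of_fixed j (x := x ^ 2) (fun g hg => by
    rw [map_pow]
    rcases (hx g ((hfix g).mp hg)).2 with h | h
    · rw [h]
    · rw [h, neg_sq])
  have hb0 : b₀ ≠ 0 := by
    rintro rfl
    rw [map_zero] at hb₀
    exact pow_ne_zero 2 hx0 hb₀.symm
  set b : Eˣ := Units.mk0 b₀ hb0 with hbdef
  have hjb : x ^ 2 = j b := hb₀.symm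
  -- the bad places
  obtain ⟨S, hS⟩ : ∃ S : Finset (HeightOneSpectrum (𝓞 E)), ∀ v, v ∉ S →
      ((2 : ℕ) : 𝓞 E) ∉ v.asIdeal ∧ ord v b = 0 := by
    refine ⟨(Fermat.Agent.CFT.Global.finite_aboveP (K := E) 2 two_ne_zero).toFinset ∪
      (finite_ord_ne_zero E b).toFinset, fun v hv => ?_⟩
    rw [Finset.mem_union, not_or, Set.Finite.mem_toFinset, Set.Finite.mem_toFinset] at hv
    exact ⟨hv.1, not_not.mp hv.2⟩
  have hS2 : AboveP 2 S := fun v hv => by
    by_contra h
    exact (hS v h).1 hv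
  have hbS : b ∈ Fermat.Agent.CFT.Global.E S := mem_E.mpr fun v hv => (hS v hv).2
  obtain ⟨n, hray⟩ := exists_isRay_kum hS2 hbS
  obtain ⟨D, hD0, hD⟩ := exists_good E
  refine ⟨E, iE, nE, hTC, hfr, S, n, fun v => half (kum b v), hray.comp half,
    D.primeFactors ∪ S.biUnion fun v => (Ideal.absNorm v.asIdeal).primeFactors,
    fun p hp hpB A hA σ hσ P hP => ?_⟩
  rw [Finset.mem_union, not_or] at hpB
  have hG : Good E p := hD p hp fun h => hpB.1 (Nat.mem_primeFactors.mpr ⟨hp, h, hD0⟩)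
  obtain ⟨f, hf0, hf⟩ := exists_absNorm_eq_pow hp hP
  have hPS : P ∉ S := by
    intro h
    apply hpB.2
    rw [Finset.mem_biUnion]
    refine ⟨P, h, Nat.mem_primeFactors.mpr ⟨hp, ?_, ?_⟩⟩
    · rw [hf]
      exact dvd_pow_self p hf0.ne'
    · rw [hf]
      exact pow_ne_zero _ hp.ne_zero
  obtain ⟨A', g, hA', hover, hσ'⟩ := exists_frob_over j hp hA hσ hP
  -- the common part
  have key : ∀ ε : G3, (∀ h : G3, h * ε * h⁻¹ = ε) → ε ∈ Dg → ρ σ = ε →
      Ideal.absNorm P.asIdeal = p ∧ (b ∈ Fermat.Agent.CFT.Global.locPow 2 P ↔ ε ∈ D1) := by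
    intro ε hε hεD hσε
    have h1 : ρ (g * σ * g⁻¹) = ε := by
      rw [map_mul, map_mul, map_inv, hσε, hε]
    have h2 : ∀ z : E, (g * σ * g⁻¹) (j z) = j z := (hfix _).mpr (by rw [h1]; exact hεD)
    have h3 : (gh ((g * σ * g⁻¹) ^ 1)).comp j = j := by
      rw [pow_one]
      exact RingHom.ext h2
    have h4 := (hover.frob_pow_comp_iff hp hG hA' hσ' hf 1).mp h3
    have h5 : f = 1 := Nat.dvd_one.mp h4
    have h6 : Ideal.absNorm P.asIdeal = p := by rw [hf, h5, pow_one]
    refine ⟨h6, ?_⟩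
    have h7 := fix_iff_mem_locPow Nat.prime_two (ζ := (-1 : 𝓞 E))
      (IsPrimitiveRoot.neg_one 0 (by norm_num)) (hS P hPS).1 (hS P hPS).2 hjb hover h2
      (by rw [h6]; exact hσ')
    rw [← h7, (hx _ (by rw [h1]; exact hεD)).1, h1]
  constructor
  · intro h1
    obtain ⟨h2, h3⟩ := key 1 (fun h => by group) (one_mem _) h1
    refine ⟨h2, ?_⟩
    change half (kum b P) = 0
    rw [(kum_eq_zero_iff b P).mpr (h3.mpr (one_mem _)), map_zero]
  · intro h1
    obtain ⟨h2, h3⟩ := key (-1) (fun h => by simp) neg_one_mem_Dg h1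
    refine ⟨h2, ?_⟩
    change half (kum b P) = _
    rw [(kum_eq_one_iff b P).mpr (fun h => neg_one_notMem (h3.mp h)), half_one]

theorem psiInput_of_range_eq (hρ : Continuous ρ) (hG : ρ.range = D4)
    (hc : ρ complexConjugation = sw) : PsiInput ρ :=
  psiInput_of_eq_D4 hρ (fun g => by rw [hG]) hc

/-- `PsiInput` is invariant under conjugation. -/
theorem PsiInput.of_conj (x : G3) (h : PsiInput ((MulAut.conj x).toMonoidHom.comp ρ)) :
    PsiInput ρ := by
  obtain ⟨E, iE, nE, hTC, hfr, S, n, ψ, hψ, B, hB⟩ := h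
  refine ⟨E, iE, nE, hTC, hfr, S, n, ψ, hψ, B, fun p hp hpB A hA σ hσ P hP => ?_⟩
  obtain ⟨h1, h2⟩ := hB p hp hpB A hA σ hσ P hP
  have h3 : ((MulAut.conj x).toMonoidHom.comp ρ) σ = x * ρ σ * x⁻¹ := rfl
  rw [h3] at h1 h2
  refine ⟨fun h => h1 ?_, fun h => h2 ?_⟩
  · rw [h]
    group
  · rw [h]
    simp

/-- **DI7**: the character for an image conjugate to `D4`, complex conjugation being conjugate to
the exchange of the coordinates. -/
theorem psiInput_D4 (hρ : Continuous ρ) {x : G3} (hG : ∀ g, g ∈ ρ.range ↔ x * g * x⁻¹ ∈ D4)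
    (hc : x * ρ complexConjugation * x⁻¹ = sw) : PsiInput ρ := by
  refine PsiInput.of_conj x (psiInput_of_eq_D4 ?_ (fun g => ?_) hc)
  · exact (continuous_of_discreteTopology (f := fun g : G3 => x * g * x⁻¹)).comp hρ
  · constructor
    · rintro ⟨σ, rfl⟩
      exact (hG _).mp ⟨σ, rfl⟩
    · intro h
      have h1 : x * (x⁻¹ * g * x) * x⁻¹ ∈ D4 := by
        have h2 : x * (x⁻¹ * g * x) * x⁻¹ = g := by group
        rw [h2]
        exact h
      obtain ⟨σ, hσ⟩ := (hG _).mpr h1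
      refine ⟨σ, ?_⟩
      change x * ρ σ * x⁻¹ = g
      rw [hσ]
      group

end Main

end Fermat.Agent.Classic.Dih
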