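import Fermat.Agent.Classic.Dihedral.OctFields
import Fermat.Agent.Classic.Dihedral.Defs
import Fermat.Agent.LT.Tower.SysK
import Fermat.Agent.LT.Tower.Good

/-!
# The character part for the image `SD16`, from the tower of fields
-/

set_option autoImplicit false

namespace Fermat.Agent.Classic.Dih

open NumberField IsDedekindDomain Fermat.Agent.Frob Fermat.Agent.FrobDensity
open Fermat.Agent.LT Fermat.Agent.LT.Psi Fermat.Agent.LT.Tower Fermat.Agent.LT.Tower.Fr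
open Fermat.Agent.CFT.Global (E ClTrivial AboveP above locPow mem_above mem_E)
open Fermat.Agent.CFT.SUnits (ord)
open Fermat.Agent.CFT.Places
open scoped Pointwise

local notation "Qbar" => AlgebraicClosure ℚ
local notation "G3" => Matrix.GeneralLinearGroup (Fin 2) (ZMod 3)

namespace OctFields

variable {ρ : GQ →* G3} (T : OctFields ρ)

lemma α_ne_zero : T.α ≠ 0 := by
  intro h
  have h1 := T.sq_α
  rw [h, zero_pow two_ne_zero] at h1
  exact (map_ne_zero (algebraMap T.F T.E)).mpr T.a.ne_zero h1.symm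

lemma β_ne_zero : T.β ≠ 0 := by
  intro h
  have h1 := T.sq_β
  rw [h, zero_pow two_ne_zero] at h1
  exact (map_ne_zero (algebraMap T.E T.M)).mpr T.b.ne_zero h1.symm

/-- the set of bad places is given by an integer -/
theorem exists_octData : ∃ N : ℕ, N ≠ 0 ∧ 2 ∣ N ∧ (∀ Q ∉ SN T.M N, ord Q T.d = 0) ∧
    ∃ D : OctData T.F T.E T.M (SN T.F N), D.σ = T.σ ∧ D.c = T.c ∧ D.d = T.d := by
  obtain ⟨m1, h1, g1⟩ := exists_mem_E_SN T.a
  obtain ⟨m2, h2, g2⟩ := exists_mem_E_SN T.b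
  obtain ⟨m3, h3, g3⟩ := exists_mem_E_SN T.d
  obtain ⟨m4, h4, g4⟩ := exists_clTrivial_SN T.F
  obtain ⟨m5, h5, g5⟩ := exists_clTrivial_SN T.E
  obtain ⟨m6, h6, g6⟩ := exists_clTrivial_SN T.M
  set N := 2 * m1 * m2 * m3 * m4 * m5 * m6 with hN
  have hN0 : N ≠ 0 := by positivity
  have d0 : 2 ∣ N := ⟨m1 * m2 * m3 * m4 * m5 * m6, by rw [hN]; ring⟩
  have d1 : m1 ∣ N := ⟨2 * m2 * m3 * m4 * m5 * m6, by rw [hN]; ring⟩
  have d2 : m2 ∣ N := ⟨2 * m1 * m3 * m4 * m5 * m6, by rw [hN]; ring⟩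
  have d3 : m3 ∣ N := ⟨2 * m1 * m2 * m4 * m5 * m6, by rw [hN]; ring⟩
  have d4 : m4 ∣ N := ⟨2 * m1 * m2 * m3 * m5 * m6, by rw [hN]; ring⟩
  have d5 : m5 ∣ N := ⟨2 * m1 * m2 * m3 * m4 * m6, by rw [hN]; ring⟩
  have d6 : m6 ∣ N := ⟨2 * m1 * m2 * m3 * m4 * m5, by rw [hN]; ring⟩
  have hd : ∀ Q ∉ SN T.M N, ord Q T.d = 0 := fun Q hQ => mem_E.mp (g3 N hN0 d3) Q hQ
  refine ⟨N, hN0, d0, hd, ⟨T.σ, T.τ, T.c, T.a, T.b, T.α, T.β, T.d, T.finrank_FE, T.finrank_EM,
    T.galois_FE, T.galois_EM, T.sq_α, T.sq_β, T.c_α, T.σ_β, T.τ_α, T.τ_τ, aboveP_SN hN0 d0,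
    fun v hv => mem_E.mp (g1 N hN0 d1) v hv, fun w hw => ?_, fun w hw => ?_, g4 N hN0 d4, ?_, ?_,
    T.quat_σ, T.sq_τ⟩, rfl, rfl, rfl⟩
  · rw [above_SN hN0] at hw
    exact mem_E.mp (g2 N hN0 d2) w hw
  · rw [above_SN hN0] at hw
    exact hd w hw
  · rw [above_SN hN0]
    exact g5 N hN0 d5
  · rw [above_SN hN0]
    exact g6 N hN0 d6

end OctFields

lemma toAddCircle_four : (ZMod.toAddCircle (4 : ZMod 8) : UnitAddCircle) =
    ((1 / 2 : ℝ) : UnitAddCircle) := by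
  have h : ((4 : ℤ) : ZMod 8) = 4 := rfl
  rw [← h, ZMod.toAddCircle_intCast]
  congr 1
  norm_num

/-- **The character part for `SD16`.** -/
theorem psiInput_of_octFields {ρ : GQ →* G3} (T : OctFields ρ) : PsiInput ρ := by
  classical
  obtain ⟨N, hN0, h2N, hd, D, hDσ, hDc, hDd⟩ := T.exists_octData
  obtain ⟨n, ψ, hψ, hval⟩ := D.exists_psi
  rw [hDσ, hDc, hDd] at hval
  obtain ⟨D1, h1, g1⟩ := exists_good T.F
  obtain ⟨D3, h3, g3⟩ := exists_good T.M
  have h9 : IsRay (SN T.F N) n (fun v => (ZMod.toAddCircle (ψ v) : UnitAddCircle)) := hψ.comp _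
  refine ⟨T.F, inferInstance, inferInstance, inferInstance, T.finrank_F, SN T.F N, n,
    fun v => ZMod.toAddCircle (ψ v), h9, ?_⟩
  refine ⟨(N * D1 * D3).primeFactors, ?_⟩
  intro p hp hpB A hA σ hσ P hpP
  have hNDD : N * D1 * D3 ≠ 0 := by positivity
  rw [Nat.mem_primeFactors_of_ne_zero hNDD, not_and] at hpB
  have hpN : ¬ p ∣ N := fun h => hpB hp ((h.mul_right _).mul_right _)
  have hG1 : Good T.F p := g1 p hp fun h => hpB hp ((h.mul_left _).mul_right _)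
  have hG3 : Good T.M p := g3 p hp fun h => hpB hp (h.mul_left _)
  have hp2 : p ≠ 2 := by
    rintro rfl
    exact hpN h2N
  -- places above `P`
  obtain ⟨P', rfl⟩ := exists_below_eq T.E P
  obtain ⟨Q, rfl⟩ := exists_below_eq T.M P'
  obtain ⟨q, A', hq, hA', hQA'⟩ := exists_over T.i Q
  have hpQ : (p : 𝓞 T.M) ∈ Q.asIdeal := by
    have h : algebraMap (𝓞 T.E) (𝓞 T.M) (algebraMap (𝓞 T.F) (𝓞 T.E) (p : 𝓞 T.F)) ∈ Q.asIdeal := hpP
    rwa [map_natCast, map_natCast] at h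
  have hA'p : A'.LiesOverPrime p := hQA'.natCast_mem_iff.mp hpQ
  obtain ⟨g, rfl⟩ := Frob.exists_smul_eq hp hA hA'p
  have hσ' := isFrobeniusAt_conj (g := g) hσ
  have hcoprime : ∀ {K : Type} [Field K] [NumberField K] (v : HeightOneSpectrum (𝓞 K)),
      (p : 𝓞 K) ∈ v.asIdeal → v ∉ SN K N := by
    intro K _ _ v hv h
    rw [mem_SN hN0] at h
    obtain ⟨x, y, hxy⟩ := (Nat.Coprime.isCoprime ((Nat.Prime.coprime_iff_not_dvd hp).mpr hpN))
    apply v.isPrime.ne_top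
    rw [Ideal.eq_top_iff_one]
    have h2 : (1 : 𝓞 K) = (x : 𝓞 K) * p + (y : 𝓞 K) * N := by
      exact_mod_cast congrArg (fun z : ℤ => (z : 𝓞 K)) hxy.symm
    rw [h2]
    exact v.asIdeal.add_mem (v.asIdeal.mul_mem_left _ hv) (v.asIdeal.mul_mem_left _ h)
  have hPS : Q.under (𝓞 T.F) ∉ SN T.F N := by
    refine hcoprime _ ?_
    change algebraMap (𝓞 T.F) (𝓞 T.M) (p : 𝓞 T.F) ∈ Q.asIdeal
    rwa [map_natCast]
  have hQS : Q ∉ SN T.M N := hcoprime Q hpQ
  have hpm : ∀ z : G3, (z = 1 ∨ z = -1) → ρ σ = z → ρ (g * σ * g⁻¹) = z := by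
    rintro z (rfl | rfl) hz
    · rw [map_mul, map_mul, hz, mul_one, ← map_mul, mul_inv_cancel, map_one]
    · rw [map_mul, map_mul, hz, mul_neg, mul_one, neg_mul, ← map_mul, mul_inv_cancel, map_one]
  -- everything which depends only on `ρ σ = ± 1`
  have key : ρ (g * σ * g⁻¹) = 1 ∨ ρ (g * σ * g⁻¹) = -1 →
      Ideal.absNorm ((Q.under (𝓞 T.E)).under (𝓞 T.F)).asIdeal = p ∧
      ψ ((Q.under (𝓞 T.E)).under (𝓞 T.F)) =
        if ρ (g * σ * g⁻¹) = 1 then 0 else 4 := by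
    intro hz
    have hfix : ∀ x : T.M, (g * σ * g⁻¹) (T.i x) = T.i x := (T.fix_M _).mpr hz
    have hpow : ∀ (k : ℕ) (x : T.M), ((g * σ * g⁻¹) ^ k) (T.i x) = T.i x := by
      intro k
      induction k with
      | zero => intro x; rfl
      | succ k ih =>
        intro x
        rw [pow_succ, AlgEquiv.mul_apply, hfix, ih]
    have hQnorm : Ideal.absNorm Q.asIdeal = p := by
      obtain ⟨f, hf0, hf⟩ := exists_absNorm_eq_pow hp hpQ
      have h := (hQA'.frob_pow_comp_iff hp hG3 hA'p hσ' hf 1).mp (by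
        rw [pow_one]
        exact RingHom.ext hfix)
      rw [hf, Nat.dvd_one.mp h, pow_one]
    have hPover : Over (T.i.comp (algebraMap T.F T.M)) (g • A) (Q.under (𝓞 T.F)) := hQA'.under
    have hpP' : (p : 𝓞 T.F) ∈ (Q.under (𝓞 T.F)).asIdeal := by
      change algebraMap (𝓞 T.F) (𝓞 T.M) (p : 𝓞 T.F) ∈ Q.asIdeal
      rwa [map_natCast]
    have hPnorm : Ideal.absNorm (Q.under (𝓞 T.F)).asIdeal = p := by
      obtain ⟨f, hf0, hf⟩ := exists_absNorm_eq_pow hp hpP'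
      have h := (hPover.frob_pow_comp_iff hp hG1 hA'p hσ' hf 1).mp (by
        rw [pow_one]
        exact RingHom.ext fun x => hfix _)
      rw [hf, Nat.dvd_one.mp h, pow_one]
    rw [under_under]
    refine ⟨hPnorm, ?_⟩
    have hσne : conj T.σ Q ≠ Q := by
      intro h
      obtain ⟨k, hk⟩ := (hQA'.conj_eq_iff hp hG3 hA'p hσ' T.σ).mp h
      have h4 := hk T.β
      rw [hpow, T.σ_β] at h4
      exact T.β_ne_zero (self_eq_neg.mp (T.i.injective h4))
    have hτne : conj T.τ Q ≠ Q := by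
      intro h
      obtain ⟨k, hk⟩ := (hQA'.conj_eq_iff hp hG3 hA'p hσ' T.τ).mp h
      have h4 := hk (algebraMap T.E T.M T.α)
      rw [hpow, T.τ_α, T.c_α, map_neg] at h4
      exact (map_ne_zero (algebraMap T.E T.M)).mpr T.α_ne_zero (self_eq_neg.mp (T.i.injective h4))
    have hστne : conj ((T.σ.restrictScalars T.F) * T.τ) Q ≠ Q := by
      intro h
      obtain ⟨k, hk⟩ := (hQA'.conj_eq_iff hp hG3 hA'p hσ' _).mp h
      have h4 := hk (algebraMap T.E T.M T.α)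
      rw [hpow] at h4
      have h5 : ((T.σ.restrictScalars T.F) * T.τ) (algebraMap T.E T.M T.α) =
          - algebraMap T.E T.M T.α := by
        change T.σ (T.τ (algebraMap T.E T.M T.α)) = _
        rw [T.τ_α, AlgEquiv.commutes, T.c_α, map_neg]
      rw [h5] at h4
      exact (map_ne_zero (algebraMap T.E T.M)).mpr T.α_ne_zero (self_eq_neg.mp (T.i.injective h4))
    have hc : conj T.c (Q.under (𝓞 T.E)) ≠ Q.under (𝓞 T.E) := by
      intro h
      have := T.galois_EM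
      have h1 : (conj T.τ Q).under (𝓞 T.E) = Q.under (𝓞 T.E) := by rw [conj_under T.τ_α, h]
      have hσ1 : T.σ ≠ 1 := by
        intro h1
        have h2 := T.σ_β
        rw [h1, AlgEquiv.one_apply, self_eq_neg] at h2
        exact T.β_ne_zero h2
      rcases eq_or_eq_conj T.finrank_EM hσ1 h1 with h2 | h2
      · exact hτne h2
      · apply hστne
        rw [Fermat.Agent.CFT.Places.conj_mul, h2, conj_restrictScalars,
          conj_conj T.finrank_EM hσ1]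
    have hv := hval Q hPS hσne hc
    rw [hv]
    have hkum : kum T.d Q = 0 ↔ ρ (g * σ * g⁻¹) = 1 := by
      rw [Psi.kum_eq_zero_iff, ← T.fix_δ _ hz]
      refine (fix_iff_mem_locPow Nat.prime_two (TowerFields.isPrimitiveRoot_neg_one T.M) ?_ (hd Q hQS) T.δ_sq
        hQA' hfix ?_).symm
      · intro h2
        exact hp2 (prime_unique hp Nat.prime_two hpQ h2)
      · rw [hQnorm]
        exact hσ'
    by_cases h1 : ρ (g * σ * g⁻¹) = 1
    · rw [if_pos h1, hkum.mpr h1]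
      rfl
    · rw [if_neg h1, (Psi.kum_eq_one_iff _ _).mpr (fun h => h1 (hkum.mp
        ((Psi.kum_eq_zero_iff _ _).mpr h)))]
      rfl
  constructor
  · intro hz
    have h1 := hpm 1 (Or.inl rfl) hz
    obtain ⟨h2, h3⟩ := key (Or.inl h1)
    refine ⟨h2, ?_⟩
    beta_reduce
    rw [h3, if_pos h1, map_zero]
  · intro hz
    have h1 := hpm (-1) (Or.inr rfl) hz
    obtain ⟨h2, h3⟩ := key (Or.inr h1)
    refine ⟨h2, ?_⟩
    have h4 : (-1 : G3) ≠ 1 := Tower.one_ne_neg_one.symm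
    beta_reduce
    rw [h3, h1, if_neg h4]
    exact toAddCircle_four

end Fermat.Agent.Classic.Dih
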