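import Fermat.Agent.Classic.Dihedral.Main
import Fermat.Agent.Classic.Dihedral.Ana
import Fermat.Agent.Classic.Dihedral.Coef
import Fermat.Agent.Classic.Dihedral.Cusp
import Fermat.Agent.Classic.Dihedral.Neg
import Fermat.Agent.Classic.Dihedral.PsiD4
import Fermat.Agent.Classic.Dihedral.PsiSD
import Fermat.Agent.Classic.Dihedral.OctExists
import Fermat.Agent.Classic.Dihedral.Inv

/-!
# S47 without surjectivity, and residual modularity at 3 of every curve with irreducible `W[3]`

`ρ : G_ℚ → GL₂(𝔽₃)` continuous with cyclotomic determinant and without invariant line: the image is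
everything (S47), or conjugate to the semidihedral group of order 16 or to the dihedral group of
order 8 (theta series of an imaginary quadratic field).
-/

set_option autoImplicit false

open CongruenceSubgroup UpperHalfPlane WeierstrassCurve FLT.ExplicitLift
open scoped MatrixGroups ModularForm
local notation "Γℚ" => (AlgebraicClosure ℚ ≃ₐ[ℚ] AlgebraicClosure ℚ)

namespace Fermat.Agent.Classic

open Fermat.Agent.LT.End Fermat.Agent.Classic.Dih

theorem negStmt : NegStmt := fun _ hρ _ _ hgh => negInput hρ hgh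

theorem psiD4Stmt : PsiD4Stmt := fun _ hρ _ hG hc => psiInput_of_range_eq hρ hG hc

theorem psiSDStmt : PsiSDStmt := fun ρ hρ hdet hG =>
  (exists_octFields hρ hG (det_cc ρ hdet)).elim psiInput_of_octFields

/-- **S47 without surjectivity**: for every continuous `ρ : G_ℚ → GL₂(𝔽₃)` with cyclotomic
determinant and without invariant line, and every lift `Ψ` of `GL₂(𝔽₃)` to `GL₂(ℤ[√-2])`, the
eigensystem `ℓ ↦ tr Ψ (ρ (Frob ℓ))` of `ℚ` is realized in weight one, with character `χ₋₃`. -/
theorem concl47_of_irreducible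
    (ρ : Γℚ →* GL (Fin 2) (ZMod 3)) (hρ : Continuous ρ)
    (hdet : ∀ σ : Γℚ, Matrix.GeneralLinearGroup.det (ρ σ) = modThreeCyclotomicChar σ)
    (hirr : NoInvLine ρ.range)
    (Ψ : GL (Fin 2) (ZMod 3) →* GL (Fin 2) (ℤ√(-2)))
    (hΨ : ∀ g, Matrix.GeneralLinearGroup.map red (Ψ g) = g) : Concl47 ρ Ψ :=
  concl47_of_pieces invStmt coefStmt anaStmt cuspStmt negStmt psiD4Stmt psiSDStmt
    ρ hρ hdet hirr Ψ hΨ

/-- **T3**: every `W` with irreducible mod 3 representation is residually modular at 3. -/
theorem isResiduallyModular_of_irreducible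
    {W : WeierstrassCurve ℤ} (hΔ : W.Δ ≠ 0) (h3 : W.ModRepIsIrreducible 3) :
    W.IsResiduallyModular 3 :=
  isResiduallyModular_of_pieces invStmt coefStmt anaStmt cuspStmt negStmt psiD4Stmt psiSDStmt
    hΔ h3

end Fermat.Agent.Classic
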