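import Fermat.Agent.Classic.Dihedral.Coef
import Fermat.Agent.LT.Theta11.SNorm
import Fermat.Agent.LT.B11.Norms

/-!
# CL11, DI1: ideals prime to `N` and elements of `𝓞[1/N]`

`eI_dId`: the value of the character of ideals at the ideal `dId N x` of an element `x` of
`𝓞[1/N]`; `exists_dId_eq`: every ideal of norm prime to `N` is of this form, if the class group
outside `N` is trivial.
-/

set_option autoImplicit false

namespace Fermat.Agent.Classic.Dih

open IsDedekindDomain NumberField
open Fermat.Agent.LT (rayVal)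
open Fermat.Agent.LT.SAd (dId RS mulFun_dId dId_eq_prod mem_RS_iff natCast_notMem_of_coprime)
open Fermat.Agent.LT.B11 (pl mem_pl)
open Fermat.Agent.CFT.SUnits

variable {E : Type} [Field E] [NumberField E] {N : ℕ} [NeZero N]

/-- `eC` as a homomorphism -/
noncomputable def eCHom : Multiplicative UnitAddCircle →* ℂ where
  toFun x := eC x.toAdd
  map_one' := by rw [toAdd_one, eC_zero]
  map_mul' x y := by rw [toAdd_mul, eC_add]

theorem eI_dId (ψ : HeightOneSpectrum (𝓞 E) → UnitAddCircle) {x : Eˣ} (hx : (x : E) ∈ RS E N) :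
    eI ψ (dId N (x : E)) = eC (rayVal (pl E N) ψ x).toAdd :=
  mulFun_dId (N := N) (eI ψ) (by rw [Ideal.one_eq_top, eI_top])
    (fun I J hI hJ _ => eI_mul ψ hI hJ) eCHom ψ (fun v _ => eI_asIdeal ψ v) (pl E N)
    (fun _ => mem_pl) hx

theorem exists_dId_eq (hCl : Fermat.Agent.CFT.Global.ClTrivial (pl E N)) {I : Ideal (𝓞 E)} {n : ℕ}
    (hn : n ≠ 0) (hc : n.Coprime N) (hI : Ideal.absNorm I = n) :
    ∃ x : Eˣ, (x : E) ∈ RS E N ∧ dId N (x : E) = I := by
  classical
  have hI0 : I ≠ 0 := by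
    rintro rfl
    exact hn (hI.symm.trans Ideal.absNorm_bot)
  have hT : ∀ v : HeightOneSpectrum (𝓞 E), cnt v I ≠ 0 → (N : 𝓞 E) ∉ v.asIdeal := by
    intro v hv hN
    have h1 : I ≤ v.asIdeal :=
      Ideal.dvd_iff_le.mp ((Associates.count_ne_zero_iff_dvd hI0 v.irreducible).mp hv)
    have h2 : (n : 𝓞 E) ∈ v.asIdeal := by
      rw [← hI]
      exact h1 (Ideal.absNorm_mem I)
    exact natCast_notMem_of_coprime hc hN h2
  obtain ⟨x, hx⟩ := hCl (Finsupp.ofSupportFinite (fun v => ((cnt v I : ℕ) : ℤ))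
    ((finite_cnt hI0).subset fun v hv h => hv (by
      show ((cnt v I : ℕ) : ℤ) = 0
      rw [h, Nat.cast_zero])))
  have hx' : ∀ v : HeightOneSpectrum (𝓞 E), (N : 𝓞 E) ∉ v.asIdeal → ord v x = (cnt v I : ℕ) :=
    fun v hv => hx v (fun h => hv (mem_pl.mp h))
  have hR : (x : E) ∈ RS E N := by
    rw [mem_RS_iff]
    intro v hv
    rw [← ord_nonneg_iff, hx' v hv]
    exact Int.natCast_nonneg _
  refine ⟨x, hR, ?_⟩
  rw [dId_eq_prod hR (finite_cnt hI0).toFinset]
  · refine Eq.trans ?_ (Ideal.finprod_heightOneSpectrum_factorization hI0)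
    rw [finprod_eq_prod_of_mulSupport_subset (s := (finite_cnt hI0).toFinset)]
    · refine Finset.prod_congr rfl fun v hv => ?_
      rw [Set.Finite.mem_toFinset] at hv
      rw [hx' v (hT v hv), Int.toNat_natCast]
      rfl
    · intro v hv
      rw [Set.Finite.coe_toFinset]
      intro h
      apply hv
      show v.asIdeal ^ cnt v I = 1
      rw [show cnt v I = 0 from h, pow_zero]
  · intro v hv
    rw [Set.Finite.mem_toFinset] at hv
    exact hT v hv
  · intro v hv h
    rw [Set.Finite.mem_toFinset]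
    intro h0
    apply h
    rw [hx' v hv]
    exact_mod_cast h0

end Fermat.Agent.Classic.Dih
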