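import Fermat.Agent.LT.B11.Inst
import Fermat.Agent.LT.NormPull
import Fermat.Agent.LT.Theta11.SNorm

/-!
# The ideals `dId N x`: equality, norm

* `div_mem_of_dId_eq`: `dId N x = dId N y` implies that `x / y` is a unit outside `N`;
* `absNorm_dId_iff`: over `ℚ`, the ideal `dId N x` has norm `n` (prime to `N`) exactly when
  `N_{E/ℚ} x / n` is a unit outside `N`.
-/

set_option autoImplicit false
set_option linter.unusedSectionVars false

noncomputable section

namespace Fermat.Agent.Classic.Dih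

open IsDedekindDomain NumberField WithZero
open Fermat.Agent.CFT.SUnits (ord ord_one ord_mul ord_inv ord_pow ord_div ord_eq_zero_iff)
open Fermat.Agent.CFT.Global (mem_E above mem_above normU)
open Fermat.Agent.LT (rayVal)
open Fermat.Agent.LT.SAd
open Fermat.Agent.LT.B11 (pl mem_pl mem_RU mem_RU_iff RU above_pl)
open Fermat.Agent.LT.NV (pull fdeg toAdd_rayVal_pull)

section Any

variable {E : Type} [Field E] [NumberField E] {N : ℕ} [NeZero N]

theorem inv_mul_mem_RS_of_dId_eq {x y : Eˣ} (hy : (y : E) ∈ RS E N)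
    (h : dId N (x : E) = dId N (y : E)) : (x : E)⁻¹ * (y : E) ∈ RS E N := by
  obtain ⟨j, hj⟩ := hy
  obtain ⟨t, ht⟩ : ∃ t : 𝓞 E, algebraMap (𝓞 E) E t = (N : E) ^ j * (y : E) := ⟨⟨_, hj⟩, rfl⟩
  have h1 : t ∈ dId N (y : E) := by
    rw [mem_dId, ht]
    have e : (y : E)⁻¹ * ((N : E) ^ j * (y : E)) = (N : E) ^ j := by
      have := y.ne_zero
      field_simp
    rw [e]
    exact (RS E N).pow_mem (natCast_mem _ N) j
  rw [← h, mem_dId, ht] at h1
  refine RS_inv_pow_mul j ?_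
  rw [mul_left_comm]
  exact h1

/-- `dId N x = dId N y` implies that `x / y` is a unit outside `N`. -/
theorem div_mem_of_dId_eq {x y : Eˣ} (hx : (x : E) ∈ RS E N) (hy : (y : E) ∈ RS E N)
    (h : dId N (x : E) = dId N (y : E)) : x / y ∈ CFT.Global.E (LT.B11.pl E N) := by
  rw [← mem_RU_iff, mem_RU]
  constructor
  · rw [Units.val_div_eq_div_val, div_eq_mul_inv, mul_comm]
    exact inv_mul_mem_RS_of_dId_eq hx h.symm
  · rw [inv_div, Units.val_div_eq_div_val, div_eq_mul_inv, mul_comm]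
    exact inv_mul_mem_RS_of_dId_eq hy h

theorem dId_le_of_div_mem {x y : Eˣ} (h : x / y ∈ CFT.Global.E (LT.B11.pl E N)) :
    dId N (x : E) ≤ dId N (y : E) := by
  rw [← mem_RU_iff, mem_RU] at h
  intro t ht
  rw [mem_dId] at ht ⊢
  have e : (y : E)⁻¹ * algebraMap (𝓞 E) E t =
      ((x / y : Eˣ) : E) * ((x : E)⁻¹ * algebraMap (𝓞 E) E t) := by
    rw [Units.val_div_eq_div_val]
    have h1 := x.ne_zero
    have h2 := y.ne_zero
    field_simp
  rw [e]
  exact (RS E N).mul_mem h.1 ht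

/-- units outside `N` do not change `dId N`. -/
theorem dId_eq_of_div_mem {x y : Eˣ} (h : x / y ∈ CFT.Global.E (LT.B11.pl E N)) :
    dId N (x : E) = dId N (y : E) := by
  refine le_antisymm (dId_le_of_div_mem h) (dId_le_of_div_mem ?_)
  rw [← inv_div]
  exact (CFT.Global.E (LT.B11.pl E N)).inv_mem h

end Any

section Rat

variable {N : ℕ} [NeZero N]

theorem dId_natCast_span {E : Type} [Field E] [NumberField E] {n : ℕ} (hn : n ≠ 0)
    (hc : n.Coprime N) : dId N (n : E) = Ideal.span {(n : 𝓞 E)} := by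
  have hn' : (n : E) ≠ 0 := Nat.cast_ne_zero.2 hn
  ext t
  rw [mem_dId, Ideal.mem_span_singleton']
  constructor
  · intro h
    have h1 : (n : E)⁻¹ * algebraMap (𝓞 E) E t ∈ AS E N :=
      (AS E N).mul_mem (natCast_inv_mem_AS hn hc) (mem_AS_of_isIntegral (co_int t))
    obtain ⟨s, hs⟩ : ∃ s : 𝓞 E, algebraMap (𝓞 E) E s = (n : E)⁻¹ * algebraMap (𝓞 E) E t :=
      ⟨⟨_, isIntegral_of_mem h h1⟩, rfl⟩
    refine ⟨s, ?_⟩
    apply RingOfIntegers.ext
    change algebraMap (𝓞 E) E (s * (n : 𝓞 E)) = algebraMap (𝓞 E) E t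
    rw [map_mul, map_natCast, hs]
    field_simp
  · rintro ⟨s, rfl⟩
    rw [map_mul, map_natCast]
    have e : (n : E)⁻¹ * (algebraMap (𝓞 E) E s * (n : E)) = algebraMap (𝓞 E) E s := by
      field_simp
    rw [e]
    exact mem_RS_of_isIntegral (co_int s)

theorem absNorm_span_natCast_rat (n : ℕ) : Ideal.absNorm (Ideal.span {(n : 𝓞 ℚ)}) = n := by
  rw [Ideal.absNorm_span_singleton]
  have h : Algebra.norm ℤ (n : 𝓞 ℚ) = (n : ℤ) ^ Module.finrank ℤ (𝓞 ℚ) := by
    have := Algebra.norm_algebraMap_of_basis (RingOfIntegers.basis ℚ) (n : ℤ)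
    rw [map_natCast] at this
    rw [this, Module.finrank_eq_card_basis (RingOfIntegers.basis ℚ)]
  rw [h, RingOfIntegers.rank, Module.finrank_self, pow_one, Int.natAbs_natCast]

/-- an ideal of `𝓞 ℚ` is determined by its norm. -/
theorem eq_span_absNorm_rat (I : Ideal (𝓞 ℚ)) (h0 : Ideal.absNorm I ≠ 0) :
    I = Ideal.span {((Ideal.absNorm I : ℕ) : 𝓞 ℚ)} := by
  have h1 : I ∣ Ideal.span {((Ideal.absNorm I : ℕ) : 𝓞 ℚ)} := by
    rw [Ideal.dvd_iff_le, Ideal.span_singleton_le_iff_mem]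
    exact Ideal.absNorm_mem I
  obtain ⟨J, hJ⟩ := h1
  have h2 : Ideal.absNorm I = Ideal.absNorm I * Ideal.absNorm J := by
    conv_lhs => rw [← absNorm_span_natCast_rat (Ideal.absNorm I), hJ, map_mul]
  have h3 : Ideal.absNorm J = 1 := by
    have : Ideal.absNorm I * 1 = Ideal.absNorm I * Ideal.absNorm J := by rw [mul_one]; exact h2
    exact (Nat.eq_of_mul_eq_mul_left (Nat.pos_of_ne_zero h0) this).symm
  rw [Ideal.absNorm_eq_one_iff] at h3
  rw [hJ, h3, Ideal.mul_top]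

variable {E : Type} [Field E] [NumberField E]

theorem norm_mem_RS_rat {x : Eˣ} (hx : (x : E) ∈ RS E N) :
    ((normU (K := ℚ) E x : ℚˣ) : ℚ) ∈ RS ℚ N := by
  obtain ⟨j, hj⟩ := hx
  have h1 : IsIntegral ℤ (Algebra.norm ℚ ((N : E) ^ j * (x : E))) := Algebra.isIntegral_norm ℚ hj
  refine ⟨j * Module.finrank ℚ E, ?_⟩
  have e : Algebra.norm ℚ ((N : E) ^ j * (x : E)) =
      (N : ℚ) ^ (j * Module.finrank ℚ E) * ((normU (K := ℚ) E x : ℚˣ) : ℚ) := by
    have h2 : (N : E) ^ j = algebraMap ℚ E ((N : ℚ) ^ j) := by rw [map_pow, map_natCast]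
    rw [map_mul, h2, Algebra.norm_algebraMap, ← pow_mul]
    rfl
  rwa [e] at h1

theorem log_absNorm_eq_pull (w : HeightOneSpectrum (𝓞 E)) :
    Real.log (Ideal.absNorm w.asIdeal) =
      pull E (fun v : HeightOneSpectrum (𝓞 ℚ) => Real.log (Ideal.absNorm v.asIdeal)) w := by
  have h1 := Ideal.absNorm_eq_pow_inertiaDeg'_of_liesOver (P := w.asIdeal)
    (p := (w.under (𝓞 ℚ)).asIdeal) (w.under (𝓞 ℚ)).isPrime (w.under (𝓞 ℚ)).ne_bot
  rw [h1, pull, Nat.cast_pow, Real.log_pow, nsmul_eq_mul]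
  rfl

/-- the norm of `dId N x` is the norm of `dId N (N_{E/ℚ} x)`. -/
theorem absNorm_dId_eq_norm [IsGalois ℚ E] {x : Eˣ} (hx : (x : E) ∈ RS E N) :
    Ideal.absNorm (dId N (x : E)) =
      Ideal.absNorm (dId N ((normU (K := ℚ) E x : ℚˣ) : ℚ)) := by
  have h1 := absNorm_dId (pl E N) (fun v => mem_pl) hx
  have h2 := absNorm_dId (pl ℚ N) (fun v => mem_pl) (norm_mem_RS_rat hx)
  have h3 : (rayVal (pl E N) (fun v => Real.log (Ideal.absNorm v.asIdeal)) x).toAdd =
      (rayVal (pl ℚ N) (fun v => Real.log (Ideal.absNorm v.asIdeal))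
        (normU (K := ℚ) E x)).toAdd := by
    rw [← toAdd_rayVal_pull, above_pl]
    congr 3
    funext w
    exact log_absNorm_eq_pull w
  rw [h3, ← h2] at h1
  exact_mod_cast h1

/-- the ideal `dId N x` has norm `n` exactly when `N_{E/ℚ} x / n` is a unit outside `N`. -/
theorem absNorm_dId_iff [IsGalois ℚ E] {x : Eˣ} (hx : (x : E) ∈ RS E N) {n : ℕ} (hn : n ≠ 0)
    (hc : n.Coprime N) {ξ : ℚˣ} (hξ : (ξ : ℚ) = n) : Ideal.absNorm (dId N (x : E)) = n ↔
      CFT.Global.normU (K := ℚ) E x / ξ ∈ CFT.Global.E (LT.B11.pl ℚ N) := by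
  have hI : dId N (ξ : ℚ) = Ideal.span {(n : 𝓞 ℚ)} := by rw [hξ, dId_natCast_span hn hc]
  have hξ' : (ξ : ℚ) ∈ RS ℚ N := by
    rw [hξ]
    exact natCast_mem _ n
  rw [absNorm_dId_eq_norm hx]
  constructor
  · intro h
    refine div_mem_of_dId_eq (norm_mem_RS_rat hx) hξ' ?_
    rw [hI, eq_span_absNorm_rat (dId N ((normU (K := ℚ) E x : ℚˣ) : ℚ)) (by rw [h]; exact hn), h]
  · intro h
    rw [dId_eq_of_div_mem h, hI, absNorm_span_natCast_rat]

end Rat

end Fermat.Agent.Classic.Dih
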