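import Fermat.Agent.Classic.Dihedral.LawI
import Fermat.Agent.Classic.Dihedral.IdA
import Fermat.Agent.Classic.Dihedral.IdB

/-!
# The coefficients of the family and the expansion (CL11, DI1)
-/

set_option autoImplicit false
set_option linter.unusedSectionVars false

noncomputable section

open IsDedekindDomain NumberField WithZero

namespace Fermat.Agent.Classic.Dih

open Fermat.Agent.CFT.SUnits (ord ord_one ord_mul ord_inv ord_pow ord_div ord_eq_zero_iff
  valuation_eq_exp_neg_ord finite_ord_ne_zero div div_apply)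
open Fermat.Agent.CFT.Places
open Fermat.Agent.CFT.Global (mem_E above mem_above normU ClTrivial cong mem_cong)
open Fermat.Agent.LT Fermat.Agent.LT.B11 Fermat.Agent.LT.SAd
open Fermat.Agent.LT.Psi (galU coe_up coe_galU up_normU)

section Lam

variable {E : Type} [Field E] [NumberField E] [IsGalois ℚ E]
  (h2 : Module.finrank ℚ E = 2) {c : E ≃ₐ[ℚ] E} (hc : c ≠ 1) {N : ℕ} [NeZero N] {n : ℕ}
  {ψ : HeightOneSpectrum (𝓞 E) → UnitAddCircle} (hψ : IsRay (pl E N) n ψ) {k : ℕ} (hk : n + 1 ≤ k)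

/-- **The coefficients.** -/
theorem datI_lam (hCl : ClTrivial (pl E N)) {j : ℕ} (hj : j ≠ 0) (hjc : j.Coprime N) {ξ : ℚˣ}
    (hξ : (ξ : ℚ) = j) : (datI h2 hc hψ hk).lam ξ = lam N ψ j := by
  classical
  set D := datI h2 hc hψ hk with hD
  have hOp := datI_Op h2 hc hψ hk
  have hEA : D.EA = CFT.Global.E (above E (pl ℚ N)) := rfl
  have hEB : D.EB = CFT.Global.E (pl ℚ N) := rfl
  have hq : D.q = normU E := rfl
  have hgood : ∀ p : Coef.Fib D ξ, Ideal.absNorm (dId N ((p.1.2.out : Eˣ) : E)) = j := fun p =>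
    (absNorm_dId_iff (x := p.1.2.out) p.2.2 hj hjc hξ).mpr (Coef.good_out D hq hOp hEB p).2
  let Φ : Coef.Fib D ξ → {I : Ideal (𝓞 E) // I ∈ idn E j} := fun p =>
    ⟨dId N ((p.1.2.out : Eˣ) : E), mem_idn.mpr (hgood p)⟩
  have hΦ : Function.Bijective Φ := by
    constructor
    · intro p p' h
      have h1 : dId N ((p.1.2.out : Eˣ) : E) = dId N ((p'.1.2.out : Eˣ) : E) :=
        congrArg Subtype.val h
      obtain ⟨p₀, -, huniq⟩ := Coef.existsUnique_fib D hq hOp hEA hEB (Coef.good_out D hq hOp hEB p)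
      have h3 := huniq p (by
        beta_reduce
        rw [div_self']
        exact one_mem _)
      have h4 := huniq p' (by
        beta_reduce
        rw [above_pl]
        exact div_mem_of_dId_eq p.2.2 p'.2.2 h1)
      rw [h3, h4]
    · rintro ⟨I, hI⟩
      obtain ⟨x, hx, hxI⟩ := exists_dId_eq hCl hj hjc (mem_idn.mp hI)
      have hxg : Coef.Good (pl ℚ N) ξ x :=
        ⟨(hOp x).mp hx, (absNorm_dId_iff hx hj hjc hξ).mp (by rw [hxI]; exact mem_idn.mp hI)⟩
      obtain ⟨p, hp, -⟩ := Coef.existsUnique_fib D hq hOp hEA hEB hxg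
      refine ⟨p, Subtype.ext ?_⟩
      change dId N ((p.1.2.out : Eˣ) : E) = I
      rw [above_pl] at hp
      rw [← hxI, dId_eq_of_div_mem hp]
  have e1 : D.lam ξ = ∑' p : Coef.Fib D ξ, D.ψ p.1.2.out := by
    unfold Dat.lam
    refine (tsum_subtype {p : D.Idx | D.xi p = ξ} D.cf).trans (Eq.symm ?_)
    refine (tsum_subtype {p : D.Idx | D.xi p = ξ ∧ p.2.out ∈ D.Op}
      (fun p : D.Idx => D.ψ p.2.out)).trans ?_
    refine tsum_congr fun p => ?_
    by_cases h3 : D.xi p = ξ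
    · have e1 : ({p : D.Idx | D.xi p = ξ}.indicator D.cf) p = D.cf p :=
        Set.indicator_of_mem (s := {p : D.Idx | D.xi p = ξ}) h3 _
      rw [e1]
      by_cases h4 : p.2.out ∈ D.Op
      · have e2 := Set.indicator_of_mem (s := {p : D.Idx | D.xi p = ξ ∧ p.2.out ∈ D.Op}) ⟨h3, h4⟩
          (fun p : D.Idx => D.ψ p.2.out)
        rw [e2, Dat.cf, if_pos h4]
      · have e2 := Set.indicator_of_notMem (s := {p : D.Idx | D.xi p = ξ ∧ p.2.out ∈ D.Op})
          (a := p) (fun h => h4 h.2) (fun p : D.Idx => D.ψ p.2.out)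
        rw [e2, Dat.cf, if_neg h4]
    · have e1 : ({p : D.Idx | D.xi p = ξ}.indicator D.cf) p = 0 :=
        Set.indicator_of_notMem (s := {p : D.Idx | D.xi p = ξ}) h3 _
      have e2 := Set.indicator_of_notMem (s := {p : D.Idx | D.xi p = ξ ∧ p.2.out ∈ D.Op})
        (a := p) (fun h => h3 h.1) (fun p : D.Idx => D.ψ p.2.out)
      rw [e1, e2]
  rw [e1, lam_eq_sum ψ hjc, ← Finset.tsum_subtype, ← (Equiv.ofBijective Φ hΦ).tsum_eq]
  refine tsum_congr fun p => ?_
  change eC (rayVal (above E (pl ℚ N)) ψ p.1.2.out).toAdd = eI ψ (dId N ((p.1.2.out : Eˣ) : E))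
  rw [eI_dId ψ p.2.2, above_pl]

end Lam

section Exp

variable {E : Type} [Field E] [NumberField E] [IsGalois ℚ E]
  (h2 : Module.finrank ℚ E = 2) {c : E ≃ₐ[ℚ] E} (hc : c ≠ 1) {N : ℕ} [NeZero N] {n : ℕ}
  {ψ : HeightOneSpectrum (𝓞 E) → UnitAddCircle} (hψ : IsRay (pl E N) n ψ) {k : ℕ} (hk : n + 1 ≤ k)

theorem natCast_mem_VN {j : ℕ} (hj : j ≠ 0) {ξ : ℚˣ} (hξ : (ξ : ℚ) = j) :
    ξ ∈ VN ℚ N 0 ↔ j.Coprime N := by
  constructor
  · intro h
    obtain ⟨i, hi0, hic, hi⟩ := h.2.2.2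
    obtain ⟨m, hm⟩ := isIntegral_rat hi
    have hj' : (j : ℚ) ≠ 0 := by exact_mod_cast hj
    have h1 : (i : ℤ) = m * j := by
      have h3 : (i : ℚ) = m * j := by
        rw [hm, Units.val_inv_eq_inv_val, hξ]
        field_simp
      exact_mod_cast h3
    have h4 : j ∣ i := by
      have : (j : ℤ) ∣ (i : ℤ) := ⟨m, by rw [h1]; ring⟩
      exact_mod_cast this
    exact Nat.Coprime.coprime_dvd_left h4 hic
  · intro h
    refine ⟨?_, ?_, ?_, ?_⟩
    · rw [pow_zero, inv_one, one_mul, hξ]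
      exact (AS ℚ N).sub_mem (natCast_mem _ _) (AS ℚ N).one_mem
    · rw [pow_zero, inv_one, one_mul, Units.val_inv_eq_inv_val, hξ]
      exact (AS ℚ N).sub_mem (natCast_inv_mem_AS hj h) (AS ℚ N).one_mem
    · rw [hξ]
      exact natCast_mem _ _
    · rw [Units.val_inv_eq_inv_val, hξ]
      exact natCast_inv_mem_AS hj h

/-- **The expansion.** -/
theorem FF_eq_qser (hN2 : 2 ≤ N) (hCl : ClTrivial (pl E N))
    (he : ∀ w : HeightOneSpectrum (𝓞 E), w ∉ above E (pl ℚ N) →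
      (w.under (𝓞 ℚ)).asIdeal.ramificationIdx' w.asIdeal = 1) (P : Pt) (τ : UpperHalfPlane)
    (hτ : P.τ = (τ : ℂ)) :
    (datI h2 hc hψ hk).FF 1 P = P.u⁻¹ * qser (lam N ψ) τ := by
  classical
  set D := datI h2 hc hψ hk with hD
  have hS := summable_tmI h2 hc hψ hk (by rw [above_pl]; exact hCl) he
  rw [D.FF_eq (hS 1 P)]
  have hs : D.s 1 = 1 := rfl
  rw [hs, Complex.ofReal_one, one_mul]
  set f : ℚˣ → ℂ := fun ξ => if ξ * 1 ∈ D.VB then D.lam ξ * D.W P ξ else 0 with hf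
  let g : {j : ℕ // j ≠ 0} → ℚˣ := fun j => Units.mk0 ((j : ℕ) : ℚ) (by exact_mod_cast j.2)
  have hg : Function.Injective g := by
    intro i j h
    have h1 : (((i : ℕ) : ℚ)) = ((j : ℕ) : ℚ) := congrArg Units.val h
    exact Subtype.ext (by exact_mod_cast h1)
  have hsupp : Function.support f ⊆ Set.range g := by
    intro ξ hξ
    rw [Function.mem_support, hf] at hξ
    beta_reduce at hξ
    split_ifs at hξ with hV
    swap
    · exact absurd rfl hξ
    rw [mul_one] at hV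
    have h1 : D.lam ξ ≠ 0 := left_ne_zero_of_mul hξ
    have h3 : D.W P ξ ≠ 0 := right_ne_zero_of_mul hξ
    have hpos : 0 < (ξ : ℚ) := by
      by_contra h
      apply h3
      change Wq P (ξ : ℚ) = 0
      unfold Wq
      rw [if_neg]
      rw [not_lt] at h ⊢
      rw [hτ]
      have h4 : ((ξ : ℚ) : ℝ) ≤ 0 := by exact_mod_cast h
      exact mul_nonpos_of_nonpos_of_nonneg h4 τ.im_pos.le
    obtain ⟨p, hp⟩ : ∃ p : {p : D.Idx // D.xi p = ξ}, D.cf p.1 ≠ 0 := by
      by_contra h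
      push Not at h
      apply h1
      unfold Dat.lam
      rw [tsum_congr h, tsum_zero]
    have hO : p.1.2.out ∈ D.Op := by
      by_contra h
      exact hp (if_neg h)
    have h4 : ((D.xi p.1 : ℚˣ) : ℚ) ∈ RS ℚ N := xi_mem_RS h2 hc hψ hk hO
    rw [p.2] at h4
    have h5 : IsIntegral ℤ (ξ : ℚ) := isIntegral_of_mem h4 (show ξ ∈ VN ℚ N 0 from hV).2.2.1
    obtain ⟨m, hm⟩ := isIntegral_rat h5
    have hm0 : 0 < m := by
      rw [← hm] at hpos
      exact_mod_cast hpos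
    refine ⟨⟨m.toNat, by omega⟩, Units.ext ?_⟩
    change ((m.toNat : ℕ) : ℚ) = ξ
    rw [← hm]
    have h6 : ((m.toNat : ℕ) : ℤ) = m := Int.toNat_of_nonneg hm0.le
    exact_mod_cast congrArg (fun z : ℤ => (z : ℚ)) h6
  have hP : 0 < P.τ.im := by rw [hτ]; exact τ.im_pos
  rw [← hg.tsum_eq hsupp]
  unfold qser
  have h0 : Function.support (fun j : ℕ => lam N ψ j *
      Complex.exp (2 * Real.pi * Complex.I * j * (τ : ℂ))) ⊆
      Set.range (Subtype.val : {j : ℕ // j ≠ 0} → ℕ) := by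
    intro j hj
    rw [Function.mem_support] at hj
    refine ⟨⟨j, ?_⟩, rfl⟩
    rintro rfl
    apply hj
    have : lam N ψ 0 = 0 := by
      unfold lam
      rw [if_neg]
      intro h
      rw [Nat.coprime_zero_left] at h
      omega
    rw [this, zero_mul]
  rw [← Subtype.val_injective.tsum_eq h0, ← tsum_mul_left]
  refine tsum_congr fun j => ?_
  rw [hf]
  beta_reduce
  rw [mul_one]
  have hgj : ((g j : ℚˣ) : ℚ) = ((j : ℕ) : ℚ) := rfl
  have hV : g j ∈ D.VB ↔ (j : ℕ).Coprime N := natCast_mem_VN j.2 hgj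
  by_cases hj : (j : ℕ).Coprime N
  · rw [if_pos (hV.mpr hj), datI_lam h2 hc hψ hk hCl j.2 hj hgj]
    have hW : D.W P (g j) = P.u⁻¹ * Complex.exp (2 * Real.pi * Complex.I * (j : ℕ) * (τ : ℂ)) := by
      change Wq P ((g j : ℚˣ) : ℚ) = _
      rw [hgj]
      have hj0 : (0 : ℝ) < (((j : ℕ) : ℚ) : ℝ) := by
        exact_mod_cast Nat.pos_of_ne_zero j.2
      unfold Wq
      rw [if_pos (mul_pos hj0 hP), hτ]
      congr 2
      push_cast
      ring
    rw [hW]
    ring
  · rw [if_neg (fun h => hj (hV.mp h))]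
    have : lam N ψ (j : ℕ) = 0 := by
      unfold lam
      rw [if_neg hj]
    rw [this, zero_mul, mul_zero]

end Exp

end Fermat.Agent.Classic.Dih
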