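import Fermat.Agent.LT.ThetaInv
import Fermat.Agent.LT.Theta11.SLaw
import Fermat.Agent.LT.Theta11.SDiff
import Fermat.Agent.Classic.Dihedral.Defs

/-!
# The theta kernel of weight one of an imaginary quadratic field

`Pt`: points `(τ, u)`, `Im τ ≠ 0`, with an automorphy variable `u`; `SL₂(ℚ)` acts by
`γ (τ, u) = (γ τ, (c τ + d) u)` (`Pt.mv`). The kernel is `Kq (τ, u) t = u⁻¹ exp (2 π i τ t)` for
`Im τ > 0`, and `0` for `Im τ < 0`, at `t = N(x)`.

* `kerQ`: the instance of the abstract kernel of `LT.Th.Law` for `E / ℚ`;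
* `kerQ_act`, `kerQ_poisson`;
* `summable_T`: convergence of `∑_{x ∈ T N h k} Kq P (N x)`;
* `law_Q`, `law_split`: the transformation law of this sum; the constant is `1` for `d = p` split.
-/

set_option autoImplicit false

noncomputable section

open Complex Module NumberField Matrix IsDedekindDomain
open scoped Real ComplexConjugate

namespace Fermat.Agent.Classic.Dih

open Fermat.Agent.LT Fermat.Agent.LT.Th Fermat.Agent.LT.Poisson

/-! ### Gaussians on `ℂ` -/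

theorem sqrt_two_inv_isUnit : IsUnit ((√2 : ℝ)⁻¹) := IsUnit.mk0 _ (by positivity)

/-- the basis `1/√2, i/√2` of `ℂ` -/
def bs : Basis (Fin 2) ℝ ℂ :=
  Complex.basisOneI.isUnitSMul (w := fun _ => (√2 : ℝ)⁻¹) fun _ => sqrt_two_inv_isUnit

theorem repr_bs (v : ℂ) (i : Fin 2) : bs.repr v i = √2 * Complex.basisOneI.repr v i := by
  rw [bs, Basis.repr_isUnitSMul]
  have h : ((sqrt_two_inv_isUnit.unit⁻¹ : ℝˣ) : ℝ) = √2 := by
    rw [Units.val_inv_eq_inv_val, IsUnit.unit_spec, inv_inv]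
  rw [Units.smul_def, h, smul_eq_mul]

theorem repr_bs_zero (v : ℂ) : bs.repr v 0 = √2 * v.re := by
  rw [repr_bs, Complex.coe_basisOneI_repr]
  rfl

theorem repr_bs_one (v : ℂ) : bs.repr v 1 = √2 * v.im := by
  rw [repr_bs, Complex.coe_basisOneI_repr]
  rfl

/-- the form `2 Re (v w̄)` on `ℂ` -/
def hB : LinearMap.BilinForm ℝ ℂ :=
  LinearMap.mk₂ ℝ (fun v w => 2 * (v * conj w).re)
    (fun v v' w => by rw [add_mul, add_re]; ring)
    (fun c v w => by rw [real_smul, mul_assoc, re_ofReal_mul, smul_eq_mul]; ring)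
    (fun v w w' => by rw [map_add, mul_add, add_re]; ring)
    (fun c v w => by
      rw [real_smul, map_mul, conj_ofReal, mul_left_comm, re_ofReal_mul, smul_eq_mul]; ring)

theorem hB_apply (v w : ℂ) : hB v w = 2 * (v * conj w).re := rfl

theorem hB_eq (w v : ℂ) : hB w v = ∑ i, (1 : ℝ) * bs.repr w i * bs.repr v i := by
  have h : (√2 : ℝ) ^ 2 = 2 := Real.sq_sqrt (by norm_num)
  rw [Fin.sum_univ_two, repr_bs_zero, repr_bs_zero, repr_bs_one, repr_bs_one, hB_apply,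
    mul_re, conj_re, conj_im]
  linear_combination (-(w.re * v.re + w.im * v.im)) * h

/-- `exp (2 π i z |v|²)` -/
def gs (z v : ℂ) : ℂ := cexp (2 * π * I * z * (normSq v : ℝ))

theorem gs_eq (z v : ℂ) : gs z v = gau bs (fun _ => -I * z) v := by
  have h : ((√2 : ℝ) : ℂ) ^ 2 = 2 := by
    rw [← ofReal_pow, Real.sq_sqrt (by norm_num)]
    norm_num
  rw [gs, gau, Fin.sum_univ_two, repr_bs_zero, repr_bs_one, normSq_apply]
  congr 1
  push_cast
  linear_combination (-(π * I * z * (v.re ^ 2 + v.im ^ 2))) * h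

theorem gs_inv_eq {z : ℂ} (v : ℂ) : gs (-z⁻¹) v = gau bs (fun _ => (-I * z)⁻¹) v := by
  rw [gs_eq]
  congr 1
  funext _
  rw [mul_inv, inv_neg, inv_I]
  ring

theorem re_neg_I_mul (z : ℂ) : (-I * z).re = z.im := by simp

theorem im_neg_inv (z : ℂ) : (-z⁻¹).im = z.im / normSq z := by
  rw [neg_im, inv_im]
  ring

theorem im_neg_inv_pos {z : ℂ} (hz : 0 < z.im) : 0 < (-z⁻¹).im := by
  rw [im_neg_inv]
  exact div_pos hz (normSq_pos.mpr fun h => by simp [h] at hz)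

theorem gs_decay {z : ℂ} (hz : 0 < z.im) (k : ℕ) :
    ∃ C : ℝ, ∀ v, ‖gs z v‖ ≤ C * (1 + ‖v‖) ^ (-(k : ℝ)) := by
  obtain ⟨C, hC⟩ := gau_decay bs (a := fun _ => -I * z) (fun _ => by rwa [re_neg_I_mul]) k
  exact ⟨C, fun v => by rw [gs_eq]; exact hC v⟩

theorem fB_gs (μ : MeasureTheory.Measure ℂ) [μ.IsAddHaarMeasure] {z : ℂ} (hz : 0 < z.im)
    (w : ℂ) : fB μ hB (gs z) w = μ.real (parallelepiped bs) * (-I * z)⁻¹ * gs (-z⁻¹) w := by
  have h0 : gs z = gau bs (fun _ => -I * z) := funext fun v => gs_eq z v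
  have hne : (-I * z)⁻¹ ≠ 0 := inv_ne_zero fun h => by
    have := re_neg_I_mul z
    rw [h, zero_re] at this
    exact hz.ne this
  rw [h0, fB_gau μ bs (ε := fun _ => 1) (fun _ => one_pow 2) hB_eq
    (fun _ => by rwa [re_neg_I_mul]), gs_inv_eq]
  congr 2
  rw [Fin.prod_univ_two, ← cpow_add _ _ hne]
  norm_num

/-! ### The kernel -/

/-- A point: `τ` outside the real line and an automorphy variable `u`. -/
@[ext] structure Pt where
  /-- the point of `ℂ` -/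
  τ : ℂ
  /-- the automorphy variable -/
  u : ℂ
  hτ : τ.im ≠ 0
  hu : u ≠ 0

theorem Pt.τ_ne (P : Pt) : P.τ ≠ 0 := fun h => P.hτ (by rw [h, zero_im])

theorem denom_ne {z : ℂ} (hz : z.im ≠ 0) {c d : ℚ} (h : c ≠ 0 ∨ d ≠ 0) :
    (c : ℂ) * z + d ≠ 0 := by
  intro h0
  have h1 := congrArg Complex.im h0
  simp only [add_im, mul_im, ratCast_re, ratCast_im, zero_mul, add_zero, zero_im] at h1
  have hc : c = 0 := by
    rcases mul_eq_zero.mp h1 with h2 | h2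
    · exact_mod_cast h2
    · exact absurd h2 hz
  subst hc
  rw [Rat.cast_zero, zero_mul, zero_add] at h0
  rcases h with h | h
  · exact h rfl
  · exact h (by exact_mod_cast h0)

theorem denom_ne_of_det {z : ℂ} (hz : z.im ≠ 0) {a b c d : ℚ} (h : a * d - b * c = 1) :
    (c : ℂ) * z + d ≠ 0 := by
  refine denom_ne hz ?_
  by_contra h'
  push Not at h'
  rw [h'.1, h'.2, mul_zero, mul_zero, sub_zero] at h
  exact zero_ne_one h

theorem im_moeb {z : ℂ} {a b c d : ℚ} (h : a * d - b * c = 1) :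
    (((a : ℂ) * z + b) / (c * z + d)).im = z.im / normSq ((c : ℂ) * z + d) := by
  have h' : (a : ℝ) * d - b * c = 1 := by exact_mod_cast h
  rw [div_im]
  simp only [add_im, mul_im, ratCast_re, ratCast_im, zero_mul, add_zero, add_re, mul_re,
    sub_zero]
  rw [← sub_div]
  congr 1
  linear_combination z.im * h'

/-- `γ (τ, u) = (γ τ, (c τ + d) u)` -/
def Pt.mv (a b c d : ℚ) (h : a * d - b * c = 1) (P : Pt) : Pt where
  τ := ((a : ℂ) * P.τ + b) / (c * P.τ + d)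
  u := ((c : ℂ) * P.τ + d) * P.u
  hτ := by
    rw [im_moeb h]
    exact div_ne_zero P.hτ (normSq_pos.mpr (denom_ne_of_det P.hτ h)).ne'
  hu := mul_ne_zero (denom_ne_of_det P.hτ h) P.hu

/-- The kernel: `u⁻¹ exp (2 π i τ ξ)` for `Im τ > 0`, `0` for `Im τ < 0`. -/
def Kq (P : Pt) (ξ : ℚ) : ℂ := if 0 < P.τ.im then P.u⁻¹ * cexp (2 * π * I * P.τ * ξ) else 0

theorem Kq_of_pos {P : Pt} (h : 0 < P.τ.im) (ξ : ℚ) :
    Kq P ξ = P.u⁻¹ * cexp (2 * π * I * P.τ * ξ) := if_pos h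

theorem Kq_of_not_pos {P : Pt} (h : ¬ 0 < P.τ.im) (ξ : ℚ) : Kq P ξ = 0 := if_neg h

/-- translation -/
def tlP (u : ℚ) (P : Pt) : Pt := ⟨P.τ + u, P.u, by simpa using P.hτ, P.hu⟩

theorem im_div_sq (z : ℂ) (d : ℚ) : (z / (d : ℂ) ^ 2).im = z.im / (d : ℝ) ^ 2 := by
  have : (z / (d : ℂ) ^ 2) = ((((d : ℝ) ^ 2)⁻¹ : ℝ) : ℂ) * z := by
    push_cast
    rw [div_eq_mul_inv, mul_comm]
  rw [this, im_ofReal_mul]
  ring

open Classical in
/-- dilation -/
def dlP (d : ℚ) (P : Pt) : Pt :=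
  if hd : d ≠ 0 then ⟨P.τ / (d : ℂ) ^ 2, d * P.u, by
    rw [im_div_sq]
    exact div_ne_zero P.hτ (pow_ne_zero _ (by exact_mod_cast hd)),
    mul_ne_zero (by exact_mod_cast hd) P.hu⟩ else P

theorem dlP_τ {d : ℚ} (hd : d ≠ 0) (P : Pt) : (dlP d P).τ = P.τ / (d : ℂ) ^ 2 := by
  rw [dlP, dif_pos hd]

theorem dlP_u {d : ℚ} (hd : d ≠ 0) (P : Pt) : (dlP d P).u = d * P.u := by
  rw [dlP, dif_pos hd]

/-- inversion -/
def wP (P : Pt) : Pt := ⟨-(P.τ)⁻¹, -I * P.τ * P.u, by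
  rw [im_neg_inv]
  exact div_ne_zero P.hτ (normSq_pos.mpr P.τ_ne).ne',
  mul_ne_zero (mul_ne_zero (neg_ne_zero.mpr I_ne_zero) P.τ_ne) P.hu⟩

theorem wP_wP (P : Pt) : wP (wP P) = P := by
  have h := P.τ_ne
  apply Pt.ext
  · change -(-(P.τ)⁻¹)⁻¹ = P.τ
    rw [inv_neg, neg_neg, inv_inv]
  · change -I * (-(P.τ)⁻¹) * (-I * P.τ * P.u) = P.u
    field_simp
    rw [I_sq]
    ring

theorem eF_rat (x : ℚ) : eF ℚ x = cexp (2 * π * I * x) := by
  rw [eF_eq_cexp]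
  congr 3
  convert Algebra.trace_self_apply (R := ℚ) x
  · rfl
  · exact Subsingleton.elim _ _

theorem Kq_tlP (u : ℚ) (P : Pt) (ξ : ℚ) : Kq (tlP u P) ξ = eF ℚ (u * ξ) * Kq P ξ := by
  have him : (tlP u P).τ.im = P.τ.im := by simp [tlP]
  by_cases h : 0 < P.τ.im
  · rw [Kq_of_pos (him.symm ▸ h), Kq_of_pos h, eF_rat]
    change P.u⁻¹ * cexp (2 * π * I * (P.τ + u) * ξ) = _
    rw [mul_left_comm, ← Complex.exp_add]
    congr 2
    push_cast
    ring
  · rw [Kq_of_not_pos (him.symm ▸ h), Kq_of_not_pos h, mul_zero]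

theorem Kq_dlP {d : ℚ} (hd : d ≠ 0) (P : Pt) (ξ : ℚ) :
    Kq (dlP d P) ξ = (d : ℂ)⁻¹ * Kq P (ξ / d ^ 2) := by
  have him : (dlP d P).τ.im = P.τ.im / (d : ℝ) ^ 2 := by rw [dlP_τ hd, im_div_sq]
  have hd2 : (0 : ℝ) < (d : ℝ) ^ 2 := by
    have : (d : ℝ) ≠ 0 := by exact_mod_cast hd
    positivity
  have hiff : 0 < (dlP d P).τ.im ↔ 0 < P.τ.im := by
    rw [him, div_pos_iff_of_pos_right hd2]
  by_cases h : 0 < P.τ.im
  · rw [Kq_of_pos (hiff.mpr h), Kq_of_pos h, dlP_τ hd, dlP_u hd, mul_inv, mul_assoc]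
    congr 3
    push_cast
    ring
  · rw [Kq_of_not_pos (fun h' => h (hiff.mp h')), Kq_of_not_pos h, mul_zero]

section Field

variable {E : Type*} [Field E] [NumberField E] {σ : E ≃ₐ[ℚ] E}

/-- The theta kernel of weight one. -/
def kerQ (hE : finrank ℚ E = 2) (hσ : σ ≠ 1) : Kernel ℚ E Pt where
  q := Algebra.norm ℚ
  B x y := Algebra.trace ℚ E (x * σ y)
  e := eF ℚ
  K P x := Kq P (Algebra.norm ℚ x)
  tl := tlP
  dl := dlP
  w := wP
  ν d := (d : ℂ)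
  q_add := quad_norm_add hE hσ
  q_smul := quad_norm_smul hE hσ
  B_add x y z := by rw [add_mul, map_add]
  B_smul c x y := by rw [smul_mul_assoc, map_smul, smul_eq_mul]
  B_comm x y := by
    rw [← quad_trace_conj hE hσ (x * σ y), map_mul, quad_invol hE hσ, mul_comm]
  K_tl u P x := Kq_tlP u P _
  K_dl d hd P x := by
    rw [Kq_dlP hd, quad_norm_smul hE hσ]
    congr 2
    field_simp
  w_w := wP_wP

theorem kerQ_act (hE : finrank ℚ E = 2) (hσ : σ ≠ 1) {a b c d : ℚ} (det : a * d - b * c = 1)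
    (hd : d ≠ 0) (P : Pt) : (kerQ hE hσ).act b c d P = Pt.mv a b c d det P := by
  have hz := P.τ_ne
  have hdc : (d : ℂ) ≠ 0 := by exact_mod_cast hd
  have hden : (c : ℂ) * P.τ + d ≠ 0 := denom_ne P.hτ (Or.inr hd)
  have hdet : (a : ℂ) * d - b * c = 1 := by exact_mod_cast det
  have h3 : (tlP (-c / d) (wP P)).τ = -((c * P.τ + d) / (d * P.τ)) := by
    change -(P.τ)⁻¹ + ((-c / d : ℚ) : ℂ) = _
    push_cast
    field_simp
    ring
  apply Pt.ext
  · change (dlP d (wP (tlP (-c / d) (wP P)))).τ + ((b / d : ℚ) : ℂ) =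
      ((a : ℂ) * P.τ + b) / (c * P.τ + d)
    rw [dlP_τ hd]
    change -((tlP (-c / d) (wP P)).τ)⁻¹ / (d : ℂ) ^ 2 + ((b / d : ℚ) : ℂ) = _
    rw [h3, inv_neg, neg_neg, inv_div, eq_div_iff hden]
    push_cast
    have hden' : P.τ * (c : ℂ) + d ≠ 0 := by rwa [mul_comm]
    field_simp
    linear_combination (-P.τ) * hdet
  · change (dlP d (wP (tlP (-c / d) (wP P)))).u = ((c : ℂ) * P.τ + d) * P.u
    rw [dlP_u hd]
    change (d : ℂ) * (-I * (tlP (-c / d) (wP P)).τ * (-I * P.τ * P.u)) = _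
    rw [h3]
    field_simp
    rw [I_sq]
    ring

/-! ### Poisson summation -/

variable {φ : E →+* ℂ}

theorem trace_eq_two_re (hE : finrank ℚ E = 2) (hσ : σ ≠ 1) (hφ : ∀ x, φ (σ x) = conj (φ x))
    (x : E) : ((Algebra.trace ℚ E x : ℚ) : ℝ) = 2 * (φ x).re := by
  have h1 := congrArg φ (quad_trace hE hσ x)
  rw [map_add, hφ, eq_ratCast, map_ratCast, add_conj] at h1
  exact_mod_cast h1

theorem norm_eq_normSq_conj (hE : finrank ℚ E = 2) (hσ : σ ≠ 1) (hφ : ∀ x, φ (σ x) = conj (φ x))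
    (x : E) : ((Algebra.norm ℚ x : ℚ) : ℝ) = normSq (φ x) := by
  have h1 := congrArg φ (quad_norm hE hσ x)
  rw [map_mul, hφ, eq_ratCast, map_ratCast, mul_conj] at h1
  exact_mod_cast h1

theorem realModel (hE : finrank ℚ E = 2) (hσ : σ ≠ 1) (hφ : ∀ x, φ (σ x) = conj (φ x)) :
    IsRealModel (twForm ((σ : E ≃+* E) : E →+* E)) (φ : E →+ ℂ) hB where
  nondeg := twForm_nondegenerate _
  finrank_eq := by rw [finrank_real_complex, hE]
  map x y := by
    rw [twForm_apply, trace_eq_two_re hE hσ hφ, map_mul, hB_apply]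
    change 2 * (φ x * conj (φ y)).re = 2 * (φ x * φ (σ y)).re
    rw [hφ]

theorem Kq_norm (hE : finrank ℚ E = 2) (hσ : σ ≠ 1) (hφ : ∀ x, φ (σ x) = conj (φ x))
    {P : Pt} (hP : 0 < P.τ.im) (x : E) :
    Kq P (Algebra.norm ℚ x) = P.u⁻¹ * gs P.τ (φ x) := by
  rw [Kq_of_pos hP, gs, ← norm_eq_normSq_conj hE hσ hφ x]
  push_cast
  rfl

theorem im_wP_pos (P : Pt) : 0 < (wP P).τ.im ↔ 0 < P.τ.im := by
  change 0 < (-(P.τ)⁻¹).im ↔ _
  rw [im_neg_inv, div_pos_iff_of_pos_right (normSq_pos.mpr P.τ_ne)]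

theorem summable_Kq (hE : finrank ℚ E = 2) (hσ : σ ≠ 1) (hφ : ∀ x, φ (σ x) = conj (φ x))
    {Λ : Submodule ℤ E} (hΛ : IsLat Λ) (P : Pt) (s : E) :
    Summable fun x : Λ => Kq P (Algebra.norm ℚ (s + x)) := by
  by_cases hP : 0 < P.τ.im
  · obtain ⟨b, hb⟩ := hΛ.exists_basis
    obtain ⟨C, hC⟩ := gs_decay hP 3
    have h1 := (realModel hE hσ hφ).summable_of_decay hb (β := ((3 : ℕ) : ℝ))
      (by rw [hE]; norm_num) hC (φ s)
    refine (h1.mul_left (P.u⁻¹)).congr fun x => ?_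
    rw [Kq_norm hE hσ hφ hP, map_add]
    rfl
  · refine summable_zero.congr fun x => ?_
    rw [Kq_of_not_pos hP]

theorem kerQ_poisson (hE : finrank ℚ E = 2) (hσ : σ ≠ 1) (hφ : ∀ x, φ (σ x) = conj (φ x))
    {Λ : Submodule ℤ E} (hΛ : IsLat Λ) :
    ∃ C : ℂ, (kerQ hE hσ).Poisson Λ.toAddSubgroup (dualE σ Λ).toAddSubgroup C := by
  obtain ⟨b, hb⟩ := hΛ.exists_basis
  have hM := realModel hE hσ hφ
  set μ : MeasureTheory.Measure ℂ := MeasureTheory.volume with hμ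
  refine ⟨(μ.real (parallelepiped (hM.realBasis b)) : ℂ)⁻¹ * μ.real (parallelepiped bs), ?_⟩
  intro P s
  refine ⟨summable_Kq hE hσ hφ hΛ (wP P) s, ?_⟩
  change HasSum (fun y : dualE σ Λ => (μ.real (parallelepiped (hM.realBasis b)) : ℂ)⁻¹ *
    μ.real (parallelepiped bs) * eF ℚ (Algebra.trace ℚ E (s * σ y)) *
    Kq P (Algebra.norm ℚ (y : E))) (∑' u : Λ, Kq (wP P) (Algebra.norm ℚ (s + (u : E))))
  by_cases hP : 0 < P.τ.im
  · have hP' : 0 < (wP P).τ.im := (im_wP_pos P).mpr hP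
    have hz : (wP P).τ = -(P.τ)⁻¹ := rfl
    have hz' : -((wP P).τ)⁻¹ = P.τ := by rw [hz, inv_neg, neg_neg, inv_inv]
    obtain ⟨C₁, hC₁⟩ := gs_decay hP' 3
    obtain ⟨C₂, hC₂⟩ := gs_decay hP 3
    have hβ : ((finrank ℚ E : ℕ) : ℝ) < ((3 : ℕ) : ℝ) := by rw [hE]; norm_num
    have hcont : Continuous (gs (wP P).τ) := by
      have : gs (wP P).τ = gau bs (fun _ => -I * (wP P).τ) := funext fun v => gs_eq _ v
      rw [this]
      exact continuous_gau _ _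
    have hfB : ∀ v, fB μ hB (gs (wP P).τ) v =
        μ.real (parallelepiped bs) * (-I * (wP P).τ)⁻¹ * gs P.τ v := by
      intro v
      rw [fB_gs μ hP', hz']
    have hs : Summable fun y : (twForm ((σ : E ≃+* E) : E →+* E)).dualSubmodule Λ =>
        fB μ hB (gs (wP P).τ) ((φ : E →+ ℂ) y) := by
      simp_rw [hfB]
      have := hM.summable_dual_of_decay hb hβ hC₂ 0
      simp only [zero_add] at this
      exact this.mul_left _
    have h1 := hM.hasSum_poisson μ hb hcont hβ hC₁ hs (φ s)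
    have h2 := h1.mul_left ((wP P).u⁻¹)
    have h3 : (wP P).u⁻¹ * ∑' u : Λ, gs (wP P).τ (φ s + (φ : E →+ ℂ) u) =
        ∑' u : Λ, Kq (wP P) (Algebra.norm ℚ (s + (u : E))) := by
      rw [← tsum_mul_left]
      refine tsum_congr fun u => ?_
      rw [Kq_norm hE hσ hφ hP', map_add]
      rfl
    rw [h3] at h2
    refine h2.congr_fun ?_
    intro y
    rw [hfB, Kq_norm hE hσ hφ hP, eF_rat]
    have h4 : ((hB ((φ : E →+ ℂ) (y : E)) (φ s) : ℝ) : ℂ) =
        ((Algebra.trace ℚ E (s * σ y) : ℚ) : ℂ) := by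
      have h5 := hM.map (y : E) s
      rw [twForm_apply] at h5
      have h6 : Algebra.trace ℚ E ((y : E) * σ s) = Algebra.trace ℚ E (s * σ y) :=
        trace_mul_conj hE hσ y s
      change ((hB ((φ : E →+ ℂ) (y : E)) ((φ : E →+ ℂ) s) : ℝ) : ℂ) = _
      rw [h5]
      push_cast
      exact congrArg _ h6
    rw [h4]
    have h7 : (-I * (wP P).τ)⁻¹ * (wP P).u⁻¹ = P.u⁻¹ := by
      have h8 := P.τ_ne
      change (-I * -(P.τ)⁻¹)⁻¹ * (-I * P.τ * P.u)⁻¹ = P.u⁻¹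
      rw [← mul_inv]
      congr 1
      field_simp
      rw [I_sq]
      ring
    have h9 : gs P.τ ((φ : E →+ ℂ) (y : E)) = gs P.τ (φ (y : E)) := rfl
    rw [← h7, h9]
    ring
  · have hP' : ¬ 0 < (wP P).τ.im := fun h => hP ((im_wP_pos P).mp h)
    simp only [Kq_of_not_pos hP, Kq_of_not_pos hP', mul_zero, tsum_zero]
    exact hasSum_zero

/-! ### The transformation law -/

/-- Eichler's law for `Kq`. -/
theorem lawK (hE : finrank ℚ E = 2) (hσ : σ ≠ 1) (hφ : ∀ x, φ (σ x) = conj (φ x))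
    {a b c d : ℚ} {h : E} {Λ Λ₂ : Submodule ℤ E}
    (hΛ₂ : IsLat Λ₂) (H : Cond σ a b c d h Λ Λ₂) {ρ : Type*} [Fintype ρ] {r : ρ → E}
    (hr1 : ∀ i, r i ∈ Λ) (hr2 : ∀ x ∈ Λ, ∃ i, ∃ m ∈ Λ₂, x = r i + algebraMap ℚ E d * m)
    (hr3 : ∀ i j, (∃ m ∈ Λ₂, r i - r j = algebraMap ℚ E d * m) → i = j) (P : Pt) :
    Summable (fun x : Λ =>
      Kq (Pt.mv a b c d H.det P) (Algebra.norm ℚ (algebraMap ℚ E d * h + x))) ∧
    ∑' x : Λ, Kq (Pt.mv a b c d H.det P) (Algebra.norm ℚ (algebraMap ℚ E d * h + x)) =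
      (d : ℂ)⁻¹ * (∑ i, eF ℚ (b * Algebra.norm ℚ (r i) / d)) *
        ∑' x : Λ₂, Kq P (Algebra.norm ℚ (h + x)) := by
  obtain ⟨C, hC⟩ := kerQ_poisson hE hσ hφ hΛ₂
  have hs : ∀ (u : ℚ) (x : E), u • x = algebraMap ℚ E u * x := fun u x => Algebra.smul_def u x
  have hA : (kerQ hE hσ).Adm a b c d h Λ.toAddSubgroup Λ₂.toAddSubgroup
      (dualE σ Λ₂).toAddSubgroup := by
    constructor
    · exact H.det
    · exact H.d0
    · intro x hx
      rw [hs]
      exact H.c1 x hx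
    · intro x hx
      rw [hs]
      exact H.c2 x hx
    · intro y hy
      rw [hs]
      exact H.c3 y ((mem_dualE hE hσ).mp hy)
    · intro x hx y hy
      obtain ⟨n, hn⟩ := (mem_dualE hE hσ).mp hy x hx
      change eF ℚ (Algebra.trace ℚ E (x * σ y)) = 1
      rw [eF_trace]
      exact eF_of_trace hn.symm
    · intro x hx y hy
      change eF ℚ (b * Algebra.trace ℚ E (x * σ y)) = 1
      rw [← smul_eq_mul, ← map_smul, hs]
      exact eF_trace_of_isIntegral (H.c4 x hx y hy)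
    · intro x hx
      exact eF_of_isIntegral (H.c5 x hx)
    · intro y hy
      exact eF_of_isIntegral (H.c6 y ((mem_dualE hE hσ).mp hy))
    · exact eF_of_isIntegral H.c7
    · intro x hx
      change eF ℚ (b * Algebra.trace ℚ E (h * σ x)) = 1
      rw [← smul_eq_mul, ← map_smul, hs]
      exact eF_trace_of_isIntegral (H.c8 x hx)
  have hR : Kernel.Reps d Λ.toAddSubgroup Λ₂.toAddSubgroup r := by
    constructor
    · exact hr1
    · intro x hx
      obtain ⟨i, m, hm, h1⟩ := hr2 x hx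
      exact ⟨i, m, hm, by rw [hs]; exact h1⟩
    · rintro i j ⟨m, hm, h1⟩
      exact hr3 i j ⟨m, hm, by rw [hs] at h1; exact h1⟩
  have h1 := hA.law hR hC P
  rw [kerQ_act hE hσ H.det H.d0, hs] at h1
  exact h1

open Fermat.Agent.LT.SAd

variable {N : ℕ} [NeZero N] {k m₀ m₁ : ℕ} {a b c d : ℚ} {h : E}

/-- **The law**, with the constant in terms of the ideal `D = dId N d`. -/
theorem law_Q [IsGalois ℚ E] (hE : finrank ℚ E = 2) (hσ : σ ≠ 1)
    (hφ : ∀ x, φ (σ x) = conj (φ x)) (H : Good N k m₀ a b c d h) (hD : DiffBound E N m₀)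
    (hDF : DiffBound ℚ N m₁)
    (hN : ∀ w : HeightOneSpectrum (𝓞 E), (N : 𝓞 E) ∉ w.asIdeal →
      ∃ x : 𝓞 E, x - NF.cI σ x ∉ w.asIdeal) (P : Pt) :
    Summable (fun x : SAd.T N h k =>
      Kq (Pt.mv a b c d H.det P) (Algebra.norm ℚ (x : E))) ∧
    ∑' x : SAd.T N h k, Kq (Pt.mv a b c d H.det P) (Algebra.norm ℚ (x : E)) =
      (d : ℂ)⁻¹ * ((Ideal.absNorm (dId N d) : ℂ) * QD.chi (𝓞 E) (dId N d)) *
        ∑' x : SAd.T N (h / algebraMap ℚ E d) k, Kq P (Algebra.norm ℚ (x : E)) := by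
  classical
  have hσσ : ∀ x, σ (σ x) = x := quad_invol hE hσ
  have hq : ∀ x : E, algebraMap ℚ E (Algebra.norm ℚ x) = x * σ x := quad_norm hE hσ
  have hd0 : algebraMap ℚ E d ≠ 0 := (map_ne_zero _).2 H.d_ne
  have hne : (dId N d).map (algebraMap (𝓞 ℚ) (𝓞 E)) ≠ ⊥ := by
    intro h0
    obtain ⟨n, hn, -, h1⟩ := exists_natCast_mem_dId N d
    have h2 := Ideal.mem_map_of_mem (algebraMap (𝓞 ℚ) (𝓞 E)) h1
    rw [h0, Ideal.mem_bot, map_natCast] at h2
    exact hn (by exact_mod_cast h2)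
  have : Finite (𝓞 E ⧸ (dId N d).map (algebraMap (𝓞 ℚ) (𝓞 E))) :=
    Ideal.finiteQuotientOfFreeOfNeBot _ hne
  have : Fintype (𝓞 E ⧸ (dId N d).map (algebraMap (𝓞 ℚ) (𝓞 E))) := Fintype.ofFinite _
  obtain ⟨h', h1⟩ := exists_mem_T N (div_ne_zero H.h_ne hd0) k
  obtain ⟨J, hJ, hJ'⟩ := exists_J N (h * (N : E) ^ k) (b / d)
  have hg : h * (N : E) ^ k / algebraMap ℚ E d ≠ 0 :=
    div_ne_zero (mul_ne_zero H.h_ne (natN_ne N k)) hd0
  have hr := reps H.d_ne H.d_mem hJ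
  have hcond := H.cond hσσ hq hD h1
  have hlaw := lawK hE hσ hφ (isLat_LamZ hg) hcond
    (r := fun i : 𝓞 E ⧸ (dId N d).map (algebraMap (𝓞 ℚ) (𝓞 E)) =>
        (N : E) ^ J * algebraMap (𝓞 E) E (Quotient.out i)) hr.mem
    (fun x hx => by
      obtain ⟨i, m, hm, hi⟩ := hr.ex x hx
      exact ⟨i, m, hm, by rw [hi, Algebra.smul_def]⟩)
    (fun i j => by
      rintro ⟨m, hm, hij⟩
      exact hr.uniq i j ⟨m, hm, by rw [hij, Algebra.smul_def]⟩) P
  have hgauss : ∑ i : 𝓞 E ⧸ (dId N d).map (algebraMap (𝓞 ℚ) (𝓞 E)),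
      eF ℚ (b * Algebra.norm ℚ ((N : E) ^ J * algebraMap (𝓞 E) E (Quotient.out i)) / d) =
      (Ideal.absNorm (dId N d) : ℂ) * QD.chi (𝓞 E) (dId N d) := by
    have hDN : ∃ n : ℕ, n.Coprime N ∧ (n : 𝓞 ℚ) ∈ dId N d := by
      obtain ⟨n, -, h2, h3⟩ := exists_natCast_mem_dId N d
      exact ⟨n, h2, h3⟩
    rw [← NF.gauss_eq_NF hE hσ hN (dId_ne_bot N d) hDN
      (cond_echI hDF H.a_mem H.b_mem H.c_mem H.d_ne H.det hJ')]
    unfold gauss qs
    refine Finset.sum_congr rfl fun i _ => ?_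
    change _ = echI _ ((NF.qd hE hσ).nm (Quotient.out i))
    rw [echI_apply, NF.qd_nm, ech_eq_eF]
    congr 1
    have hNN : Algebra.norm ℚ ((N : E) ^ J) = (N : ℚ) ^ (2 * J) := by
      apply (algebraMap ℚ E).injective
      rw [hq, map_pow, map_natCast, map_pow, map_natCast]
      ring
    rw [map_mul, hNN]
    ring
  rw [hgauss] at hlaw
  have hdh : algebraMap ℚ E d * h' ∈ SAd.T N h k := H.mem_T_mul h1
  have hgg : h / algebraMap ℚ E d * (N : E) ^ k = h * (N : E) ^ k / algebraMap ℚ E d := by ring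
  have e2 : ∑' x : SAd.T N (h / algebraMap ℚ E d) k, Kq P (Algebra.norm ℚ (x : E)) =
      ∑' u : LamZ N (h * (N : E) ^ k / algebraMap ℚ E d), Kq P (Algebra.norm ℚ (h' + u)) := by
    rw [← hgg, ← (cosetEquivZ h1).tsum_eq]
    rfl
  refine ⟨?_, ?_⟩
  · rw [← (cosetEquivZ hdh).summable_iff]
    exact hlaw.1
  · rw [← (cosetEquivZ hdh).tsum_eq, e2]
    exact hlaw.2

end Field

/-! ### Imaginary quadratic fields -/

section Quad

variable {E : Type*} [Field E] [NumberField E]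

theorem exists_conj [IsTotallyComplex E] (hE : finrank ℚ E = 2) :
    ∃ (σ : E ≃ₐ[ℚ] E) (φ : E →+* ℂ), σ ≠ 1 ∧ ∀ x, φ (σ x) = conj (φ x) := by
  have h2 : Algebra.IsQuadraticExtension ℚ E := { finrank_eq_two' := hE }
  have : IsGalois ℚ E := inferInstance
  obtain ⟨w⟩ : Nonempty (InfinitePlace E) := inferInstance
  obtain ⟨σ, hσ⟩ := ComplexEmbedding.exists_comp_symm_eq_of_comp_eq (k := ℚ) w.embedding
    (ComplexEmbedding.conjugate w.embedding) (Subsingleton.elim _ _)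
  refine ⟨σ.symm, w.embedding, fun h => ?_, fun x => RingHom.congr_fun hσ x⟩
  have h3 : ComplexEmbedding.IsReal w.embedding := by
    rw [ComplexEmbedding.isReal_iff, ← hσ]
    ext x
    have h4 : σ.symm x = x := AlgEquiv.congr_fun h x
    change w.embedding (σ.symm x) = _
    rw [h4]
  exact (InfinitePlace.isComplex_iff.mp (IsTotallyComplex.isComplex w)) h3

variable {σ : E ≃ₐ[ℚ] E}

theorem trace_int_eq (hE : finrank ℚ E = 2) (hσ : σ ≠ 1) (x : 𝓞 E) :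
    ((Algebra.trace ℤ (𝓞 E) x : ℤ) : 𝓞 E) = x + NF.cI σ x := by
  apply RingOfIntegers.ext
  have h1 := quad_trace hE hσ (x : E)
  have h2 := Algebra.coe_trace_int x
  have h3 : (((Algebra.trace ℤ (𝓞 E) x : ℤ) : 𝓞 E) : E) =
      algebraMap ℚ E (Algebra.trace ℚ E (x : E)) := by
    rw [← h2]
    simp
  rw [h3, h1]
  rfl

/-- The conjugation acts non-trivially on the residue field of a place not dividing the
discriminant. -/
theorem exists_sub_notMem_of_discr (hE : finrank ℚ E = 2) (hσ : σ ≠ 1)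
    {w : HeightOneSpectrum (𝓞 E)} (hw : ((NumberField.discr E : ℤ) : 𝓞 E) ∉ w.asIdeal) :
    ∃ x : 𝓞 E, x - NF.cI σ x ∉ w.asIdeal := by
  by_contra h
  push Not at h
  apply hw
  have hcard : Fintype.card (Free.ChooseBasisIndex ℤ (𝓞 E)) = 2 := by
    rw [← finrank_eq_card_basis (RingOfIntegers.basis E), RingOfIntegers.rank, hE]
  let b := (RingOfIntegers.basis E).reindex (Fintype.equivFinOfCardEq hcard)
  rw [← discr_eq_discr E b, Algebra.discr_def, det_fin_two]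
  simp only [Algebra.traceMatrix_apply, Algebra.traceForm_apply, Int.cast_sub, Int.cast_mul,
    trace_int_eq hE hσ, map_mul]
  have h0 := h (b 0)
  have h1 := h (b 1)
  have h2 : (b 0 * b 0 + NF.cI σ (b 0) * NF.cI σ (b 0)) *
      (b 1 * b 1 + NF.cI σ (b 1) * NF.cI σ (b 1)) -
      (b 0 * b 1 + NF.cI σ (b 0) * NF.cI σ (b 1)) * (b 1 * b 0 + NF.cI σ (b 1) * NF.cI σ (b 0)) =
      ((b 0 - NF.cI σ (b 0)) * b 1 - b 0 * (b 1 - NF.cI σ (b 1))) *
      ((b 0 - NF.cI σ (b 0)) * b 1 - b 0 * (b 1 - NF.cI σ (b 1))) := by ring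
  rw [h2]
  exact w.asIdeal.mul_mem_left _ (w.asIdeal.sub_mem (w.asIdeal.mul_mem_right _ h0)
    (w.asIdeal.mul_mem_left _ h1))

theorem absNorm_span_rat (p : ℕ) : Ideal.absNorm (Ideal.span {(p : 𝓞 ℚ)}) = p := by
  rw [Ideal.absNorm_span_singleton]
  have h : (p : 𝓞 ℚ) = algebraMap ℤ (𝓞 ℚ) p := by simp
  rw [h, Algebra.norm_algebraMap, RingOfIntegers.rank, finrank_self, pow_one, Int.natAbs_natCast]

variable {N : ℕ}

open Fermat.Agent.LT.SAd

theorem dId_natCast {p : ℕ} (hp : p.Prime) (hpN : ¬ p ∣ N) :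
    dId N (p : ℚ) = Ideal.span {(p : 𝓞 ℚ)} := by
  have hp0 : (p : ℚ) ≠ 0 := by exact_mod_cast hp.ne_zero
  ext t
  rw [mem_dId, Ideal.mem_span_singleton]
  constructor
  · rintro ⟨j, hj⟩
    obtain ⟨u, v, huv⟩ : IsCoprime (p : ℤ) ((N : ℤ) ^ j) :=
      (Nat.isCoprime_iff_coprime.2 ((Nat.Prime.coprime_iff_not_dvd hp).2 hpN)).pow_right
    have h1 : (u : ℚ) * p + v * (N : ℚ) ^ j = 1 := by exact_mod_cast huv
    let y : 𝓞 ℚ := ⟨(N : ℚ) ^ j * ((p : ℚ)⁻¹ * algebraMap (𝓞 ℚ) ℚ t), hj⟩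
    refine ⟨u * t + v * y, ?_⟩
    apply RingOfIntegers.ext
    have h2 : algebraMap (𝓞 ℚ) ℚ (p * (u * t + v * y)) =
        p * (u * algebraMap (𝓞 ℚ) ℚ t +
          v * ((N : ℚ) ^ j * ((p : ℚ)⁻¹ * algebraMap (𝓞 ℚ) ℚ t))) := by
      rw [map_mul, map_add, map_mul, map_mul, map_natCast, map_intCast, map_intCast]
      rfl
    change algebraMap (𝓞 ℚ) ℚ t = algebraMap (𝓞 ℚ) ℚ (p * (u * t + v * y))
    rw [h2]
    field_simp
    linear_combination (-algebraMap (𝓞 ℚ) ℚ t) * h1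
  · rintro ⟨y, rfl⟩
    rw [map_mul, map_natCast, inv_mul_cancel_left₀ hp0]
    exact mem_RS_of_isIntegral (co_int y)

theorem chi_split {p : ℕ} (hp : p.Prime) (hpN : ¬ p ∣ N) {P Q : HeightOneSpectrum (𝓞 E)}
    (hne : P ≠ Q) (hmul : P.asIdeal * Q.asIdeal = Ideal.span {(p : 𝓞 E)}) :
    QD.chi (𝓞 E) (dId N (p : ℚ)) = 1 := by
  have h1 : Ideal.absNorm (Ideal.span {(p : 𝓞 ℚ)}) = p := absNorm_span_rat p
  have hprime : (Ideal.span {(p : 𝓞 ℚ)}).IsPrime :=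
    Ideal.isPrime_of_irreducible_absNorm (by rw [h1]; exact hp)
  have hne0 : Ideal.span {(p : 𝓞 ℚ)} ≠ ⊥ := by
    intro h
    rw [h, Ideal.absNorm_bot] at h1
    exact hp.ne_zero h1.symm
  have hmax : (Ideal.span {(p : 𝓞 ℚ)}).IsMaximal := hprime.isMaximal hne0
  rw [dId_natCast hp hpN, QD.chi_prime hmax hne0, QD.sgn, if_neg]
  intro h
  have h2 : QD.ex (R' := 𝓞 E) (Ideal.span {(p : 𝓞 ℚ)}) = P.asIdeal * Q.asIdeal := by
    rw [hmul, QD.ex, Ideal.map_span, Set.image_singleton, map_natCast]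
  rw [h2] at h
  have hP : P.asIdeal * Q.asIdeal = P.asIdeal := h.eq_of_le P.isPrime.ne_top Ideal.mul_le_left
  have hQ : P.asIdeal * Q.asIdeal = Q.asIdeal := h.eq_of_le Q.isPrime.ne_top Ideal.mul_le_right
  exact hne (HeightOneSpectrum.ext (hP.symm.trans hQ))

variable [NeZero N] {k : ℕ} {a b c : ℚ} {h : E}

/-- the sum over `T N h k` converges at every point. -/
theorem summable_T [IsTotallyComplex E] (hE : finrank ℚ E = 2) (hh : h ≠ 0) (P₀ : Pt) :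
    Summable (fun x : SAd.T N h k => Kq P₀ (Algebra.norm ℚ (x : E))) := by
  obtain ⟨σ, φ, hσ, hφ⟩ := exists_conj hE
  obtain ⟨x₀, h0⟩ := exists_mem_T N hh k
  rw [← (cosetEquivZ h0).summable_iff]
  exact summable_Kq hE hσ hφ (isLat_LamZ (mul_ne_zero hh (natN_ne N k))) P₀ x₀

/-- **The law for `d = p` split**, with constant `1`. -/
theorem law_of_split [IsTotallyComplex E] (hE : finrank ℚ E = 2)
    (hdisc : NumberField.discr E ∣ (N : ℤ)) {p : ℕ} (hp : p.Prime) (hpN : ¬ p ∣ N)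
    {P Q : HeightOneSpectrum (𝓞 E)} (hne : P ≠ Q)
    (hmul : P.asIdeal * Q.asIdeal = Ideal.span {(p : 𝓞 E)})
    (H : Good N k 1 a b c (p : ℚ) h) (P₀ : Pt) :
    Summable (fun x : SAd.T N h k =>
      Kq (Pt.mv a b c p H.det P₀) (Algebra.norm ℚ (x : E))) ∧
    ∑' x : SAd.T N h k, Kq (Pt.mv a b c p H.det P₀) (Algebra.norm ℚ (x : E)) =
        ∑' x : SAd.T N (h / (p : E)) k, Kq P₀ (Algebra.norm ℚ (x : E)) := by
  obtain ⟨σ, φ, hσ, hφ⟩ := exists_conj hE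
  have := quad_isGalois hE hσ
  have hN : ∀ w : HeightOneSpectrum (𝓞 E), (N : 𝓞 E) ∉ w.asIdeal →
      ∃ x : 𝓞 E, x - NF.cI σ x ∉ w.asIdeal := by
    intro w hw
    refine exists_sub_notMem_of_discr hE hσ fun h1 => hw ?_
    obtain ⟨e, he⟩ := hdisc
    have h2 : (N : 𝓞 E) = ((NumberField.discr E : ℤ) : 𝓞 E) * (e : 𝓞 E) := by
      have := congrArg (fun z : ℤ => (z : 𝓞 E)) he
      push_cast at this
      exact this
    rw [h2]
    exact w.asIdeal.mul_mem_right _ h1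
  have hDF : DiffBound ℚ N 1 := diffBound_of_discr_dvd (by
    rw [Rat.numberField_discr]
    exact one_dvd _)
  have h1 := law_Q hE hσ hφ H (diffBound_of_discr_dvd hdisc) hDF hN P₀
  refine ⟨h1.1, ?_⟩
  rw [h1.2, chi_split hp hpN hne hmul, dId_natCast hp hpN, absNorm_span_rat, map_natCast,
    mul_one, Rat.cast_natCast, inv_mul_cancel₀ (by exact_mod_cast hp.ne_zero), one_mul]

end Quad

/-- **The law for `d = p` split**, with constant `1`. -/
theorem law_split {E : Type} [Field E] [NumberField E] [IsTotallyComplex E]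
    (hE : finrank ℚ E = 2) {N : ℕ} [NeZero N] (hdisc : NumberField.discr E ∣ (N : ℤ)) {p : ℕ}
    (hp : p.Prime) (hpN : ¬ p ∣ N) {P Q : HeightOneSpectrum (𝓞 E)} (hPQ : IsPair p P Q)
    {k : ℕ} {a b c : ℚ} {h : E} (H : SAd.Good N k 1 a b c (p : ℚ) h) (P₀ : Pt) :
    Summable (fun x : SAd.T N h k =>
      Kq (Pt.mv a b c p H.det P₀) (Algebra.norm ℚ (x : E))) ∧
    ∑' x : SAd.T N h k, Kq (Pt.mv a b c p H.det P₀) (Algebra.norm ℚ (x : E)) =
        ∑' x : SAd.T N (h / (p : E)) k, Kq P₀ (Algebra.norm ℚ (x : E)) :=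
  law_of_split hE hdisc hp hpN hPQ.ne hPQ.mul_eq H P₀

end Fermat.Agent.Classic.Dih

end
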