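import Fermat.Agent.Classic.Dihedral.SumI
import Fermat.Agent.LT.Theta11.SNorm

/-!
# The transformation law of the theta series under `γ` with lower right entry a split prime (CL11)
-/

set_option autoImplicit false
set_option linter.unusedSectionVars false

noncomputable section

open IsDedekindDomain NumberField WithZero

namespace Fermat.Agent.Classic.Dih

open Fermat.Agent.CFT.SUnits (ord ord_one ord_mul ord_inv ord_pow ord_div ord_eq_zero_iff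
  valuation_eq_exp_neg_ord finite_ord_ne_zero div div_apply)
open Fermat.Agent.CFT.Places
open Fermat.Agent.CFT.Global (mem_E above mem_above normU ClTrivial cong mem_cong)
open Fermat.Agent.LT Fermat.Agent.LT.B11 Fermat.Agent.LT.SAd
open Fermat.Agent.LT.Psi (galU coe_up coe_galU up_normU)

theorem qsum_of_bot {A : Type*} [CommGroup A] {U : Subgroup A} (hU : ∀ u ∈ U, u = 1) (f : A → ℂ) :
    qsum U f = ∑' x : A, f x := by
  have hinv : Inv U f := by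
    intro u hu x
    rw [hU u hu, mul_one]
  have hb : Function.Bijective (QuotientGroup.mk : A → A ⧸ U) := by
    refine ⟨fun x y h => ?_, QuotientGroup.mk_surjective⟩
    rw [QuotientGroup.eq] at h
    exact (inv_mul_eq_one.mp (hU _ h))
  unfold qsum
  rw [← (Equiv.ofBijective _ hb).tsum_eq]
  exact tsum_congr fun x => hinv.out x

section Triv

variable {E : Type} [Field E] [NumberField E] [IsTotallyComplex E] [IsGalois ℚ E]
  (h2 : Module.finrank ℚ E = 2) {c : E ≃ₐ[ℚ] E} (hc : c ≠ 1) {N : ℕ} [NeZero N] {k : ℕ}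

include h2 hc in
/-- small units of norm one are trivial -/
theorem unit_eq_one (hN : 3 ≤ N ^ k) {x : Eˣ} (hx : x ∈ RU E N)
    (hn : Algebra.norm ℚ (x : E) = 1) (hV : x ∈ VN E N k) : x = 1 := by
  by_contra hne
  have hN0 : (N : E) ≠ 0 := Nat.cast_ne_zero.mpr (NeZero.ne N)
  set y : E := ((N : E) ^ k)⁻¹ * ((x : E) - 1) with hy
  have hy0 : y ≠ 0 := by
    refine mul_ne_zero (inv_ne_zero (pow_ne_zero _ hN0)) (sub_ne_zero.mpr fun h => hne ?_)
    exact Units.ext h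
  have hyR : y ∈ RS E N := by
    refine RS_inv_pow_mul k ?_
    have e : (N : E) ^ k * y = (x : E) - 1 := by
      rw [hy, ← mul_assoc, mul_inv_cancel₀ (pow_ne_zero _ hN0), one_mul]
    rw [e]
    exact (RS E N).sub_mem hx.1 (RS E N).one_mem
  have hyi : IsIntegral ℤ y := isIntegral_of_mem hyR hV.1
  obtain ⟨m, hm⟩ := isIntegral_rat (Algebra.isIntegral_norm ℚ hyi)
  have hpos := norm_pos' h2 hy0
  rw [← hm] at hpos
  have hm1 : (1 : ℤ) ≤ m := by exact_mod_cast hpos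
  have φ : E →+* ℂ := Classical.arbitrary _
  have h1 := norm_eq_sq_emb h2 hc φ y
  have h3 := norm_eq_sq_emb h2 hc φ (x : E)
  rw [hn] at h3
  rw [← hm] at h1
  have h4 : ‖φ (x : E)‖ = 1 := by
    rw [Complex.normSq_eq_norm_sq] at h3
    push_cast at h3
    nlinarith [norm_nonneg (φ (x : E)), sq_nonneg (‖φ (x : E)‖ - 1)]
  have h5 : ‖φ y‖ = ((N : ℝ) ^ k)⁻¹ * ‖φ (x : E) - 1‖ := by
    rw [hy, map_mul, map_inv₀, map_pow, map_natCast, map_sub, map_one, norm_mul, norm_inv,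
      norm_pow, Complex.norm_natCast]
  have h6 : ‖φ (x : E) - 1‖ ≤ 2 := by
    refine (norm_sub_le _ _).trans ?_
    rw [h4, norm_one]
    norm_num
  have h7 : (3 : ℝ) ≤ (N : ℝ) ^ k := by exact_mod_cast hN
  have h8 : ‖φ y‖ < 1 := by
    rw [h5, inv_mul_lt_iff₀ (by linarith)]
    linarith
  rw [Complex.normSq_eq_norm_sq] at h1
  have h9 : (1 : ℝ) ≤ ((m : ℚ) : ℝ) := by exact_mod_cast hm1
  nlinarith [norm_nonneg (φ y)]

end Triv

section Law

variable {E : Type} [Field E] [NumberField E] [IsTotallyComplex E] [IsGalois ℚ E]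
  (h2 : Module.finrank ℚ E = 2) {c : E ≃ₐ[ℚ] E} (hc : c ≠ 1) {N : ℕ} [NeZero N] {n : ℕ}
  {ψ : HeightOneSpectrum (𝓞 E) → UnitAddCircle} (hψ : IsRay (pl E N) n ψ) {k : ℕ} (hk : n + 1 ≤ k)

/-- **The class sums.** -/
theorem G_eq_tsum (hN : 3 ≤ N ^ k) (h : Eˣ) (P : Pt) : (datI h2 hc hψ hk).G h P =
    ∑' x : T N (h : E) k, Kq P (Algebra.norm ℚ (x : E)) := by
  classical
  set D := datI h2 hc hψ hk with hD
  have hk0 : k ≠ 0 := by omega
  have hbot : ∀ u ∈ D.U ⊓ D.VA, u = 1 := by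
    rintro u ⟨⟨hu1, hu2⟩, hu3⟩
    have h1 : u ∈ RU E N := by
      rw [mem_RU_iff, ← above_pl (F := ℚ)]
      exact hu1
    refine unit_eq_one h2 hc hN h1 ?_ hu3
    have h3 : normU (K := ℚ) E u = 1 := hu2
    have := congrArg Units.val h3
    exact this
  unfold Dat.G
  rw [qsum_of_bot hbot]
  set S : Set Eˣ := {x | (x : E) ∈ T N (h : E) k} with hS
  have h1 : ∀ x : Eˣ, (if x ∈ D.Op ∧ x * h⁻¹ ∈ D.VA then D.W P (D.q x) else 0) =
      S.indicator (fun x : Eˣ => Kq P (Algebra.norm ℚ (x : E))) x := by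
    intro x
    have h3 : (x ∈ D.Op ∧ x * h⁻¹ ∈ D.VA) ↔ x ∈ S := by
      rw [hS, Set.mem_ofPred_eq, mem_T_iff_VN hk0]
      rfl
    rw [Set.indicator_apply]
    by_cases hx : x ∈ S
    · rw [if_pos (h3.mpr hx), if_pos hx]
      exact Wq_eq_Kq P (norm_pos' h2 x.ne_zero)
    · rw [if_neg (fun h' => hx (h3.mp h')), if_neg hx]
  rw [tsum_congr h1, ← tsum_subtype]
  have h0 : ∀ x : T N (h : E) k, (x : E) ≠ 0 := by
    rintro ⟨x, hx⟩ h3
    change x = 0 at h3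
    subst h3
    have h4 := hx.2
    have hN0 : (N : E) ≠ 0 := Nat.cast_ne_zero.mpr (NeZero.ne N)
    have hh0 : (h : E) ≠ 0 := h.ne_zero
    have e : ((h : E) * (N : E) ^ k)⁻¹ * (0 - (h : E)) = -((N : E) ^ k)⁻¹ := by
      field_simp
      ring
    rw [e] at h4
    have h5 := (AS E N).neg_mem h4
    rw [neg_neg] at h5
    obtain ⟨j, hj0, hjc, hji⟩ := h5
    have e1 : (j : E) * ((N : E) ^ k)⁻¹ = algebraMap ℚ E ((j : ℚ) * ((N : ℚ) ^ k)⁻¹) := by
      rw [map_mul, map_inv₀, map_pow, map_natCast, map_natCast]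
    rw [e1] at hji
    obtain ⟨m, hm⟩ := isIntegral_rat (isIntegral_of_map hji)
    have h7 : (j : ℤ) = m * (N : ℤ) ^ k := by
      have hN' : (N : ℚ) ≠ 0 := Nat.cast_ne_zero.mpr (NeZero.ne N)
      have h8 : (j : ℚ) = m * (N : ℚ) ^ k := by
        rw [hm]
        field_simp
      exact_mod_cast h8
    have h9 : N ^ k ∣ j := by
      have : ((N : ℤ) ^ k) ∣ (j : ℤ) := ⟨m, by rw [h7]; ring⟩
      exact_mod_cast this
    have h11 : (N ^ k).Coprime j := Nat.Coprime.pow_left k hjc.symm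
    have h12 := Nat.Coprime.eq_one_of_dvd h11 h9
    omega
  let e : S ≃ T N (h : E) k :=
    { toFun := fun x => ⟨((x : Eˣ) : E), x.2⟩
      invFun := fun x => ⟨Units.mk0 (x : E) (h0 x), x.2⟩
      left_inv := fun x => Subtype.ext (Units.ext rfl)
      right_inv := fun x => Subtype.ext rfl }
  rw [← e.tsum_eq]
  rfl

end Law

/-! ### The value at a split prime -/

section Pair

variable {E : Type} [Field E] [NumberField E] {N : ℕ} [NeZero N] {p : ℕ}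
  {P Q : HeightOneSpectrum (𝓞 E)}

theorem IsPair.symm (h : IsPair p P Q) : IsPair p Q P where
  ne := h.ne.symm
  norm_P := h.norm_Q
  norm_Q := h.norm_P
  mul_eq := by rw [mul_comm]; exact h.mul_eq
  above R hR := (h.above R hR).symm

theorem IsPair.mem (h : IsPair p P Q) : (p : 𝓞 E) ∈ P.asIdeal := by
  have h1 : (p : 𝓞 E) ∈ P.asIdeal * Q.asIdeal := by
    rw [h.mul_eq]
    exact Ideal.mem_span_singleton_self _
  have h3 : P.asIdeal * Q.asIdeal ≤ P.asIdeal := Ideal.mul_le_left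
  exact h3 h1

theorem IsPair.notMem_sq (h : IsPair p P Q) : (p : 𝓞 E) ∉ P.asIdeal ^ 2 := by
  intro h1
  have h3 : P.asIdeal * Q.asIdeal ≤ P.asIdeal * P.asIdeal := by
    rw [h.mul_eq, Ideal.span_singleton_le_iff_mem, ← pow_two]
    exact h1
  have h4 := Ideal.dvd_iff_le.mpr h3
  have h5 : P.asIdeal ∣ Q.asIdeal := (mul_dvd_mul_iff_left P.ne_bot).mp h4
  have h6 : Q.asIdeal = P.asIdeal :=
    (Q.isPrime.isMaximal Q.ne_bot).eq_of_le P.isPrime.ne_top (Ideal.dvd_iff_le.mp h5)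
  exact h.ne (HeightOneSpectrum.ext h6.symm)

theorem ord_natCast_le_iff (v : HeightOneSpectrum (𝓞 E)) {x : Eˣ} (hx : (x : E) = p) (j : ℕ) :
    (j : ℤ) ≤ ord v x ↔ (p : 𝓞 E) ∈ v.asIdeal ^ j := by
  have e : v.intValuation (p : 𝓞 E) = v.valuation E (x : E) := by
    rw [← HeightOneSpectrum.valuation_of_algebraMap (K := E), hx]
    congr 1
  rw [← HeightOneSpectrum.intValuation_le_pow_iff_mem, e, valuation_eq_exp_neg_ord, exp_le_exp]
  omega

theorem IsPair.ord_eq (h : IsPair p P Q) {x : Eˣ} (hx : (x : E) = p) : ord P x = 1 := by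
  have h1 := (ord_natCast_le_iff P hx 1).mpr (by rw [pow_one]; exact h.mem)
  have h3 := mt (ord_natCast_le_iff P hx 2).mp h.notMem_sq
  push_cast at h1 h3
  omega

theorem ord_eq_zero_of_notMem {v : HeightOneSpectrum (𝓞 E)} {x : Eˣ} (hx : (x : E) = p)
    (h : (p : 𝓞 E) ∉ v.asIdeal) : ord v x = 0 := by
  have h1 := (ord_natCast_le_iff v hx 0).mpr (by rw [pow_zero, Ideal.one_eq_top]; trivial)
  have h3 := mt (ord_natCast_le_iff v hx 1).mp (by rwa [pow_one])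
  push_cast at h1 h3
  omega

theorem IsPair.notMem_pl (h : IsPair p P Q) (hp : p.Prime) (hpN : ¬ p ∣ N) : P ∉ pl E N := by
  intro h1
  exact SAd.natCast_notMem_of_coprime ((Nat.Prime.coprime_iff_not_dvd hp).mpr hpN) (mem_pl.mp h1)
    h.mem

theorem IsPair.rayVal_eq (h : IsPair p P Q) (hp : p.Prime) (hpN : ¬ p ∣ N)
    (ψ : HeightOneSpectrum (𝓞 E) → UnitAddCircle) {x : Eˣ} (hx : (x : E) = p) :
    (rayVal (pl E N) ψ x).toAdd = ψ P + ψ Q := by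
  classical
  rw [toAdd_rayVal_eq_sum (pl E N) {P, Q} ψ x, Finset.sum_pair h.ne,
    if_neg (h.notMem_pl hp hpN), if_neg (h.symm.notMem_pl hp hpN), h.ord_eq hx, h.symm.ord_eq hx,
    one_smul, one_smul]
  intro v hv _
  rw [ord_eq_zero_of_notMem hx, zero_smul]
  intro h1
  apply hv
  rw [Finset.mem_insert, Finset.mem_singleton]
  exact h.above v h1

end Pair

/-! ### The law -/

section Law2

variable {E : Type} [Field E] [NumberField E] [IsTotallyComplex E] [IsGalois ℚ E]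
  (h2 : Module.finrank ℚ E = 2) {c : E ≃ₐ[ℚ] E} (hc : c ≠ 1) {N : ℕ} [NeZero N] {n : ℕ}
  {ψ : HeightOneSpectrum (𝓞 E) → UnitAddCircle} (hψ : IsRay (pl E N) n ψ) {k : ℕ} (hk : n + 1 ≤ k)

theorem good_of {a b c' : ℤ} {p : ℕ} (hp : p.Prime) (hpN : ¬ p ∣ N)
    (hdet : a * p - b * c' = 1) (hcN : (N : ℤ) ^ (2 * k + 2) ∣ c') {u : ℚˣ} (hu : u ∈ RU ℚ N)
    {h : Eˣ} (hh : normU (K := ℚ) E h * u⁻¹ ∈ VN ℚ N 0) :
    Good N k 1 (a : ℚ) (((u⁻¹ : ℚˣ) : ℚ) * b) (c' * (u : ℚ)) (p : ℚ) (h : E) := by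
  have hp0 : (p : ℚ) ≠ 0 := by exact_mod_cast hp.ne_zero
  have hu0 : (u : ℚ) ≠ 0 := u.ne_zero
  have hpc : p.Coprime N := (Nat.Prime.coprime_iff_not_dvd hp).mpr hpN
  have hnorm : ((normU (K := ℚ) E h : ℚˣ) : ℚ) = Algebra.norm ℚ (h : E) := rfl
  have hn0 : Algebra.norm ℚ (h : E) ≠ 0 := Algebra.norm_ne_zero_iff.mpr h.ne_zero
  refine ⟨intCast_mem _ _, (RS ℚ N).mul_mem hu.2 (intCast_mem _ _),
    (RS ℚ N).mul_mem (intCast_mem _ _) hu.1, natCast_mem _ _, ?_, hp0, h.ne_zero, ?_, ?_⟩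
  · rw [Units.val_inv_eq_inv_val]
    have h1 : (a : ℚ) * p - b * c' = 1 := by exact_mod_cast hdet
    rw [← h1]
    field_simp
  · have e : ((u⁻¹ : ℚˣ) : ℚ) * b * Algebra.norm ℚ (h : E) / p =
        (b : ℚ) * ((normU (K := ℚ) E h * u⁻¹ : ℚˣ) : ℚ) * (p : ℚ)⁻¹ := by
      rw [Units.val_mul, hnorm]
      field_simp
    rw [e]
    exact (AS ℚ N).mul_mem ((AS ℚ N).mul_mem (intCast_mem _ _) hh.2.2.1)
      (natCast_inv_mem_AS hp.ne_zero hpc)
  · obtain ⟨r, hr⟩ := hcN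
    refine ⟨(r : ℚ) * p * (((normU (K := ℚ) E h * u⁻¹)⁻¹ : ℚˣ) : ℚ),
      (AS ℚ N).mul_mem ((AS ℚ N).mul_mem (intCast_mem _ _) (natCast_mem _ _)) hh.2.2.2, ?_⟩
    have h1 : (c' : ℚ) = (N : ℚ) ^ (2 * k + 2 * 1) * r := by
      rw [mul_one]
      exact_mod_cast hr
    rw [Units.val_inv_eq_inv_val, Units.val_mul, hnorm, Units.val_inv_eq_inv_val, h1]
    field_simp

theorem mv_dil {a b c' d : ℚ} (h : a * d - b * c' = 1) (u : ℚˣ)
    (h' : a * d - (((u⁻¹ : ℚˣ) : ℚ) * b) * (c' * (u : ℚ)) = 1) (P : Pt) :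
    (Pt.mv a b c' d h P).dil u⁻¹ = Pt.mv a (((u⁻¹ : ℚˣ) : ℚ) * b) (c' * (u : ℚ)) d h' (P.dil u⁻¹) := by
  have hu0 : ((u : ℚ) : ℂ) ≠ 0 := by exact_mod_cast u.ne_zero
  have e : (((c' * (u : ℚ) : ℚ)) : ℂ) * (((((u⁻¹ : ℚˣ) : ℚ)) : ℂ) * P.τ) = (c' : ℂ) * P.τ := by
    rw [Units.val_inv_eq_inv_val]
    push_cast
    field_simp
  ext
  · change ((((u⁻¹ : ℚˣ) : ℚ)) : ℂ) * ((a * P.τ + b) / (c' * P.τ + d)) =
      ((a : ℂ) * (((((u⁻¹ : ℚˣ) : ℚ)) : ℂ) * P.τ) + (((((u⁻¹ : ℚˣ) : ℚ) * b : ℚ)) : ℂ)) /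
        ((((c' * (u : ℚ) : ℚ)) : ℂ) * (((((u⁻¹ : ℚˣ) : ℚ)) : ℂ) * P.τ) + (d : ℂ))
    rw [e]
    push_cast
    ring
  · change ((c' : ℂ) * P.τ + d) * P.u =
      ((((c' * (u : ℚ) : ℚ)) : ℂ) * (((((u⁻¹ : ℚˣ) : ℚ)) : ℂ) * P.τ) + (d : ℂ)) * P.u
    rw [e]

/-- **The law of the family.** -/
theorem FF_mv (hN : 3 ≤ N ^ k) (hdisc : discr E ∣ (N : ℤ))
    (hCl : ClTrivial (above E (pl ℚ N)))
    (he : ∀ w : HeightOneSpectrum (𝓞 E), w ∉ above E (pl ℚ N) →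
      (w.under (𝓞 ℚ)).asIdeal.ramificationIdx' w.asIdeal = 1)
    {p : ℕ} {P Q : HeightOneSpectrum (𝓞 E)} (hp : p.Prime) (hpN : ¬ p ∣ N) (hPQ : IsPair p P Q)
    (hsum : ψ P + ψ Q = 0) {a b c' : ℤ} (hdet : a * p - b * c' = 1)
    (hdet' : (a : ℚ) * (p : ℚ) - (b : ℚ) * (c' : ℚ) = 1)
    (hcN : (N : ℤ) ^ (2 * k + 2) ∣ c') (P₀ : Pt) :
    (datI h2 hc hψ hk).FF 1 (Pt.mv a b c' p hdet' P₀) = (datI h2 hc hψ hk).FF 1 P₀ := by
  set D := datI h2 hc hψ hk with hD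
  have hp0 : (p : ℚ) ≠ 0 := by exact_mod_cast hp.ne_zero
  have hpc : p.Coprime N := (Nat.Prime.coprime_iff_not_dvd hp).mpr hpN
  set d : ℚˣ := Units.mk0 (p : ℚ) hp0 with hd
  have hdV : d ^ 2 ∈ D.VB := by
    refine D.VB.pow_mem (show d ∈ VN ℚ N 0 from ⟨?_, ?_, ?_, ?_⟩) 2
    · rw [pow_zero, inv_one, one_mul, hd, Units.val_mk0]
      exact (AS ℚ N).sub_mem (natCast_mem _ _) (AS ℚ N).one_mem
    · rw [pow_zero, inv_one, one_mul, hd, Units.val_inv_eq_inv_val, Units.val_mk0]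
      exact (AS ℚ N).sub_mem (natCast_inv_mem_AS hp.ne_zero hpc) (AS ℚ N).one_mem
    · rw [hd, Units.val_mk0]
      exact natCast_mem _ _
    · rw [hd, Units.val_inv_eq_inv_val, Units.val_mk0]
      exact natCast_inv_mem_AS hp.ne_zero hpc
  have hη : D.η d = 1 := by
    change eC (-(rayVal (above E (pl ℚ N)) ψ (Psi.up E d)).toAdd) = 1
    rw [above_pl, hPQ.rayVal_eq hp hpN ψ (x := Psi.up E d) (by
      rw [Psi.coe_up, hd, Units.val_mk0, map_natCast]), hsum, neg_zero, eC_zero]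
  have hS := summable_tmI h2 hc hψ hk hCl he
  rw [← D.FF_mul_VB hdV 1 P₀]
  refine D.FF_law fun u hu => ?_
  have huR : u ∈ RU ℚ N := mem_RU_iff.mpr hu
  refine D.TH_law (fun h hh => ?_) (D.summable_fTH_of_tm hS _ _) (D.summable_fTH_of_tm hS _ _)
  have hh' : normU (K := ℚ) E h * u⁻¹ ∈ VN ℚ N 0 := by
    have := hh
    rw [one_mul] at this
    exact this
  have H := good_of (k := k) hp hpN hdet hcN huR hh'
  have e1 : D.act u⁻¹ (Pt.mv a b c' p hdet' P₀) =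
      Pt.mv a (((u⁻¹ : ℚˣ) : ℚ) * b) (c' * (u : ℚ)) p H.det (D.act u⁻¹ P₀) :=
    mv_dil hdet' u H.det P₀
  have e2 : ((h * (D.ι d)⁻¹ : Eˣ) : E) = (h : E) / (p : E) := by
    rw [Units.val_mul, Units.val_inv_eq_inv_val, div_eq_mul_inv]
    have : ((D.ι d : Eˣ) : E) = (p : E) := by
      change ((Psi.up E d : Eˣ) : E) = _
      rw [Psi.coe_up, hd, Units.val_mk0, map_natCast]
    rw [this]
  have e3 : D.s d = 1 := rfl
  rw [hη, e3, e1, hD, G_eq_tsum h2 hc hψ hk hN, G_eq_tsum h2 hc hψ hk hN, ← hD,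
    (law_split h2 hdisc hp hpN hPQ H (D.act u⁻¹ P₀)).2, e2]
  push_cast
  ring

end Law2

end Fermat.Agent.Classic.Dih
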