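import Fermat.Agent.Classic.Dihedral.Assembly
import Fermat.Agent.Classic.EndAll
import Fermat.Agent.Classic.GroupB
import Fermat.Agent.Classic.Main

/-!
# The conclusion of S47 for dihedral images, and residual modularity of every `W` with irreducible
mod 3 representation, from the pieces
-/

set_option autoImplicit false

open CongruenceSubgroup UpperHalfPlane WeierstrassCurve FLT.ExplicitLift
open scoped MatrixGroups ModularForm
local notation "Γℚ" => (AlgebraicClosure ℚ ≃ₐ[ℚ] AlgebraicClosure ℚ)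

namespace Fermat.Agent.Classic.Dih

open Fermat.Agent.LT.End

/-- **DI5** -/
def NegStmt : Prop :=
  ∀ (ρ : Γℚ →* GL (Fin 2) (ZMod 3)), Continuous ρ → ∀ g h : Γℚ,
    ρ (g * h * g⁻¹ * h⁻¹) = -1 → NegInput ρ

/-- **DI7** (helper42): the dihedral group of order 8. -/
def PsiD4Stmt : Prop :=
  ∀ (ρ : Γℚ →* GL (Fin 2) (ZMod 3)), Continuous ρ →
    (∀ σ : Γℚ, Matrix.GeneralLinearGroup.det (ρ σ) = modThreeCyclotomicChar σ) →
    ρ.range = D4 → ρ complexConjugation = sw → PsiInput ρ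

/-- **DI9** (helper54): the semidihedral group of order 16. -/
def PsiSDStmt : Prop :=
  ∀ (ρ : Γℚ →* GL (Fin 2) (ZMod 3)), Continuous ρ →
    (∀ σ : Γℚ, Matrix.GeneralLinearGroup.det (ρ σ) = modThreeCyclotomicChar σ) →
    ρ.range = SD16 → PsiInput ρ

section Conj

variable (ρ : Γℚ →* GL (Fin 2) (ZMod 3)) (x : GL (Fin 2) (ZMod 3))

/-- The conjugate of `ρ` by `x`. -/
noncomputable def conjRep : Γℚ →* GL (Fin 2) (ZMod 3) := (MulAut.conj x).toMonoidHom.comp ρ

theorem conjRep_apply (σ : Γℚ) : conjRep ρ x σ = x * ρ σ * x⁻¹ := rfl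

theorem conjRep_eq_one {σ : Γℚ} : conjRep ρ x σ = 1 ↔ ρ σ = 1 := by
  rw [conjRep_apply, mul_inv_eq_one]
  exact ⟨fun h => mul_left_cancel (h.trans (mul_one x).symm), fun h => by rw [h, mul_one]⟩

theorem conjRep_eq_neg_one {σ : Γℚ} : conjRep ρ x σ = -1 ↔ ρ σ = -1 := by
  rw [conjRep_apply, mul_inv_eq_iff_eq_mul, neg_one_mul]
  refine ⟨fun h => mul_left_cancel (h.trans ?_), fun h => by rw [h, mul_neg_one]⟩
  rw [mul_neg_one]

theorem continuous_conjRep (h : Continuous ρ) : Continuous (conjRep ρ x) := by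
  change Continuous fun σ => x * ρ σ * x⁻¹
  exact (continuous_const.mul h).mul continuous_const

theorem det_conjRep (σ : Γℚ) : Matrix.GeneralLinearGroup.det (conjRep ρ x σ) =
    Matrix.GeneralLinearGroup.det (ρ σ) := by
  rw [conjRep_apply, map_mul, map_mul, map_inv, mul_comm, inv_mul_cancel_left]

theorem psiInput_of_conj (h : PsiInput (conjRep ρ x)) : PsiInput ρ := by
  obtain ⟨E, i1, i2, i3, h2, S, n, ψ, hψ, B, hB⟩ := h
  refine ⟨E, i1, i2, i3, h2, S, n, ψ, hψ, B, fun p hp hpB A hA σ hσ P hP => ?_⟩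
  have h1 := hB p hp hpB A hA σ hσ P hP
  rw [conjRep_eq_one, conjRep_eq_neg_one] at h1
  exact h1

theorem range_conjRep {H : Subgroup (GL (Fin 2) (ZMod 3))}
    (h : ∀ g, g ∈ ρ.range ↔ x * g * x⁻¹ ∈ H) : (conjRep ρ x).range = H := by
  ext g
  constructor
  · rintro ⟨σ, rfl⟩
    exact (h _).mp ⟨σ, rfl⟩
  · intro hg
    obtain ⟨σ, hσ⟩ := (h (x⁻¹ * g * x)).mpr (by
      rw [show x * (x⁻¹ * g * x) * x⁻¹ = g by group]
      exact hg)
    exact ⟨σ, by rw [conjRep_apply, hσ]; group⟩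

end Conj

/-- **Target (D)**, from the pieces: the weight one form for dihedral images. -/
theorem wtOneInput_of_noInvLine (hInv : InvStmt) (hCoef : CoefStmt) (hAna : AnaStmt)
    (hCusp : CuspStmt) (hNeg : NegStmt) (hD : PsiD4Stmt) (hSD : PsiSDStmt)
    (ρ : Γℚ →* GL (Fin 2) (ZMod 3)) (hρ : Continuous ρ)
    (hdet : ∀ σ : Γℚ, Matrix.GeneralLinearGroup.det (ρ σ) = modThreeCyclotomicChar σ)
    (hirr : NoInvLine ρ.range) (hns : ¬ Function.Surjective ρ) : WtOneInput ρ := by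
  have hcc : ρ complexConjugation * ρ complexConjugation = 1 := by
    rw [← map_mul, complexConjugation_mul_self, map_one]
  have hN : NegInput ρ := by
    obtain ⟨_, ⟨g, rfl⟩, _, ⟨h, rfl⟩, hgh⟩ :=
      exists_commutator_of_noInvLine hirr (c := ρ complexConjugation) ⟨_, rfl⟩ hcc (det_cc ρ hdet)
    exact hNeg ρ hρ g h (by rw [map_mul, map_mul, map_mul, map_inv, map_inv]; exact hgh)
  have key : ∀ (hP : PsiInput ρ), WtOneInput ρ := fun hP =>
    wtOneInput_of hInv hCoef hAna hCusp ρ hP hN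
  rcases trichotomy hirr (c := ρ complexConjugation) ⟨_, rfl⟩ hcc (det_cc ρ hdet) with
    h | ⟨x, hx, -⟩ | ⟨x, hx, hc⟩
  · exact absurd (MonoidHom.range_eq_top.mp h) hns
  · refine key (psiInput_of_conj ρ x ?_)
    exact hSD _ (continuous_conjRep ρ x hρ) (fun σ => by rw [det_conjRep, hdet])
      (range_conjRep ρ x hx)
  · refine key (psiInput_of_conj ρ x ?_)
    exact hD _ (continuous_conjRep ρ x hρ) (fun σ => by rw [det_conjRep, hdet])
      (range_conjRep ρ x hx) hc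

/-- **S47 without surjectivity**: the conclusion of S47 for every continuous `ρ` with cyclotomic
determinant and without invariant line. -/
theorem concl47_of_pieces (hInv : InvStmt) (hCoef : CoefStmt) (hAna : AnaStmt)
    (hCusp : CuspStmt) (hNeg : NegStmt) (hD : PsiD4Stmt) (hSD : PsiSDStmt)
    (ρ : Γℚ →* GL (Fin 2) (ZMod 3)) (hρ : Continuous ρ)
    (hdet : ∀ σ : Γℚ, Matrix.GeneralLinearGroup.det (ρ σ) = modThreeCyclotomicChar σ)
    (hirr : NoInvLine ρ.range)
    (Ψ : GL (Fin 2) (ZMod 3) →* GL (Fin 2) (ℤ√(-2)))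
    (hΨ : ∀ g, Matrix.GeneralLinearGroup.map red (Ψ g) = g) : Concl47 ρ Ψ := by
  by_cases hs : Function.Surjective ρ
  · exact Fermat.Agent.S47.result ρ hρ hs hdet Ψ hΨ
  · exact concl47_of_noInvLine ρ hdet hρ hirr Ψ hΨ
      (wtOneInput_of_noInvLine hInv hCoef hAna hCusp hNeg hD hSD ρ hρ hdet hirr hs)

/-- **T3**, from the pieces. -/
theorem isResiduallyModular_of_pieces (hInv : InvStmt) (hCoef : CoefStmt) (hAna : AnaStmt)
    (hCusp : CuspStmt) (hNeg : NegStmt) (hD : PsiD4Stmt) (hSD : PsiSDStmt)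
    {W : WeierstrassCurve ℤ} (hΔ : W.Δ ≠ 0) (h3 : W.ModRepIsIrreducible 3) :
    W.IsResiduallyModular 3 :=
  isResiduallyModular_of_concl hΔ map_red_secHom
    (concl47_of_pieces hInv hCoef hAna hCusp hNeg hD hSD (rep3 hΔ) (continuous_repP 3 hΔ)
      (det_rep3 hΔ) ((noInvLine_range_iff 3 hΔ).mp h3) secHom map_red_secHom)

end Fermat.Agent.Classic.Dih
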