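import Fermat.Agent.Classic.Oct
import Fermat.Agent.LT.Tower.Sys

/-!
# The fields attached to a representation with image `SD16`

`F ⊂ E ⊂ M ⊂ M(√d)`: the fixed fields of `𝔽₉ˣ ⊃ C₄ ⊃ {±1} ⊃ 1`.
-/

set_option autoImplicit false

namespace Fermat.Agent.Classic.Dih

open NumberField IsDedekindDomain Fermat.Agent.Frob
open Fermat.Agent.LT.Psi (QuatCond galU)
open Fermat.Agent.CFT.Global

local notation "Qbar" => AlgebraicClosure ℚ
local notation "G3" => Matrix.GeneralLinearGroup (Fin 2) (ZMod 3)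

/-- The tower of fields attached to `ρ`. -/
structure OctFields (ρ : GQ →* G3) : Type 1 where
  /-- imaginary quadratic, fixed by `ρ⁻¹(𝔽₉ˣ)` -/
  F : Type
  /-- fixed by `ρ⁻¹(C₄)` -/
  E : Type
  /-- fixed by `ρ⁻¹{±1}` -/
  M : Type
  [fF : Field F]
  [fE : Field E]
  [fM : Field M]
  [nF : NumberField F]
  [nE : NumberField E]
  [nM : NumberField M]
  [aFE : Algebra F E]
  [aEM : Algebra E M]
  [aFM : Algebra F M]
  [tFEM : IsScalarTower F E M]
  [tcF : IsTotallyComplex F]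
  /-- everything is embedded in `ℚ̄` -/
  i : M →+* Qbar
  finrank_F : Module.finrank ℚ F = 2
  /-- the generator of `Gal(M/E)` -/
  σ : M ≃ₐ[E] M
  /-- the generator of `Gal(M/F)` -/
  τ : M ≃ₐ[F] M
  /-- the generator of `Gal(E/F)` -/
  c : E ≃ₐ[F] E
  /-- `E = F(√a)` -/
  a : Fˣ
  /-- `M = E(√b)` -/
  b : Eˣ
  /-- `√a` -/
  α : E
  /-- `√b` -/
  β : M
  /-- the fixed field of `ker ρ` is `M(√d)` -/
  d : Mˣ
  finrank_FE : Module.finrank F E = 2
  finrank_EM : Module.finrank E M = 2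
  galois_FE : IsGalois F E
  galois_EM : IsGalois E M
  sq_α : α ^ 2 = algebraMap F E a
  sq_β : β ^ 2 = algebraMap E M b
  c_α : c α = -α
  σ_β : σ β = -β
  τ_α : ∀ x : E, τ (algebraMap E M x) = algebraMap E M (c x)
  τ_τ : ∀ x, τ (τ x) = σ x
  quat_σ : QuatCond σ d
  sq_τ : ∃ e : Mˣ, d * galU τ d = e ^ 2
  /-- `√d` -/
  δ : Qbar
  δ_sq : δ ^ 2 = i (d : M)
  fix_M : ∀ g : GQ, (∀ x : M, g (i x) = i x) ↔ (ρ g = 1 ∨ ρ g = -1)
  fix_δ : ∀ g : GQ, (ρ g = 1 ∨ ρ g = -1) → (g δ = δ ↔ ρ g = 1)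

attribute [instance] OctFields.fF OctFields.fE OctFields.fM OctFields.nF OctFields.nE OctFields.nM
  OctFields.aFE OctFields.aEM OctFields.aFM OctFields.tFEM OctFields.tcF

end Fermat.Agent.Classic.Dih
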