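import Fermat.Agent.Classic.Dihedral.Defs

/-!
# Split primes in a quadratic field
-/

set_option autoImplicit false

open IsDedekindDomain NumberField

namespace Fermat.Agent.Classic.Dih

variable {E : Type} [Field E] [NumberField E]

/-- An unramified prime `p` such that all places above `p` have norm `p` is split. -/
theorem exists_isPair (h2 : Module.finrank ℚ E = 2) {p : ℕ} (hp : p.Prime)
    (hd : ¬ (p : ℤ) ∣ NumberField.discr E)
    (h : ∀ P : HeightOneSpectrum (𝓞 E), (p : 𝓞 E) ∈ P.asIdeal → Ideal.absNorm P.asIdeal = p) :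
    ∃ P Q : HeightOneSpectrum (𝓞 E), IsPair p P Q := by
  have hp0 : (p : 𝓞 E) ≠ 0 := by exact_mod_cast hp.ne_zero
  have hspan0 : Ideal.span {(p : 𝓞 E)} ≠ ⊥ := by
    rw [Ne, Ideal.span_singleton_eq_bot]
    exact hp0
  have hnorm : Ideal.absNorm (Ideal.span {(p : 𝓞 E)}) = p ^ 2 := by
    rw [Ideal.absNorm_span_natCast, RingOfIntegers.rank, h2]
  have hne : Ideal.span {(p : 𝓞 E)} ≠ ⊤ := by
    intro h1
    rw [h1, Ideal.absNorm_top] at hnorm
    have := hp.one_lt
    nlinarith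
  obtain ⟨M, hM, hle⟩ := Ideal.exists_le_maximal _ hne
  have hM0 : M ≠ ⊥ := fun h1 => hspan0 (le_bot_iff.mp (h1 ▸ hle))
  let P : HeightOneSpectrum (𝓞 E) := ⟨M, hM.isPrime, hM0⟩
  have hP : (p : 𝓞 E) ∈ P.asIdeal := hle (Ideal.mem_span_singleton_self _)
  have hPn : Ideal.absNorm P.asIdeal = p := h P hP
  obtain ⟨J, hJ⟩ : P.asIdeal ∣ Ideal.span {(p : 𝓞 E)} := Ideal.dvd_iff_le.mpr hle
  have hJn : Ideal.absNorm J = p := by
    have h1 := congrArg Ideal.absNorm hJ
    rw [map_mul, hPn, hnorm, pow_two] at h1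
    exact (mul_left_cancel₀ hp.ne_zero h1).symm
  have hJp : J.IsPrime := Ideal.isPrime_of_irreducible_absNorm (by rw [hJn]; exact hp)
  have hJ0 : J ≠ ⊥ := by
    rintro rfl
    rw [Ideal.absNorm_bot] at hJn
    exact hp.ne_zero hJn.symm
  let Q : HeightOneSpectrum (𝓞 E) := ⟨J, hJp, hJ0⟩
  refine ⟨P, Q, ⟨?_, hPn, hJn, hJ.symm, ?_⟩⟩
  · intro hPQ
    have h1 : P.asIdeal ^ 2 ∣ (Ideal.span {(p : ℤ)}).map (algebraMap ℤ (𝓞 E)) := by
      rw [Ideal.map_span, Set.image_singleton, eq_intCast, Int.cast_natCast, hJ, pow_two]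
      have h2 : P.asIdeal = J := congrArg HeightOneSpectrum.asIdeal hPQ
      rw [← h2]
    have hpZ : Prime (p : ℤ) := Nat.prime_iff_prime_int.mp hp
    have hmax : (Ideal.span {(p : ℤ)}).IsMaximal :=
      PrincipalIdealRing.isMaximal_of_irreducible hpZ.irreducible
    have h3 := pow_sub_one_dvd_differentIdeal ℤ P.asIdeal 2
      (p := Ideal.span {(p : ℤ)}) (by rw [Ne, Ideal.span_singleton_eq_bot]; exact hpZ.ne_zero) h1
    rw [show 2 - 1 = 1 from rfl, pow_one] at h3
    have h4 := Ideal.absNorm_dvd_absNorm_of_le (Ideal.dvd_iff_le.mp h3)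
    rw [hPn, NumberField.absNorm_differentIdeal E] at h4
    exact hd (Int.natCast_dvd.mpr h4)
  · intro R hR
    have h1 : P.asIdeal * J ≤ R.asIdeal := by
      rw [← hJ, Ideal.span_singleton_le_iff_mem]
      exact hR
    rcases (R.isPrime.mul_le).mp h1 with h2 | h2
    · left
      exact HeightOneSpectrum.ext (hM.eq_of_le R.isPrime.ne_top h2).symm
    · right
      have hJm : J.IsMaximal := hJp.isMaximal hJ0
      exact HeightOneSpectrum.ext (hJm.eq_of_le R.isPrime.ne_top h2).symm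

end Fermat.Agent.Classic.Dih
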