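import Fermat.Agent.Classic.Dihedral.DatI
import Fermat.Agent.LT.B11.Ana
import Fermat.Agent.LT.Tower.Good

/-!
# Convergence of the theta series (CL11, DI1)
-/

set_option autoImplicit false
set_option linter.unusedSectionVars false

noncomputable section

open IsDedekindDomain NumberField WithZero

namespace Fermat.Agent.Classic.Dih

open Fermat.Agent.CFT.SUnits (ord ord_one ord_mul ord_inv ord_pow ord_div ord_eq_zero_iff
  valuation_eq_exp_neg_ord finite_ord_ne_zero div div_apply)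
open Fermat.Agent.CFT.Places
open Fermat.Agent.CFT.Global (mem_E above mem_above normU ClTrivial cong mem_cong)
open Fermat.Agent.LT Fermat.Agent.LT.B11 Fermat.Agent.LT.SAd
open Fermat.Agent.LT.Psi (galU coe_up coe_galU up_normU)

theorem norm_Wq_le (P : Pt) (ξ : ℚ) :
    ‖Wq P ξ‖ ≤ ‖P.u‖⁻¹ * Real.exp (-(2 * Real.pi * |P.τ.im|) * |(ξ : ℝ)|) := by
  unfold Wq
  split_ifs with h
  · rw [norm_mul, norm_inv, Complex.norm_exp]
    refine mul_le_mul_of_nonneg_left (Real.exp_le_exp.mpr (le_of_eq ?_))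
      (inv_nonneg.mpr (norm_nonneg _))
    have e : (2 * Real.pi * Complex.I * P.τ * ξ : ℂ) =
        ((2 * Real.pi * ξ : ℝ) : ℂ) * (Complex.I * P.τ) := by
      push_cast; ring
    rw [e, Complex.re_ofReal_mul, Complex.I_mul_re]
    have h1 : |P.τ.im| * |(ξ : ℝ)| = ξ * P.τ.im := by
      rw [← abs_mul, mul_comm, abs_of_pos h]
    linear_combination (2 * Real.pi) * h1
  · rw [norm_zero]
    positivity

/-- the majorant -/
def maj (b : ℝ) (m : ℤ) : ℝ := |(m : ℝ)| * Real.exp (-b * |(m : ℝ)|)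

theorem summable_maj {b : ℝ} (hb : 0 < b) : Summable (maj b) := by
  have h1 : Summable fun n : ℕ => maj b n := by
    refine (Real.summable_pow_mul_exp_neg_nat_mul 1 hb).congr fun n => ?_
    unfold maj
    rw [pow_one, Int.cast_natCast, Nat.abs_cast]
  have h3 : Summable fun n : ℕ => maj b (-n) := by
    refine h1.congr fun n => ?_
    unfold maj
    push_cast
    rw [abs_neg]
  exact Summable.of_nat_of_neg h1 h3

theorem maj_nonneg (b : ℝ) (m : ℤ) : 0 ≤ maj b m := by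
  unfold maj
  positivity

theorem summable_of_mass {ι : Type*} {ξ : ι → ℚ} {c : ι → ℂ} {N₁ : ℕ} (hN₁ : N₁ ≠ 0) {C : ℝ}
    (hC : 0 ≤ C) (hint : ∀ i, c i ≠ 0 → ∃ m : ℤ, (N₁ : ℚ) * ξ i = m)
    (hmass : ∀ (a : ℚ) (s : Finset ι), (∀ i ∈ s, ξ i = a) → ∑ i ∈ s, ‖c i‖ ≤ C * |(a : ℝ)|)
    (P : Pt) : Summable (fun i => c i * Wq P (ξ i)) := by
  classical
  have hN₁' : (0 : ℝ) < N₁ := by exact_mod_cast Nat.pos_of_ne_zero hN₁
  set b : ℝ := 2 * Real.pi * |P.τ.im| / N₁ with hb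
  have hb0 : 0 < b := by
    have := abs_pos.mpr P.hτ
    have := Real.pi_pos
    positivity
  set K : ℝ := C / N₁ * ‖P.u‖⁻¹ with hK
  have hK0 : 0 ≤ K := by positivity
  have hmaj := (summable_maj hb0).mul_left K
  refine Summable.of_norm (summable_of_sum_le (c := ∑' m : ℤ, K * maj b m)
    (fun _ => norm_nonneg _) fun s => ?_)
  set f : ι → ℤ := fun i => if h : c i ≠ 0 then Classical.choose (hint i h) else 0 with hf
  have hf' : ∀ i, c i ≠ 0 → ξ i = (f i : ℚ) / N₁ := by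
    intro i hi
    have h1 := Classical.choose_spec (hint i hi)
    have h3 : f i = Classical.choose (hint i hi) := dif_pos hi
    rw [h3, eq_div_iff (by exact_mod_cast hN₁), mul_comm]
    exact h1
  rw [← Finset.sum_fiberwise_of_maps_to (t := s.image f) (g := f)
    (fun i hi => Finset.mem_image_of_mem f hi)]
  refine le_trans (Finset.sum_le_sum fun m _ => ?_)
    (hmaj.sum_le_tsum (s.image f) fun m _ => mul_nonneg hK0 (maj_nonneg b m))
  have e1 : ∑ i ∈ s.filter (fun i => f i = m), ‖c i * Wq P (ξ i)‖ =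
      ∑ i ∈ (s.filter (fun i => f i = m)).filter (fun i => c i ≠ 0),
        ‖c i‖ * ‖Wq P ((m : ℚ) / N₁)‖ := by
    rw [Finset.sum_filter (p := fun i => c i ≠ 0)]
    refine Finset.sum_congr rfl fun i hi => ?_
    rw [Finset.mem_filter] at hi
    split_ifs with h
    · rw [hf' i h, hi.2, norm_mul]
    · rw [not_not] at h
      rw [h, zero_mul, norm_zero]
  rw [e1, ← Finset.sum_mul]
  have h3 := hmass ((m : ℚ) / N₁) ((s.filter (fun i => f i = m)).filter (fun i => c i ≠ 0)) (by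
    intro i hi
    rw [Finset.mem_filter, Finset.mem_filter] at hi
    rw [hf' i hi.2, hi.1.2])
  have h4 := norm_Wq_le P ((m : ℚ) / N₁)
  have e3 : |(((m : ℚ) / N₁ : ℚ) : ℝ)| = |(m : ℝ)| / N₁ := by
    push_cast
    rw [abs_div, abs_of_pos hN₁']
  rw [e3] at h3 h4
  calc _ ≤ (C * (|(m : ℝ)| / N₁)) * (‖P.u‖⁻¹ * Real.exp (-(2 * Real.pi * |P.τ.im|) *
        (|(m : ℝ)| / N₁))) := mul_le_mul h3 h4 (norm_nonneg _) (by positivity)
    _ = K * maj b m := by
        unfold maj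
        rw [hK, hb]
        have : -(2 * Real.pi * |P.τ.im|) * (|(m : ℝ)| / N₁) =
          -(2 * Real.pi * |P.τ.im| / N₁) * |(m : ℝ)| := by ring
        rw [this]
        ring

/-! ### Mass -/

section Mass

variable {E : Type} [Field E] [NumberField E] [IsGalois ℚ E] (h2 : Module.finrank ℚ E = 2)
  {c : E ≃ₐ[ℚ] E} (hc : c ≠ 1) {N : ℕ} [NeZero N]

include h2 hc in
/-- **The mass bound.** -/
theorem Dat_mass' {X : Type*} (hCl : ClTrivial (above E (pl ℚ N)))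
    (he : ∀ w : HeightOneSpectrum (𝓞 E), w ∉ above E (pl ℚ N) →
      (w.under (𝓞 ℚ)).asIdeal.ramificationIdx' w.asIdeal = 1)
    (D : Dat Eˣ ℚˣ X) (hq : D.q = normU E)
    (hOp : ∀ x, x ∈ D.Op ↔ ∀ w ∉ above E (pl ℚ N), 0 ≤ ord w x)
    (hEA : D.EA = CFT.Global.E (above E (pl ℚ N))) (hEB : D.EB = CFT.Global.E (pl ℚ N))
    (hn : ∀ x, ‖D.ψ x‖ ≤ 1) (hVB : ∀ b ∈ D.VB, ∀ v ∈ pl ℚ N, ord v b = 0) (δ : ℚˣ) :
    ∃ C : ℝ, 0 ≤ C ∧ ∀ a : ℚˣ, a * δ ∈ D.VB → ∀ s : Finset D.Idx, (∀ p ∈ s, D.xi p = a) →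
      ∑ p ∈ s, ‖D.cf p‖ ≤ C * |((a : ℚ) : ℝ)| := by
  classical
  set S := pl ℚ N with hS'
  refine ⟨∏ v ∈ S, (v.asIdeal.absNorm : ℝ) ^ (ord v δ),
    Finset.prod_nonneg fun v _ => by positivity, fun a ha s hs => ?_⟩
  have hord : ∀ v ∈ S, -ord v a = ord v δ := by
    intro v hv
    have := hVB _ ha v hv
    rw [ord_mul] at this
    omega
  have hprod : ∏ v ∈ S, (v.asIdeal.absNorm : ℝ) ^ (ord v δ) =
      ∏ v ∈ S, (v.asIdeal.absNorm : ℝ) ^ (-ord v a) :=
    Finset.prod_congr rfl (fun v hv => by rw [hord v hv])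
  rw [hprod, mul_comm]
  by_cases hint : ∀ v ∉ S, 0 ≤ ord v a
  swap
  · have h0 : ∀ p ∈ s, ‖D.cf p‖ = 0 := by
      intro p hp
      rw [Dat.cf, if_neg, norm_zero]
      intro hO
      apply hint
      intro v hv
      exact (Coef.good_out D hq hOp hEB (⟨p, hs p hp, hO⟩ : Coef.Fib D a)).ord_nonneg h2 hc he hv
    rw [Finset.sum_eq_zero h0]
    have : ∀ v ∈ S, (0 : ℝ) ≤ (v.asIdeal.absNorm : ℝ) ^ (-ord v a) := fun v _ => by positivity
    exact mul_nonneg (by positivity) (Finset.prod_nonneg this)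
  have h0 := Coef.prod_supp_le (S := S) hint
  have e0 : ∀ inst : Algebra ℚ ℚ, ((|@Algebra.norm ℚ ℚ _ _ inst ((a : ℚˣ) : ℚ)| : ℚ) : ℝ) =
      |((a : ℚ) : ℝ)| := by
    intro inst
    rw [Subsingleton.elim inst (Algebra.id ℚ), Algebra.norm_self, MonoidHom.id_apply]
    push_cast
    rfl
  rw [e0] at h0
  refine le_trans ?_ h0
  set ψ' : HeightOneSpectrum (𝓞 E) → ZMod 4 := fun w => if conj c w = w then 2 else 0 with hψ'
  obtain ⟨hfin, hcard⟩ := Coef.card_fib h2 hc hCl he Coef.chi4 ψ' (by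
    intro w _ hw
    have h1 : conj c (conj c w) ≠ conj c w := by
      rw [Psi.conj_conj h2 hc]
      exact hw.symm
    rw [hψ']
    beta_reduce
    rw [if_neg hw, if_neg h1, add_zero]) (by
    intro w _ hw
    rw [hψ']
    beta_reduce
    rw [if_pos hw, Coef.chi4_apply, Psi.ip_two]) D hq hOp hEA hEB a
  refine le_trans ?_ (Nat.cast_le.mpr hcard)
  have h1 : ∑ p ∈ s, ‖D.cf p‖ ≤ ∑ p ∈ s.filter (fun p => p.2.out ∈ D.Op), (1 : ℝ) := by
    rw [Finset.sum_filter]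
    refine Finset.sum_le_sum fun p _ => ?_
    rw [Dat.cf]
    split_ifs
    · exact hn _
    · rw [norm_zero]
  refine h1.trans ?_
  rw [Finset.sum_const, nsmul_eq_mul, mul_one, Nat.cast_le]
  have : Fintype (Coef.Fib D a) := Fintype.ofFinite _
  rw [Nat.card_eq_fintype_card, ← Fintype.card_coe]
  refine Fintype.card_le_of_injective
    (fun p : {p // p ∈ s.filter (fun p => p.2.out ∈ D.Op)} =>
      (⟨p.1, hs p.1 (Finset.mem_filter.mp p.2).1, (Finset.mem_filter.mp p.2).2⟩ : Coef.Fib D a)) ?_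
  intro p p' h
  exact Subtype.ext (congrArg (fun q : Coef.Fib D a => q.1) h)

end Mass

/-! ### The instance -/

section Inst

variable {E : Type} [Field E] [NumberField E] [IsGalois ℚ E] (h2 : Module.finrank ℚ E = 2)
  {c : E ≃ₐ[ℚ] E} (hc : c ≠ 1) {N : ℕ} [NeZero N] {n : ℕ}
  {ψ : HeightOneSpectrum (𝓞 E) → UnitAddCircle} (hψ : IsRay (pl E N) n ψ) {k : ℕ} (hk : n + 1 ≤ k)

theorem datI_Op (x : Eˣ) : x ∈ (datI h2 hc hψ hk).Op ↔ ∀ w ∉ above E (pl ℚ N), 0 ≤ ord w x := by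
  have e : x ∈ (datI h2 hc hψ hk).Op ↔ (x : E) ∈ RS E N := Iff.rfl
  rw [e, mem_RS_iff_ord]
  refine forall_congr' fun w => ?_
  rw [mem_pl_above, mem_pl]

include h2 hc in
theorem normU_mem_RS_I {x : Eˣ} (hx : (x : E) ∈ RS E N) : (normU (K := ℚ) E x : ℚ) ∈ RS ℚ N := by
  refine mem_RS_of_map (E := E) ?_
  rw [map_normU h2 hc]
  exact (RS E N).mul_mem hx (conj_mem_RS c hx)

theorem xi_mem_RS {p : (datI h2 hc hψ hk).Idx} (hp : p.2.out ∈ (datI h2 hc hψ hk).Op) :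
    (((datI h2 hc hψ hk).xi p : ℚˣ) : ℚ) ∈ RS ℚ N := by
  have h3 : ((normU (K := ℚ) E p.2.out : ℚˣ) : ℚ) ∈ RS ℚ N := normU_mem_RS_I h2 hc hp
  have h4 : ((p.1.out : (datI h2 hc hψ hk).EB) : ℚˣ) ∈ RU ℚ N :=
    mem_RU_iff.mpr (p.1.out : (datI h2 hc hψ hk).EB).2
  have h5 : (((datI h2 hc hψ hk).xi p : ℚˣ) : ℚ) = ((normU (K := ℚ) E p.2.out : ℚˣ) : ℚ) *
      ((((p.1.out : (datI h2 hc hψ hk).EB) : ℚˣ)⁻¹ : ℚˣ) : ℚ) := rfl
  rw [h5]
  exact (RS ℚ N).mul_mem h3 h4.2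

theorem summable_tmI (hCl : ClTrivial (above E (pl ℚ N)))
    (he : ∀ w : HeightOneSpectrum (𝓞 E), w ∉ above E (pl ℚ N) →
      (w.under (𝓞 ℚ)).asIdeal.ramificationIdx' w.asIdeal = 1) (δ : ℚˣ) (P : Pt) :
    Summable ((datI h2 hc hψ hk).tm δ P) := by
  classical
  set D := datI h2 hc hψ hk with hD
  obtain ⟨C, hC, hmass⟩ := Dat_mass' h2 hc hCl he D rfl (datI_Op h2 hc hψ hk) rfl rfl
    (fun x => (norm_eC _).le) (fun b hb v hv => ord_eq_zero_of_mem_VN hb (mem_pl.mp hv)) δ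
  obtain ⟨N₁, hN₁, hint⟩ := exists_integral (F := ℚ) N δ
  set cd : D.Idx → ℂ := fun p => if D.xi p * δ ∈ D.VB then D.cf p else 0 with hcd
  have h1 := summable_of_mass (ξ := fun p : D.Idx => ((D.xi p : ℚˣ) : ℚ)) (c := cd) hN₁ hC ?_ ?_ P
  · refine h1.congr fun p => ?_
    rw [hcd]
    beta_reduce
    unfold Dat.tm
    split_ifs
    · rfl
    · rw [zero_mul]
  · intro p hp
    rw [hcd] at hp
    beta_reduce at hp
    split_ifs at hp with hV
    · have hO : p.2.out ∈ D.Op := by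
        by_contra h
        exact hp (if_neg h)
      obtain ⟨m, hm⟩ := isIntegral_rat (hint _ (xi_mem_RS h2 hc hψ hk hO) (by
        have h3 : D.xi p * δ ∈ VN ℚ N 0 := hV
        exact h3.2.2.1))
      exact ⟨m, hm.symm⟩
    · exact absurd rfl hp
  · intro a s hs
    rcases s.eq_empty_or_nonempty with rfl | ⟨i, hi⟩
    · rw [Finset.sum_empty]
      positivity
    · have hs' : ∀ p ∈ s, D.xi p = D.xi i := fun p hp => Units.ext ((hs p hp).trans (hs i hi).symm)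
      by_cases hV : D.xi i * δ ∈ D.VB
      · have h3 : ∑ p ∈ s, ‖cd p‖ = ∑ p ∈ s, ‖D.cf p‖ := by
          refine Finset.sum_congr rfl fun p hp => ?_
          rw [hcd]
          beta_reduce
          rw [hs' p hp, if_pos hV]
        rw [h3, ← hs i hi]
        exact hmass _ hV s hs'
      · have h3 : ∑ p ∈ s, ‖cd p‖ = 0 := by
          refine Finset.sum_eq_zero fun p hp => ?_
          rw [hcd]
          beta_reduce
          rw [hs' p hp, if_neg hV, norm_zero]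
        rw [h3]
        positivity

end Inst

/-! ### Unramified outside `N` -/

section Unr

variable {E : Type} [Field E] [NumberField E] [IsGalois ℚ E] (h2 : Module.finrank ℚ E = 2)
  {c : E ≃ₐ[ℚ] E} (hc : c ≠ 1)

include h2 hc in
theorem exists_unr : ∃ m : ℕ, m ≠ 0 ∧ ∀ (N : ℕ) [NeZero N], m ∣ N →
    ∀ w : HeightOneSpectrum (𝓞 E), w ∉ above E (pl ℚ N) →
      (w.under (𝓞 ℚ)).asIdeal.ramificationIdx' w.asIdeal = 1 := by
  obtain ⟨x, hx⟩ : ∃ x : E, c x ≠ x := by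
    by_contra h
    push Not at h
    exact hc (AlgEquiv.ext h)
  have hcc : c (c x) = x := CFT.Global2.Unr.apply_apply h2 hc x
  set α : E := x - c x with hα
  have hα0 : α ≠ 0 := fun h => hx (sub_eq_zero.mp h).symm
  have hcα : c α = -α := by rw [hα, map_sub, hcc]; ring
  have hn0 : Algebra.norm ℚ α ≠ 0 := Algebra.norm_ne_zero_iff.mpr hα0
  set a : ℚˣ := Units.mk0 (-Algebra.norm ℚ α) (neg_ne_zero.mpr hn0) with ha
  have hsq : α ^ 2 = algebraMap ℚ E (a : ℚ) := by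
    rw [ha, Units.val_mk0, map_neg, CFT.Global2.Unr.norm_eq_mul h2 hc, hcα]
    ring
  obtain ⟨m, hm, h⟩ := Tower.exists_mem_E_SN a
  refine ⟨2 * m, by omega, fun N _ hN w hw => ?_⟩
  have hw' : (N : 𝓞 E) ∉ w.asIdeal := by
    intro h'
    exact hw (mem_pl_above.mpr (mem_pl.mpr h'))
  have hwu : (w.under (𝓞 ℚ)) ∉ pl ℚ N := fun h' => hw ((mem_above E).mpr h')
  refine NV.ramificationIdx'_eq_one h2 hc hsq hcα ?_ ?_
  · intro h'
    apply hw'
    obtain ⟨j, hj⟩ : 2 ∣ N := (Dvd.intro m rfl).trans hN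
    rw [hj]
    push_cast
    exact w.asIdeal.mul_mem_right _ (by exact_mod_cast h')
  · have h1 := mem_E.mp (h N (NeZero.ne N) ((Dvd.intro_left 2 rfl).trans hN)) (w.under (𝓞 ℚ))
      (fun h' => hwu (mem_pl.mpr ((Tower.mem_SN (NeZero.ne N)).mp h')))
    rw [h1]
    exact dvd_zero _

end Unr

end Fermat.Agent.Classic.Dih
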